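import Mathlib

/-!
# S20 / part (B3): arithmetic lemmas for the cusp count  (OWNER: helper3)

Pure elementary number theory (no matrices): the complete invariant of a `T`-orbit of cosets of
`Γ₀(N)` with first column `(a, c)` is `(d, a (c/d)⁻¹ mod g)` with `d = gcd(c, N)`,
`g = gcd(d, N/d)`.
-/

set_option autoImplicit false

namespace Fermat.Agent.S20

/-- The finite set parametrising the cusps of `Γ₀(N)`: pairs `(d, r)` with `d ∣ N`,
`r < gcd(d, N/d)` coprime to `gcd(d, N/d)`. -/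
def cuspSet (N : ℕ) : Finset (Σ _ : ℕ, ℕ) :=
  N.divisors.sigma fun d =>
    (Finset.range (Nat.gcd d (N / d))).filter fun r => (Nat.gcd d (N / d)).Coprime r

lemma cuspSet_card (N : ℕ) :
    (cuspSet N).card = ∑ d ∈ N.divisors, Nat.totient (Nat.gcd d (N / d)) := by
  rw [cuspSet, Finset.card_sigma]
  rfl

lemma mem_cuspSet {N : ℕ} {x : Σ _ : ℕ, ℕ} :
    x ∈ cuspSet N ↔ (x.1 ∣ N ∧ N ≠ 0) ∧ x.2 < Nat.gcd x.1 (N / x.1) ∧
      (Nat.gcd x.1 (N / x.1)).Coprime x.2 := by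
  rw [cuspSet, Finset.mem_sigma, Nat.mem_divisors, Finset.mem_filter, Finset.mem_range]

/-- (L1) lifting a residue prime to `g` to an integer prime to `d`, where `g ∣ d`. -/
lemma cusp_lift {d g r : ℕ} (hd : d ≠ 0) (hgd : g ∣ d) (hr : g.Coprime r) :
    ∃ a : ℤ, IsCoprime a (d : ℤ) ∧ (g : ℤ) ∣ a - r := by
  have : NeZero d := ⟨hd⟩
  obtain ⟨u', hu'⟩ := ZMod.unitsMap_surjective hgd (ZMod.unitOfCoprime r hr.symm)
  refine ⟨((u' : ZMod d).val : ℤ), ?_, ?_⟩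
  · exact Nat.isCoprime_iff_coprime.2 (ZMod.val_coe_unit_coprime u')
  · rw [← ZMod.intCast_zmod_eq_zero_iff_dvd]
    have h1 : ((ZMod.unitsMap hgd u' : (ZMod g)ˣ) : ZMod g) = (r : ZMod g) := by
      rw [hu', ZMod.coe_unitOfCoprime]
    rw [ZMod.unitsMap_val] at h1
    push_cast
    rw [sub_eq_zero, ← h1]
    simp [ZMod.natCast_val]

/-- (L2) two representatives in the same `T`-orbit have the same invariants. -/
lemma cusp_inj {N d d' : ℕ} (hN : N ≠ 0) (hd : d ∣ N) (hd' : d' ∣ N) {a a' k : ℤ}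
    (ha : IsCoprime a (d : ℤ)) (ha' : IsCoprime a' (d' : ℤ))
    (h : (N : ℤ) ∣ (a' + k * d') * d - a * d') :
    d = d' ∧ ((Nat.gcd d (N / d) : ℕ) : ℤ) ∣ a' - a := by
  have hdN : (d : ℤ) ∣ N := Int.natCast_dvd_natCast.2 hd
  have hd'N : (d' : ℤ) ∣ N := Int.natCast_dvd_natCast.2 hd'
  have h1 : (d : ℤ) ∣ d' := by
    have h2 : (d : ℤ) ∣ a * d' := by
      have h3 : (d : ℤ) ∣ (a' + k * d') * d - a * d' := hdN.trans h
      have h4 : (d : ℤ) ∣ (a' + k * d') * d := Dvd.intro_left _ rfl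
      exact (dvd_sub_right h4).1 h3
    exact ha.symm.dvd_of_dvd_mul_left h2
  have h1' : (d' : ℤ) ∣ d := by
    have h2 : (d' : ℤ) ∣ a' * d := by
      have h3 : (d' : ℤ) ∣ (a' + k * d') * d - a * d' := hd'N.trans h
      have e : a' * (d : ℤ) = ((a' + k * d') * d - a * d') + d' * (a - k * d) := by ring
      rw [e]
      exact dvd_add h3 (Dvd.intro _ rfl)
    exact ha'.symm.dvd_of_dvd_mul_left h2
  have hdd : d = d' :=
    Nat.dvd_antisymm (Int.natCast_dvd_natCast.1 h1) (Int.natCast_dvd_natCast.1 h1')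
  subst hdd
  refine ⟨rfl, ?_⟩
  have hd0 : d ≠ 0 := fun h0 => hN (Nat.eq_zero_of_zero_dvd (h0 ▸ hd))
  obtain ⟨M, hM⟩ := hd
  have hM' : N / d = M := by
    rw [hM, Nat.mul_div_cancel_left _ (Nat.pos_of_ne_zero hd0)]
  rw [hM']
  have h5 : (M : ℤ) ∣ a' + k * d - a := by
    have e : (a' + k * d) * d - a * d = d * (a' + k * d - a) := by ring
    rw [e, hM, Nat.cast_mul] at h
    exact (mul_dvd_mul_iff_left (by exact_mod_cast hd0)).1 h
  have hgM : ((Nat.gcd d M : ℕ) : ℤ) ∣ M := Int.natCast_dvd_natCast.2 (Nat.gcd_dvd_right d M)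
  have hgd : ((Nat.gcd d M : ℕ) : ℤ) ∣ d := Int.natCast_dvd_natCast.2 (Nat.gcd_dvd_left d M)
  have e : a' - a = (a' + k * d - a) - k * d := by ring
  rw [e]
  exact dvd_sub (hgM.trans h5) (Dvd.dvd.mul_left hgd k)

/-- (L3) solving for the translation `k`. -/
lemma cusp_solve {N d M : ℕ} (hNd : N = d * M) {a c γ a₀ : ℤ} (hc : c = d * γ)
    (hγ : IsCoprime γ (M : ℤ)) (h : ((Nat.gcd d M : ℕ) : ℤ) ∣ a₀ * γ - a) :
    ∃ k : ℤ, (N : ℤ) ∣ (a₀ + k * d) * c - a * d := by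
  obtain ⟨m, hm⟩ := h
  obtain ⟨x₂, y₂, h2⟩ := hγ
  have h1 := Nat.gcd_eq_gcd_ab d M
  refine ⟨-m * (Nat.gcdA d M) * x₂, ⟨m * ((Nat.gcdB d M) * x₂ * γ + (Nat.gcd d M : ℤ) * y₂), ?_⟩⟩
  rw [hNd, hc]
  push_cast
  linear_combination (d : ℤ) * hm + (d : ℤ) * m * x₂ * γ * h1 -
    (d : ℤ) * m * (Nat.gcd d M : ℤ) * h2

/-- (L4) the invariants `(d, r)` of a coprime pair `(a, c)`. -/
lemma cusp_invariant {N : ℕ} (hN : N ≠ 0) {a c : ℤ} (hac : IsCoprime a c) :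
    ∃ d M : ℕ, ∃ γ : ℤ, ∃ r : ℕ, N = d * M ∧ c = d * γ ∧ IsCoprime γ (M : ℤ) ∧
      r < Nat.gcd d M ∧ (Nat.gcd d M).Coprime r ∧
      ∀ a₀ : ℤ, ((Nat.gcd d M : ℕ) : ℤ) ∣ a₀ - r → ((Nat.gcd d M : ℕ) : ℤ) ∣ a₀ * γ - a := by
  set d : ℕ := Int.gcd c N with hd
  have hdpos : 0 < d := Int.gcd_pos_of_ne_zero_right _ (by exact_mod_cast hN)
  have hdN : d ∣ N := by
    have := Int.gcd_dvd_right c (N : ℤ)
    exact Int.natCast_dvd_natCast.1 this
  have hdc : (d : ℤ) ∣ c := Int.gcd_dvd_left c (N : ℤ)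
  obtain ⟨M, hM⟩ := hdN
  obtain ⟨γ, hγ⟩ := hdc
  have hcop : IsCoprime γ (M : ℤ) := by
    rw [Int.isCoprime_iff_gcd_eq_one]
    have h1 : Int.gcd c N = d * Int.gcd γ M := by
      rw [hγ, hM, Nat.cast_mul, Int.gcd_mul_left]
      simp
    rw [← hd] at h1
    have : d * 1 = d * Int.gcd γ M := by rw [mul_one]; exact h1
    exact (Nat.eq_of_mul_eq_mul_left hdpos this).symm
  set g : ℕ := Nat.gcd d M with hg
  have hgpos : 0 < g := Nat.gcd_pos_of_pos_left _ hdpos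
  have : NeZero g := ⟨hgpos.ne'⟩
  have hgM : (g : ℤ) ∣ M := Int.natCast_dvd_natCast.2 (Nat.gcd_dvd_right d M)
  have hgd : (g : ℤ) ∣ d := Int.natCast_dvd_natCast.2 (Nat.gcd_dvd_left d M)
  -- `γ` and `a` are units mod `g`
  have hγu : IsUnit ((γ : ℤ) : ZMod g) := by
    rw [ZMod.coe_int_isUnit_iff_isCoprime]
    exact (hcop.of_isCoprime_of_dvd_right hgM).symm
  have hau : IsUnit ((a : ℤ) : ZMod g) := by
    rw [ZMod.coe_int_isUnit_iff_isCoprime]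
    have h1 : IsCoprime a (d : ℤ) := hac.of_isCoprime_of_dvd_right ⟨γ, hγ⟩
    exact (h1.of_isCoprime_of_dvd_right hgd).symm
  set u : (ZMod g)ˣ := hau.unit * hγu.unit⁻¹ with hu
  refine ⟨d, M, γ, (u : ZMod g).val, hM, hγ, hcop, ZMod.val_lt _,
    (ZMod.val_coe_unit_coprime u).symm, ?_⟩
  intro a₀ h0
  rw [← ZMod.intCast_zmod_eq_zero_iff_dvd] at h0 ⊢
  push_cast at h0 ⊢
  rw [ZMod.natCast_val, ZMod.cast_id', id, sub_eq_zero] at h0
  rw [h0, hu, Units.val_mul, IsUnit.unit_spec, mul_assoc]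
  have : ((hγu.unit⁻¹ : (ZMod g)ˣ) : ZMod g) * (γ : ZMod g) = 1 := by
    have := hγu.unit.inv_mul
    rwa [IsUnit.unit_spec] at this
  rw [this, mul_one, sub_self]

end Fermat.Agent.S20
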