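import Fermat.Agent.S20.CosetBasic
import Fermat.Agent.S20.CosetCuspArith

/-!
# S20 / part (B3): the number of `T`-orbits on `SL(2, ℤ) ⧸ Γ₀(N)` is `cuspCount N`
(OWNER: helper3)
-/

set_option autoImplicit false

namespace Fermat.Agent.S20

open Matrix Matrix.SpecialLinearGroup CongruenceSubgroup ModularGroup
open scoped MatrixGroups

variable (N : ℕ)

/-- Two cosets are in the same `⟨T⟩`-orbit iff `N ∣ (a₂ + k c₂) c₁ - a₁ c₂` for some `k`. -/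
lemma coset_orbit_iff (g₁ g₂ : SL(2, ℤ)) :
    (Quotient.mk'' (g₁ : SL(2, ℤ) ⧸ Gamma0 N) :
        MulAction.orbitRel.Quotient (Subgroup.zpowers T) (SL(2, ℤ) ⧸ Gamma0 N)) =
      Quotient.mk'' (g₂ : SL(2, ℤ) ⧸ Gamma0 N) ↔
    ∃ k : ℤ, (N : ℤ) ∣ (g₂ 0 0 + k * g₂ 1 0) * g₁ 1 0 - g₁ 0 0 * g₂ 1 0 := by
  rw [Quotient.eq'']
  rw [MulAction.orbitRel_apply, MulAction.mem_orbit_iff]
  constructor
  · rintro ⟨⟨h, hh⟩, hk⟩
    obtain ⟨k, rfl⟩ := Subgroup.mem_zpowers_iff.1 hh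
    refine ⟨k, ?_⟩
    have hk' : ((T ^ k * g₂ : SL(2, ℤ)) : SL(2, ℤ) ⧸ Gamma0 N) = g₁ := hk
    rw [coset_eq_iff, (coset_T_zpow_mul_col k g₂).1, (coset_T_zpow_mul_col k g₂).2] at hk'
    exact hk'
  · rintro ⟨k, hk⟩
    refine ⟨⟨T ^ k, Subgroup.zpow_mem_zpowers T k⟩, ?_⟩
    show ((T ^ k * g₂ : SL(2, ℤ)) : SL(2, ℤ) ⧸ Gamma0 N) = g₁
    rw [coset_eq_iff, (coset_T_zpow_mul_col k g₂).1, (coset_T_zpow_mul_col k g₂).2]
    exact hk

/-- (B3) The number of `⟨T⟩`-orbits of cosets of `Γ₀(N)` is `cuspCount N`. -/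
theorem coset_card_orbits_T [NeZero N] :
    Nat.card (MulAction.orbitRel.Quotient (Subgroup.zpowers T) (SL(2, ℤ) ⧸ Gamma0 N)) =
      ModularCurve.cuspCount N := by
  classical
  have hN : N ≠ 0 := NeZero.ne N
  rw [ModularCurve.cuspCount, ← cuspSet_card, ← Nat.card_eq_finsetCard]
  symm
  -- representatives
  have hrep : ∀ x : cuspSet N, ∃ g : SL(2, ℤ), g 1 0 = (x.1.1 : ℤ) ∧
      ((Nat.gcd x.1.1 (N / x.1.1) : ℕ) : ℤ) ∣ g 0 0 - (x.1.2 : ℤ) := by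
    rintro ⟨x, hx⟩
    obtain ⟨⟨hd, -⟩, -, hcop⟩ := mem_cuspSet.1 hx
    have hd0 : x.1 ≠ 0 := fun h0 => hN (Nat.eq_zero_of_zero_dvd (h0 ▸ hd))
    obtain ⟨a, ha, har⟩ := cusp_lift hd0 (Nat.gcd_dvd_left x.1 (N / x.1)) hcop
    obtain ⟨g, hg0, hg1⟩ := coset_exists_col ha
    exact ⟨g, hg1, by rw [hg0]; exact har⟩
  choose rep hrep1 hrep2 using hrep
  refine Nat.card_congr (Equiv.ofBijective
    (fun x => (Quotient.mk'' (rep x : SL(2, ℤ) ⧸ Gamma0 N) :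
      MulAction.orbitRel.Quotient (Subgroup.zpowers T) (SL(2, ℤ) ⧸ Gamma0 N))) ⟨?_, ?_⟩)
  · -- injectivity
    rintro ⟨x, hx⟩ ⟨y, hy⟩ hxy
    obtain ⟨k, hk⟩ := (coset_orbit_iff N _ _).1 hxy
    obtain ⟨⟨hdx, -⟩, hrx, -⟩ := mem_cuspSet.1 hx
    obtain ⟨⟨hdy, -⟩, hry, -⟩ := mem_cuspSet.1 hy
    have hcx : IsCoprime ((rep ⟨x, hx⟩) 0 0) (x.1 : ℤ) := by
      rw [← hrep1 ⟨x, hx⟩]; exact coset_isCoprime_col _
    have hcy : IsCoprime ((rep ⟨y, hy⟩) 0 0) (y.1 : ℤ) := by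
      rw [← hrep1 ⟨y, hy⟩]; exact coset_isCoprime_col _
    rw [hrep1 ⟨x, hx⟩, hrep1 ⟨y, hy⟩] at hk
    obtain ⟨hd, hdiv⟩ := cusp_inj hN hdx hdy hcx hcy hk
    have h1 := hrep2 ⟨x, hx⟩
    have h2 := hrep2 ⟨y, hy⟩
    obtain ⟨d, r⟩ := x
    obtain ⟨d', r'⟩ := y
    simp only at hd hdiv h1 h2 hrx hry
    subst hd
    have h3 : ((Nat.gcd d (N / d) : ℕ) : ℤ) ∣ (r' : ℤ) - r := by
      have e : (r' : ℤ) - r = ((rep ⟨⟨d, r'⟩, hy⟩) 0 0 - (rep ⟨⟨d, r⟩, hx⟩) 0 0)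
          - ((rep ⟨⟨d, r'⟩, hy⟩) 0 0 - r') + ((rep ⟨⟨d, r⟩, hx⟩) 0 0 - r) := by ring
      rw [e]
      exact dvd_add (dvd_sub hdiv h2) h1
    have h4 : (r' : ℤ) - r = 0 := by
      apply Int.eq_zero_of_abs_lt_dvd h3
      rw [abs_lt]
      constructor <;> omega
    have h5 : r = r' := by omega
    subst h5
    rfl
  · -- surjectivity
    intro q
    induction q using Quotient.inductionOn with
    | h x =>
      induction x using QuotientGroup.induction_on with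
      | H g =>
        obtain ⟨d, M, γ, r, hNd, hc, hγ, hr, hcop, hall⟩ := cusp_invariant hN (coset_isCoprime_col g)
        have hd0 : d ≠ 0 := by
          rintro rfl
          rw [zero_mul] at hNd
          exact hN hNd
        have hM : N / d = M := by
          rw [hNd, Nat.mul_div_cancel_left _ (Nat.pos_of_ne_zero hd0)]
        have hmem : (⟨d, r⟩ : Σ _ : ℕ, ℕ) ∈ cuspSet N := by
          rw [mem_cuspSet]
          simp only
          rw [hM]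
          exact ⟨⟨⟨M, hNd⟩, hN⟩, hr, hcop⟩
        refine ⟨⟨⟨d, r⟩, hmem⟩, ?_⟩
        have h1 := hrep1 ⟨⟨d, r⟩, hmem⟩
        have h2 := hrep2 ⟨⟨d, r⟩, hmem⟩
        simp only at h1 h2
        rw [hM] at h2
        obtain ⟨k, hk⟩ := cusp_solve (a := g 0 0) hNd hc hγ (hall _ h2)
        symm
        apply (coset_orbit_iff N _ _).2
        refine ⟨k, ?_⟩
        rw [h1]
        exact hk

end Fermat.Agent.S20
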