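import Fermat.Agent.S20.CosetBasic

/-!
# S20 / part (B0): the index of `Γ₀(N)` in `SL(2, ℤ)` is `dedekindPsi N`  (OWNER: helper5, as proposed by helper3)

Statement of `coset_card` FROZEN (byte-identical to the skeleton).

Tower argument, one prime at a time: `[Γ₀(N) : Γ₀(pN)]` is `p` if `p ∣ N` and `p + 1` otherwise,
and `dedekindPsi` satisfies the same recursion.
-/

set_option linter.style.haveILetI false

set_option autoImplicit false

namespace Fermat.Agent.S20

open Matrix Matrix.SpecialLinearGroup CongruenceSubgroup ModularGroup ModularCurve Finset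
open scoped MatrixGroups

theorem coset_index_mem_Gamma0_iff {N : ℕ} {A : SL(2, ℤ)} : A ∈ Gamma0 N ↔ (N : ℤ) ∣ A 1 0 := by
  rw [Gamma0_mem, ZMod.intCast_zmod_eq_zero_iff_dvd]

theorem coset_index_Gamma0_le {N M : ℕ} (h : N ∣ M) : Gamma0 M ≤ Gamma0 N := by
  intro A hA
  rw [coset_index_mem_Gamma0_iff] at hA ⊢
  exact (Int.natCast_dvd_natCast.mpr h).trans hA

/-- The "lower-left entry divided by `N`" of an element of `Γ₀(N)`, reduced modulo `p`. -/
noncomputable def coset_index_c (N p : ℕ) (g : Gamma0 N) : ZMod p :=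
  ((g.1 1 0 / (N : ℤ) : ℤ) : ZMod p)

/-- The upper-left entry, reduced modulo `p`. -/
noncomputable def coset_index_a (N p : ℕ) (g : Gamma0 N) : ZMod p :=
  ((g.1 0 0 : ℤ) : ZMod p)

theorem coset_index_quot_eq_iff {N p : ℕ} (hN : N ≠ 0) (g₁ g₂ : Gamma0 N) :
    (QuotientGroup.mk g₁ : Gamma0 N ⧸ (Gamma0 (p * N)).subgroupOf (Gamma0 N)) =
        QuotientGroup.mk g₂ ↔
      coset_index_a N p g₁ * coset_index_c N p g₂ -
        coset_index_a N p g₂ * coset_index_c N p g₁ = 0 := by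
  rw [QuotientGroup.eq, Subgroup.mem_subgroupOf]
  have h1 : ((g₁⁻¹ * g₂ : Gamma0 N) : SL(2, ℤ)) = (g₁ : SL(2, ℤ))⁻¹ * g₂ := rfl
  rw [h1, ← QuotientGroup.eq, coset_eq_iff]
  obtain ⟨c₁, hc₁⟩ := coset_index_mem_Gamma0_iff.mp g₁.2
  obtain ⟨c₂, hc₂⟩ := coset_index_mem_Gamma0_iff.mp g₂.2
  have hN' : (N : ℤ) ≠ 0 := by exact_mod_cast hN
  have e₁ : g₁.1 1 0 / (N : ℤ) = c₁ := by rw [hc₁, Int.mul_ediv_cancel_left _ hN']
  have e₂ : g₂.1 1 0 / (N : ℤ) = c₂ := by rw [hc₂, Int.mul_ediv_cancel_left _ hN']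
  simp only [coset_index_a, coset_index_c, e₁, e₂]
  rw [hc₁, hc₂]
  have h2 : g₁.1 0 0 * ((N : ℤ) * c₂) - g₂.1 0 0 * ((N : ℤ) * c₁) =
      (g₁.1 0 0 * c₂ - g₂.1 0 0 * c₁) * (N : ℤ) := by ring
  rw [h2]
  push_cast
  rw [mul_dvd_mul_iff_right hN']
  rw [← ZMod.intCast_zmod_eq_zero_iff_dvd]
  push_cast
  rfl

/-- Not both of `a` and `c / N` vanish modulo `p`. -/
theorem coset_index_ne_zero {N p : ℕ} (hp : p.Prime) (hN : N ≠ 0) (g : Gamma0 N) :
    coset_index_a N p g ≠ 0 ∨ coset_index_c N p g ≠ 0 := by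
  by_contra hcon
  rw [not_or, not_not, not_not] at hcon
  obtain ⟨ha, hc⟩ := hcon
  rw [coset_index_a, ZMod.intCast_zmod_eq_zero_iff_dvd] at ha
  rw [coset_index_c, ZMod.intCast_zmod_eq_zero_iff_dvd] at hc
  obtain ⟨c₁, hc₁⟩ := coset_index_mem_Gamma0_iff.mp g.2
  have hN' : (N : ℤ) ≠ 0 := by exact_mod_cast hN
  have e₁ : g.1 1 0 / (N : ℤ) = c₁ := by rw [hc₁, Int.mul_ediv_cancel_left _ hN']
  rw [e₁] at hc
  have hcop := coset_isCoprime_col g.1
  have hdvd : (p : ℤ) ∣ g.1 1 0 := by rw [hc₁]; exact hc.mul_left _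
  have := hcop.isUnit_of_dvd' ha hdvd
  rw [Int.isUnit_iff] at this
  have hp2 := hp.two_le
  omega

/-- If `p ∣ N` then `a` is a unit modulo `p`. -/
theorem coset_index_a_ne_zero {N p : ℕ} (hp : p.Prime) (h : p ∣ N) (g : Gamma0 N) :
    coset_index_a N p g ≠ 0 := by
  intro ha
  rw [coset_index_a, ZMod.intCast_zmod_eq_zero_iff_dvd] at ha
  have hcop := coset_isCoprime_col g.1
  have hdvd : (p : ℤ) ∣ g.1 1 0 :=
    (Int.natCast_dvd_natCast.mpr h).trans (coset_index_mem_Gamma0_iff.mp g.2)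
  have := hcop.isUnit_of_dvd' ha hdvd
  rw [Int.isUnit_iff] at this
  have hp2 := hp.two_le
  omega

/-- The lower unipotent element `[[1, 0], [N t, 1]]` of `Γ₀(N)`. -/
def coset_index_low (N : ℕ) (t : ℤ) : Gamma0 N :=
  ⟨⟨!![1, 0; (N : ℤ) * t, 1], by rw [det_fin_two_of]; ring⟩,
    coset_index_mem_Gamma0_iff.mpr ⟨t, rfl⟩⟩

theorem coset_index_low_a (N p : ℕ) (t : ℤ) : coset_index_a N p (coset_index_low N t) = 1 := by
  simp [coset_index_a, coset_index_low]

theorem coset_index_low_c {N : ℕ} (p : ℕ) (hN : N ≠ 0) (t : ℤ) :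
    coset_index_c N p (coset_index_low N t) = (t : ZMod p) := by
  have hN' : (N : ℤ) ≠ 0 := by exact_mod_cast hN
  have : (coset_index_low N t).1 1 0 = (N : ℤ) * t := rfl
  rw [coset_index_c, this, Int.mul_ediv_cancel_left _ hN']

theorem coset_index_relIndex_of_dvd {N p : ℕ} (hp : p.Prime) (hN : N ≠ 0) (h : p ∣ N) :
    (Gamma0 (p * N)).relIndex (Gamma0 N) = p := by
  haveI : Fact p.Prime := ⟨hp⟩
  rw [Subgroup.relIndex, Subgroup.index_eq_card]
  let f : Gamma0 N → ZMod p := fun g => coset_index_c N p g / coset_index_a N p g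
  have hf : ∀ g₁ g₂ : Gamma0 N,
      (QuotientGroup.mk g₁ : Gamma0 N ⧸ (Gamma0 (p * N)).subgroupOf (Gamma0 N)) =
        QuotientGroup.mk g₂ ↔ f g₁ = f g₂ := by
    intro g₁ g₂
    rw [coset_index_quot_eq_iff hN]
    have h1 := coset_index_a_ne_zero hp h g₁
    have h2 := coset_index_a_ne_zero hp h g₂
    simp only [f]
    rw [div_eq_div_iff h1 h2, sub_eq_zero]
    constructor
    · intro e
      rw [mul_comm, ← e, mul_comm]
    · intro e
      rw [mul_comm, ← e, mul_comm]
  let F : (Gamma0 N ⧸ (Gamma0 (p * N)).subgroupOf (Gamma0 N)) → ZMod p :=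
    Quotient.lift f (fun g₁ g₂ hrel => (hf g₁ g₂).mp (Quotient.sound hrel))
  have hinj : Function.Injective F := by
    intro x y
    induction x using QuotientGroup.induction_on
    induction y using QuotientGroup.induction_on
    intro hxy
    exact (hf _ _).mpr hxy
  have hsurj : Function.Surjective F := by
    intro t
    refine ⟨QuotientGroup.mk (coset_index_low N (t.val : ℤ)), ?_⟩
    show f (coset_index_low N (t.val : ℤ)) = t
    simp only [f]
    rw [coset_index_low_a, coset_index_low_c p hN, div_one]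
    simp
  rw [Nat.card_eq_of_bijective F ⟨hinj, hsurj⟩, Nat.card_zmod]

theorem coset_index_relIndex_of_not_dvd {N p : ℕ} (hp : p.Prime) (hN : N ≠ 0) (h : ¬ p ∣ N) :
    (Gamma0 (p * N)).relIndex (Gamma0 N) = p + 1 := by
  haveI : Fact p.Prime := ⟨hp⟩
  rw [Subgroup.relIndex, Subgroup.index_eq_card]
  classical
  let f : Gamma0 N → Option (ZMod p) := fun g =>
    if coset_index_a N p g = 0 then none else some (coset_index_c N p g / coset_index_a N p g)
  have hf : ∀ g₁ g₂ : Gamma0 N,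
      (QuotientGroup.mk g₁ : Gamma0 N ⧸ (Gamma0 (p * N)).subgroupOf (Gamma0 N)) =
        QuotientGroup.mk g₂ ↔ f g₁ = f g₂ := by
    intro g₁ g₂
    rw [coset_index_quot_eq_iff hN]
    have h1 := coset_index_ne_zero hp hN g₁
    have h2 := coset_index_ne_zero hp hN g₂
    simp only [f]
    by_cases ha1 : coset_index_a N p g₁ = 0 <;> by_cases ha2 : coset_index_a N p g₂ = 0
    · simp [ha1, ha2]
    · have hc1 : coset_index_c N p g₁ ≠ 0 := h1.resolve_left (not_not.mpr ha1)
      simp [ha1, ha2, hc1]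
    · have hc2 : coset_index_c N p g₂ ≠ 0 := h2.resolve_left (not_not.mpr ha2)
      simp [ha1, ha2, hc2]
    · simp only [ha1, ha2, if_false, Option.some.injEq]
      rw [div_eq_div_iff ha1 ha2, sub_eq_zero]
      constructor
      · intro e
        rw [mul_comm, ← e, mul_comm]
      · intro e
        rw [mul_comm, ← e, mul_comm]
  let F : (Gamma0 N ⧸ (Gamma0 (p * N)).subgroupOf (Gamma0 N)) → Option (ZMod p) :=
    Quotient.lift f (fun g₁ g₂ hrel => (hf g₁ g₂).mp (Quotient.sound hrel))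
  have hinj : Function.Injective F := by
    intro x y
    induction x using QuotientGroup.induction_on
    induction y using QuotientGroup.induction_on
    intro hxy
    exact (hf _ _).mpr hxy
  have hsurj : Function.Surjective F := by
    intro t
    cases t with
    | none =>
      have hcop : IsCoprime (p : ℤ) (N : ℤ) := by
        rw [Int.isCoprime_iff_gcd_eq_one]
        exact_mod_cast (Nat.Prime.coprime_iff_not_dvd hp).mpr h
      obtain ⟨g, hg0, hg1⟩ := coset_exists_col hcop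
      have hg : g ∈ Gamma0 N := coset_index_mem_Gamma0_iff.mpr ⟨1, by rw [hg1, mul_one]⟩
      refine ⟨QuotientGroup.mk ⟨g, hg⟩, ?_⟩
      show f ⟨g, hg⟩ = none
      have : coset_index_a N p ⟨g, hg⟩ = 0 := by
        simp [coset_index_a, hg0]
      simp only [f, this, if_true]
    | some t =>
      refine ⟨QuotientGroup.mk (coset_index_low N (t.val : ℤ)), ?_⟩
      show f (coset_index_low N (t.val : ℤ)) = some t
      simp only [f]
      rw [coset_index_low_a, coset_index_low_c p hN, div_one]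
      simp
  rw [Nat.card_eq_of_bijective F ⟨hinj, hsurj⟩, Nat.card_eq_fintype_card, Fintype.card_option,
    ZMod.card]

theorem coset_index_psi_mul_of_dvd {N p : ℕ} (hp : p.Prime) (hN : N ≠ 0) (h : p ∣ N) :
    dedekindPsi (p * N) = p * dedekindPsi N := by
  unfold dedekindPsi
  have hset : (p * N).divisors.filter Squarefree = N.divisors.filter Squarefree := by
    ext d
    simp only [mem_filter, Nat.mem_divisors]
    constructor
    · rintro ⟨⟨hd, -⟩, hsq⟩
      refine ⟨⟨?_, hN⟩, hsq⟩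
      by_cases hpd : p ∣ d
      · obtain ⟨d', rfl⟩ := hpd
        have hcop : Nat.Coprime p d' := by
          have := Nat.squarefree_mul_iff.mp hsq
          exact this.1
        have hd' : d' ∣ N := Nat.dvd_of_mul_dvd_mul_left hp.pos hd
        exact Nat.Coprime.mul_dvd_of_dvd_of_dvd hcop h hd'
      · have hcop : Nat.Coprime d p := (Nat.Coprime.symm ((Nat.Prime.coprime_iff_not_dvd hp).mpr hpd))
        exact hcop.dvd_of_dvd_mul_left hd
    · rintro ⟨⟨hd, -⟩, hsq⟩
      exact ⟨⟨hd.mul_left p, mul_ne_zero hp.ne_zero hN⟩, hsq⟩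
  rw [hset, Finset.mul_sum]
  apply Finset.sum_congr rfl
  intro d hd
  simp only [mem_filter, Nat.mem_divisors] at hd
  exact Nat.mul_div_assoc p hd.1.1

theorem coset_index_psi_mul_of_not_dvd {N p : ℕ} (hp : p.Prime) (hN : N ≠ 0) (h : ¬ p ∣ N) :
    dedekindPsi (p * N) = (p + 1) * dedekindPsi N := by
  unfold dedekindPsi
  rw [← Finset.sum_filter_add_sum_filter_not ((p * N).divisors.filter Squarefree) (fun d => p ∣ d)]
  have hset1 : ((p * N).divisors.filter Squarefree).filter (fun d => ¬ p ∣ d) =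
      N.divisors.filter Squarefree := by
    ext d
    simp only [mem_filter, Nat.mem_divisors]
    constructor
    · rintro ⟨⟨⟨hd, -⟩, hsq⟩, hpd⟩
      have hcop : Nat.Coprime d p := (Nat.Coprime.symm ((Nat.Prime.coprime_iff_not_dvd hp).mpr hpd))
      exact ⟨⟨hcop.dvd_of_dvd_mul_left hd, hN⟩, hsq⟩
    · rintro ⟨⟨hd, -⟩, hsq⟩
      exact ⟨⟨⟨hd.mul_left p, mul_ne_zero hp.ne_zero hN⟩, hsq⟩, fun hpd => h (hpd.trans hd)⟩
  have hset2 : ((p * N).divisors.filter Squarefree).filter (fun d => p ∣ d) =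
      (N.divisors.filter Squarefree).image (fun d => p * d) := by
    ext d
    simp only [mem_filter, Nat.mem_divisors, mem_image]
    constructor
    · rintro ⟨⟨⟨hd, -⟩, hsq⟩, hpd⟩
      obtain ⟨d', rfl⟩ := hpd
      refine ⟨d', ⟨⟨Nat.dvd_of_mul_dvd_mul_left hp.pos hd, hN⟩, ?_⟩, rfl⟩
      exact (Nat.squarefree_mul_iff.mp hsq).2.2
    · rintro ⟨d', ⟨⟨hd', -⟩, hsq⟩, rfl⟩
      refine ⟨⟨⟨Nat.mul_dvd_mul_left p hd', mul_ne_zero hp.ne_zero hN⟩, ?_⟩, dvd_mul_right p d'⟩
      rw [Nat.squarefree_mul_iff]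
      refine ⟨?_, hp.squarefree, hsq⟩
      rw [Nat.Prime.coprime_iff_not_dvd hp]
      exact fun hpd => h (hpd.trans hd')
  rw [hset1, hset2, Finset.sum_image (fun x _ y _ hxy => Nat.eq_of_mul_eq_mul_left hp.pos hxy),
    add_mul, one_mul, Finset.mul_sum, add_comm]
  congr 1
  · apply Finset.sum_congr rfl
    intro d hd
    simp only [mem_filter, Nat.mem_divisors] at hd
    exact Nat.mul_div_assoc p hd.1.1
  · apply Finset.sum_congr rfl
    intro d hd
    simp only [mem_filter, Nat.mem_divisors] at hd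
    rw [Nat.mul_div_mul_left _ _ hp.pos]

theorem coset_index_Gamma0_one : Gamma0 1 = ⊤ := by
  rw [Subgroup.eq_top_iff']
  intro A
  rw [coset_index_mem_Gamma0_iff]
  simp

/-- The index of `Γ₀(N)` in `SL(2, ℤ)` is `dedekindPsi N`. -/
theorem coset_index_eq (N : ℕ) (hN : N ≠ 0) : (Gamma0 N).index = dedekindPsi N := by
  induction N using induction_on_primes with
  | zero => exact absurd rfl hN
  | one => rw [coset_index_Gamma0_one, Subgroup.index_top, dedekindPsi_one]
  | prime_mul p a hp ih =>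
    have ha : a ≠ 0 := right_ne_zero_of_mul hN
    rw [← Subgroup.relIndex_mul_index (coset_index_Gamma0_le (dvd_mul_left a p)), ih ha]
    by_cases h : p ∣ a
    · rw [coset_index_relIndex_of_dvd hp ha h, coset_index_psi_mul_of_dvd hp ha h]
    · rw [coset_index_relIndex_of_not_dvd hp ha h, coset_index_psi_mul_of_not_dvd hp ha h]

/-- (B0) the number of cosets of `Γ₀(N)` in `SL(2, ℤ)` is `dedekindPsi N`. -/
theorem coset_card (N : ℕ) [NeZero N] :
    Nat.card (SL(2, ℤ) ⧸ Gamma0 N) = ModularCurve.dedekindPsi N := by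
  rw [← Subgroup.index_eq_card]
  exact coset_index_eq N (NeZero.ne N)

end Fermat.Agent.S20
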