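import Mathlib

/-!
# S20 / LevelOne auxiliary: level-one forms of nonzero weight lie in the ideal `(E₄, E₆)`
(OWNER: helper6; consumer: `LevelOne.exists_E4_E6_decomp`)

`l1_levelOne_decomp` : every `h ∈ M_k(SL₂(ℤ))`, `k > 0`, is `E₄ a + E₆ b` with
`a ∈ M_{k-4}(SL₂(ℤ))`, `b ∈ M_{k-6}(SL₂(ℤ))`.
-/

set_option autoImplicit false
set_option linter.unusedVariables false

namespace Fermat.Agent.S20

open UpperHalfPlane ModularForm ModularFormClass MatrixGroups EisensteinSeries

/-- A modular form of level one and weight `k < 0`, or `k` odd, or `k = 2` is zero. -/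
theorem l1_levelOne_eq_zero {k : ℤ} (hk : k < 0 ∨ Odd k ∨ k = 2) (h : ModularForm 𝒮ℒ k) :
    h = 0 := by
  rcases hk with hk | hk | rfl
  · exact DFunLike.coe_injective (levelOne_neg_weight_eq_zero hk h)
  · exact ModularForm.levelOne_odd_weight_eq_zero hk h
  · have := ModularForm.levelOne_weight_two_rank_zero
    rw [rank_zero_iff_forall_zero] at this
    exact this h

/-- A level-one cusp form lies in `(E₄, E₆)` (because `1728 Δ = E₄³ - E₆²`). -/
theorem l1_cusp_decomp {k : ℤ} (f : CuspForm 𝒮ℒ k) :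
    ∃ (a : ModularForm 𝒮ℒ (k - 4)) (b : ModularForm 𝒮ℒ (k - 6)),
      ∀ z, f z = E₄ z * a z + E₆ z * b z := by
  set h' : ModularForm 𝒮ℒ (k - 12) := CuspForm.discriminantEquiv f with hh'
  refine ⟨(1 / 1728 : ℂ) • ModularForm.mcast (by push_cast; ring) ((E₄.mul E₄).mul h'),
    (-1 / 1728 : ℂ) • ModularForm.mcast (by push_cast; ring) (E₆.mul h'), fun z => ?_⟩
  have h1 : ModularForm.discriminant z * h' z = f z :=
    ModularForm.discriminant_mul_discriminantEquiv_apply f z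
  have h2 := ModularForm.discriminant_eq_E₄_cube_sub_E₆_sq z
  simp only [smul_apply, ModularForm.mcast_apply, ModularForm.coe_mul, Pi.mul_apply, smul_eq_mul]
  rw [← h1, h2]
  ring

/-- A level-one form of weight `k` with constant term `1` which is a multiple of `E₄` or `E₆`,
for `k ≥ 4` even. -/
theorem l1_exists_monic {k : ℤ} (hk : 4 ≤ k) (hev : Even k) :
    ∃ (a : ModularForm 𝒮ℒ (k - 4)) (b : ModularForm 𝒮ℒ (k - 6)) (u : ModularForm 𝒮ℒ k),
      (qExpansion 1 u).coeff 0 = 1 ∧ ∀ z, u z = E₄ z * a z + E₆ z * b z := by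
  have hE4 : (qExpansion 1 E₄).coeff 0 = 1 := E_qExpansion_coeff_zero _ ⟨2, rfl⟩
  have hE6 : (qExpansion 1 E₆).coeff 0 = 1 := E_qExpansion_coeff_zero _ ⟨3, rfl⟩
  obtain ⟨m, hm⟩ := hev
  rcases (by omega : m = 2 ∨ m = 3 ∨ 4 ≤ m) with h2 | h3 | h4
  · -- `k = 4`
    have hk4 : k = 4 := by omega
    subst hk4
    refine ⟨ModularForm.mcast (by norm_num) (1 : ModularForm 𝒮ℒ 0), 0,
      ModularForm.mcast (by norm_num) E₄, ?_, fun z => ?_⟩
    · rw [ModularForm.qExpansion_mcast]; exact hE4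
    · simp [ModularForm.mcast_apply]
  · -- `k = 6`
    have hk6 : k = 6 := by omega
    subst hk6
    refine ⟨0, ModularForm.mcast (by norm_num) (1 : ModularForm 𝒮ℒ 0),
      ModularForm.mcast (by norm_num) E₆, ?_, fun z => ?_⟩
    · rw [ModularForm.qExpansion_mcast]; exact hE6
    · simp [ModularForm.mcast_apply]
  · -- `k ≥ 8`
    obtain ⟨n, hn⟩ : ∃ n : ℕ, (n : ℤ) = k - 4 := ⟨(k - 4).toNat, by omega⟩
    have hn3 : 3 ≤ n := by omega
    have hnev : Even n := by
      have : Even ((n : ℤ)) := by rw [hn, hm]; exact ⟨m - 2, by ring⟩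
      exact_mod_cast this
    have hEn : (qExpansion 1 (E hn3)).coeff 0 = 1 := E_qExpansion_coeff_zero hn3 hnev
    refine ⟨ModularForm.mcast hn (E hn3), 0,
      ModularForm.mcast (by push_cast; omega) (E₄.mul (E hn3)), ?_, fun z => ?_⟩
    · rw [ModularForm.qExpansion_mcast,
        ModularForm.qExpansion_mul one_pos one_mem_strictPeriods_SL]
      rw [PowerSeries.coeff_zero_eq_constantCoeff] at hE4 hEn ⊢
      rw [map_mul, hE4, hEn, mul_one]
    · simp [ModularForm.mcast_apply]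

/-- **(L1)** Every level-one modular form of positive weight lies in `(E₄, E₆)`. -/
theorem l1_levelOne_decomp {k : ℤ} (hk : 0 < k) (h : ModularForm 𝒮ℒ k) :
    ∃ (a : ModularForm 𝒮ℒ (k - 4)) (b : ModularForm 𝒮ℒ (k - 6)),
      ∀ z, h z = E₄ z * a z + E₆ z * b z := by
  by_cases hodd : Odd k
  · refine ⟨0, 0, fun z => ?_⟩
    rw [l1_levelOne_eq_zero (Or.inr (Or.inl hodd)) h]
    simp
  have hev : Even k := Int.not_odd_iff_even.1 hodd
  by_cases hk2 : k = 2
  · refine ⟨0, 0, fun z => ?_⟩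
    rw [l1_levelOne_eq_zero (Or.inr (Or.inr hk2)) h]
    simp
  have hk4 : 4 ≤ k := by
    obtain ⟨m, hm⟩ := hev
    omega
  obtain ⟨a₀, b₀, u, hu, hu'⟩ := l1_exists_monic hk4 hev
  obtain ⟨g, hg⟩ := ModularForm.sub_smul_isCuspForm h u hu
  obtain ⟨a₁, b₁, hab⟩ := l1_cusp_decomp g
  set c := (qExpansion 1 h).coeff 0 with hc
  refine ⟨c • a₀ + a₁, c • b₀ + b₁, fun z => ?_⟩
  have hgz : g z = h z - c * u z := by
    have := congrArg (fun F : ModularForm 𝒮ℒ k => F z) hg
    simpa using this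
  have := hab z
  rw [hgz, hu' z] at this
  simp only [add_apply, smul_apply, smul_eq_mul]
  linear_combination this

/-- Every level-one form of nonzero weight lies in `E₄ M + E₆ M`
(exactly the shape of `LevelOne.exists_E4_E6_decomp`). -/
theorem l1_exists_E4_E6_decomp (k : ℤ) (hk : k ≠ 0) (f : ModularForm 𝒮ℒ k) :
    ∃ (a : ModularForm 𝒮ℒ (k - 4)) (b : ModularForm 𝒮ℒ (k - 6)),
      ∀ z, f z = E₄ z * a z + E₆ z * b z := by
  rcases lt_or_gt_of_ne hk with hneg | hpos
  · refine ⟨0, 0, fun z => ?_⟩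
    rw [l1_levelOne_eq_zero (Or.inl hneg) f]
    simp
  · exact l1_levelOne_decomp hpos f

end Fermat.Agent.S20
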