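import Mathlib

/-!
# The Rankin–Cohen bracket of `E₄` and `E₆` (part (A1) of the S20 project)

`W = 2 E₄ · D E₆ − 3 E₆ · D E₄ = −1728 Δ` where `D = (2πi)⁻¹ d/dz`.
Consequences: the zeros of `E₄`, `E₆` and of `a E₄³ + b E₆²` (`a, b ≠ 0`) on `ℍ` are simple.
-/

set_option autoImplicit false

open UpperHalfPlane hiding I
open Real Complex Derivative Filter Function
open scoped Manifold MatrixGroups ModularForm Topology
open EisensteinSeries ModularForm ModularFormClass SlashInvariantFormClass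

namespace Fermat.Agent.S20

noncomputable section

local notation "𝕢" => Periodic.qParam

/-- Derivative of the `q`-parameter. -/
theorem rc_hasDerivAt_qParam (z : ℂ) :
    HasDerivAt (𝕢 1) (2 * π * I * 𝕢 1 z) z := by
  unfold Function.Periodic.qParam
  have h1 : HasDerivAt (fun z : ℂ => 2 * π * I * z / (1 : ℝ)) (2 * π * I) z := by
    have := ((hasDerivAt_id z).const_mul (2 * π * I)).div_const ((1 : ℝ) : ℂ)
    simpa using this
  exact (h1.cexp).congr_deriv (mul_comm _ _)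

/-- `D f = q · F'(q)` where `F` is the cusp function of the level one form `f`. -/
theorem rc_D_eq_qderiv {k : ℤ} (f : ModularForm 𝒮ℒ k) (z : ℍ) :
    D f z = 𝕢 1 z * deriv (cuspFunction 1 f) (𝕢 1 z) := by
  have hq : ‖𝕢 1 (z : ℂ)‖ < 1 := Periodic.norm_qParam_lt_one one_pos z.im_pos
  have hF : DifferentiableAt ℂ (cuspFunction 1 f) (𝕢 1 z) :=
    ModularFormClass.differentiableAt_cuspFunction f one_pos one_mem_strictPeriods_SL hq
  have hcomp : HasDerivAt (fun w : ℂ => cuspFunction 1 f (𝕢 1 w))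
      (deriv (cuspFunction 1 f) (𝕢 1 z) * (2 * π * I * 𝕢 1 z)) z :=
    hF.hasDerivAt.comp (z : ℂ) (rc_hasDerivAt_qParam z)
  have heq : ((f : ℍ → ℂ) ∘ ofComplex) =ᶠ[𝓝 (z : ℂ)] fun w : ℂ => cuspFunction 1 f (𝕢 1 w) := by
    filter_upwards [isOpen_upperHalfPlaneSet.mem_nhds z.im_pos] with w hw
    have := SlashInvariantFormClass.eq_cuspFunction (h := 1) f ⟨w, hw⟩
      one_mem_strictPeriods_SL one_ne_zero
    simp only [comp_apply, ofComplex_apply_of_im_pos hw]
    exact this.symm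
  have hderiv : deriv ((f : ℍ → ℂ) ∘ ofComplex) z =
      deriv (cuspFunction 1 f) (𝕢 1 z) * (2 * π * I * 𝕢 1 z) :=
    (hcomp.congr_of_eventuallyEq heq).deriv
  have h2pi : (2 * π * I : ℂ) ≠ 0 := by
    simp [Real.pi_ne_zero, I_ne_zero]
  simp only [normalizedDerivOfComplex, hderiv]
  field_simp

/-- The derivative of the cusp function along `q(z)` tends to the first `q`-coefficient. -/
theorem rc_tendsto_deriv_cusp {k : ℤ} (f : ModularForm 𝒮ℒ k) :
    Tendsto (fun z : ℍ => deriv (cuspFunction 1 f) (𝕢 1 z)) atImInfty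
      (𝓝 ((qExpansion 1 f).coeff 1)) := by
  have han : AnalyticAt ℂ (cuspFunction 1 f) 0 :=
    ModularFormClass.analyticAt_cuspFunction_zero f one_pos one_mem_strictPeriods_SL
  have hc : ContinuousAt (deriv (cuspFunction 1 f)) 0 := han.deriv.continuousAt
  have h1 : (qExpansion 1 f).coeff 1 = deriv (cuspFunction 1 f) 0 := by
    simp [qExpansion_coeff]
  rw [h1]
  exact hc.tendsto.comp (qParam_tendsto_atImInfty one_pos)

/-- A level one modular form tends to its constant `q`-coefficient at `i∞`. -/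
theorem rc_tendsto_cusp {k : ℤ} (f : ModularForm 𝒮ℒ k) :
    Tendsto (fun z : ℍ => f z) atImInfty (𝓝 ((qExpansion 1 f).coeff 0)) := by
  have han : AnalyticAt ℂ (cuspFunction 1 f) 0 :=
    ModularFormClass.analyticAt_cuspFunction_zero f one_pos one_mem_strictPeriods_SL
  have h1 : (qExpansion 1 f).coeff 0 = cuspFunction 1 f 0 := by
    simp [qExpansion_coeff]
  rw [h1]
  have := han.continuousAt.tendsto.comp (qParam_tendsto_atImInfty one_pos)
  refine this.congr fun z => ?_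
  exact SlashInvariantFormClass.eq_cuspFunction (h := 1) f z one_mem_strictPeriods_SL one_ne_zero

/-- `D f / q` tends to the first `q`-coefficient. -/
theorem rc_tendsto_D_div_q {k : ℤ} (f : ModularForm 𝒮ℒ k) :
    Tendsto (fun z : ℍ => D f z / 𝕢 1 z) atImInfty (𝓝 ((qExpansion 1 f).coeff 1)) := by
  refine (rc_tendsto_deriv_cusp f).congr fun z => ?_
  rw [rc_D_eq_qderiv f z, mul_div_cancel_left₀ _ (Periodic.qParam_ne_zero _)]

/-- `D f` tends to `0` at `i∞`. -/
theorem rc_tendsto_D {k : ℤ} (f : ModularForm 𝒮ℒ k) :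
    Tendsto (fun z : ℍ => D f z) atImInfty (𝓝 0) := by
  have h := (qParam_tendsto_atImInfty one_pos).mul (rc_tendsto_deriv_cusp f)
  rw [zero_mul] at h
  refine h.congr fun z => ?_
  rw [rc_D_eq_qderiv f z]

/-- **First Rankin–Cohen bracket.** If `f`, `g` are holomorphic and slash-invariant of weights
`k`, `l` under `γ ∈ SL₂(ℤ)` then `k f · D g − l g · D f` is slash-invariant of weight
`k + l + 2` under `γ`. -/
theorem rc_slash {k l : ℤ} {f g : ℍ → ℂ} (hf : MDiff f) (hg : MDiff g) (γ : SL(2, ℤ))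
    (hfγ : f ∣[k] γ = f) (hgγ : g ∣[l] γ = g) :
    (fun z => (k : ℂ) * f z * D g z - (l : ℂ) * g z * D f z) ∣[k + l + 2] γ =
      fun z => (k : ℂ) * f z * D g z - (l : ℂ) * g z * D f z := by
  have hDf := normalizedDerivOfComplex_SL_slash (k := k) hf (γ := γ)
  have hDg := normalizedDerivOfComplex_SL_slash (k := l) hg (γ := γ)
  rw [hfγ] at hDf
  rw [hgγ] at hDg
  ext z
  have e1 := congrFun hfγ z
  have e2 := congrFun hgγ z
  have e3 := congrFun hDf z
  have e4 := congrFun hDg z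
  simp only [Pi.sub_apply, ModularForm.SL_slash_apply] at e1 e2 e3 e4 ⊢
  have hd : denom γ z ≠ 0 := denom_ne_zero γ z
  have p1 : denom γ z ^ (-(k + l + 2)) = denom γ z ^ (-k) * denom γ z ^ (-(l + 2)) := by
    rw [← zpow_add₀ hd]; congr 1; ring
  have p2 : denom γ z ^ (-(k + l + 2)) = denom γ z ^ (-l) * denom γ z ^ (-(k + 2)) := by
    rw [← zpow_add₀ hd]; congr 1; ring
  have key : ((k : ℂ) * f (γ • z) * D g (γ • z) - (l : ℂ) * g (γ • z) * D f (γ • z)) *
      denom γ z ^ (-(k + l + 2)) =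
      (k : ℂ) * (f (γ • z) * denom γ z ^ (-k)) * (D g (γ • z) * denom γ z ^ (-(l + 2))) -
      (l : ℂ) * (g (γ • z) * denom γ z ^ (-l)) * (D f (γ • z) * denom γ z ^ (-(k + 2))) := by
    have : ((k : ℂ) * f (γ • z) * D g (γ • z) - (l : ℂ) * g (γ • z) * D f (γ • z)) *
      denom γ z ^ (-(k + l + 2)) =
      (k : ℂ) * f (γ • z) * D g (γ • z) * denom γ z ^ (-(k + l + 2)) -
      (l : ℂ) * g (γ • z) * D f (γ • z) * denom γ z ^ (-(k + l + 2)) := by ring
    rw [this]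
    nth_rewrite 1 [p1]
    rw [p2]
    ring
  rw [key, e1, e2]
  linear_combination (l : ℂ) * g z * e3 - (k : ℂ) * f z * e4

/-- The Rankin–Cohen bracket of `E₄` and `E₆` (up to normalisation). -/
def rcW (z : ℍ) : ℂ := 2 * E₄ z * D E₆ z - 3 * E₆ z * D E₄ z

theorem rc_W_tendsto_div_q :
    Tendsto (fun z : ℍ => rcW z / 𝕢 1 z) atImInfty (𝓝 (-1728)) := by
  have h4 := rc_tendsto_cusp E₄
  have h6 := rc_tendsto_cusp E₆
  have d4 := rc_tendsto_D_div_q E₄
  have d6 := rc_tendsto_D_div_q E₆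
  rw [E_qExpansion_coeff_zero _ ⟨2, rfl⟩] at h4
  rw [E_qExpansion_coeff_zero _ ⟨3, rfl⟩] at h6
  rw [E₄_qExpansion_coeff_one] at d4
  rw [E₆_qExpansion_coeff_one] at d6
  have := ((h4.const_mul 2).mul d6).sub ((h6.const_mul 3).mul d4)
  have hval : (2 * 1 * (-504) - 3 * 1 * 240 : ℂ) = -1728 := by norm_num
  rw [hval] at this
  refine this.congr fun z => ?_
  simp only [rcW]
  ring

theorem rc_discriminant_tendsto_div_q :
    Tendsto (fun z : ℍ => ModularForm.discriminant z / 𝕢 1 z) atImInfty (𝓝 1) := by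
  refine tendsto_atImInfty_tprod_one_sub_eta_q_pow.congr fun z => ?_
  rw [discriminant_eq_q_prod, mul_div_cancel_left₀ _ (Periodic.qParam_ne_zero _)]

theorem rc_E4_slash (γ : SL(2, ℤ)) : (E₄ : ℍ → ℂ) ∣[(4 : ℤ)] γ = E₄ :=
  SlashInvariantForm.slash_action_eqn E₄ _ ⟨γ, rfl⟩

theorem rc_E6_slash (γ : SL(2, ℤ)) : (E₆ : ℍ → ℂ) ∣[(6 : ℤ)] γ = E₆ :=
  SlashInvariantForm.slash_action_eqn E₆ _ ⟨γ, rfl⟩

theorem rc_W_mdiff : MDiff rcW := by
  have h4 : MDiff (E₄ : ℍ → ℂ) := ModularFormClass.holo E₄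
  have h6 : MDiff (E₆ : ℍ → ℂ) := ModularFormClass.holo E₆
  have d4 : MDiff (D (E₄ : ℍ → ℂ)) := normalizedDerivOfComplex_mdifferentiable h4
  have d6 : MDiff (D (E₆ : ℍ → ℂ)) := normalizedDerivOfComplex_mdifferentiable h6
  exact ((mdifferentiable_const.mul h4).mul d6).sub ((mdifferentiable_const.mul h6).mul d4)

theorem rc_W_slash (γ : SL(2, ℤ)) : rcW ∣[(12 : ℤ)] γ = rcW := by
  have h := rc_slash (k := 4) (l := 6) (ModularFormClass.holo E₄) (ModularFormClass.holo E₆) γ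
    (rc_E4_slash γ) (rc_E6_slash γ)
  have hW : rcW = (2 : ℂ)⁻¹ • (fun z : ℍ =>
      ((4 : ℤ) : ℂ) * E₄ z * D E₆ z - ((6 : ℤ) : ℂ) * E₆ z * D E₄ z) := by
    ext z
    simp only [rcW, Pi.smul_apply, smul_eq_mul]
    push_cast
    ring
  rw [hW, ModularForm.SL_smul_slash]
  congr 1

theorem rc_W_isZeroAtImInfty : IsZeroAtImInfty rcW := by
  have h := (qParam_tendsto_atImInfty one_pos).mul rc_W_tendsto_div_q
  rw [zero_mul] at h
  refine h.congr fun z => ?_
  rw [mul_div_cancel₀ _ (Periodic.qParam_ne_zero _)]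

/-- The bracket as a cusp form of weight 12 and level one. -/
def rcWForm : CuspForm 𝒮ℒ 12 where
  toFun := rcW
  slash_action_eq' A hA := by
    obtain ⟨A, rfl⟩ := hA
    exact rc_W_slash A
  holo' := rc_W_mdiff
  zero_at_cusps' hc := by
    rw [Subgroup.IsArithmetic.isCusp_iff_isCusp_SL2Z] at hc
    rw [OnePoint.isZeroAt_iff_forall_SL2Z hc]
    intro γ _
    rw [rc_W_slash]
    exact rc_W_isZeroAtImInfty

/-- **Rankin–Cohen identity**: `2 E₄ · D E₆ − 3 E₆ · D E₄ = −1728 Δ`. -/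
theorem rc_bracket (z : ℍ) :
    2 * E₄ z * D E₆ z - 3 * E₆ z * D E₄ z = -1728 * ModularForm.discriminant z := by
  obtain ⟨c, hc⟩ := CuspForm.exists_smul_discriminant_of_weight_eq_twelve rcWForm
  have hfun : ∀ w : ℍ, rcW w = c * ModularForm.discriminant w := by
    intro w
    have := congrArg (fun F : CuspForm 𝒮ℒ 12 => F w) hc
    exact this.symm
  have hlim : Tendsto (fun w : ℍ => rcW w / 𝕢 1 w) atImInfty (𝓝 (c * 1)) := by
    refine (rc_discriminant_tendsto_div_q.const_mul c).congr fun w => ?_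
    rw [hfun w, mul_div_assoc]
  have hc1 : c = -1728 := by
    have := tendsto_nhds_unique hlim rc_W_tendsto_div_q
    simpa using this
  have := hfun z
  rw [hc1] at this
  exact this

/-- The zeros of `E₄` on `ℍ` are simple. -/
theorem rc_D_E4_ne_zero {z : ℍ} (h : E₄ z = 0) : D E₄ z ≠ 0 := by
  intro h0
  have hb := rc_bracket z
  rw [h, h0] at hb
  have hΔ := discriminant_ne_zero z
  apply hΔ
  have : (-1728 : ℂ) * ModularForm.discriminant z = 0 := by rw [← hb]; ring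
  simpa using this

/-- The zeros of `E₆` on `ℍ` are simple. -/
theorem rc_D_E6_ne_zero {z : ℍ} (h : E₆ z = 0) : D E₆ z ≠ 0 := by
  intro h0
  have hb := rc_bracket z
  rw [h, h0] at hb
  have hΔ := discriminant_ne_zero z
  apply hΔ
  have : (-1728 : ℂ) * ModularForm.discriminant z = 0 := by rw [← hb]; ring
  simpa using this

/-- `E₄` and `E₆` have no common zero on `ℍ`. -/
theorem rc_E4_E6_not_both_zero (z : ℍ) : ¬ (E₄ z = 0 ∧ E₆ z = 0) := by
  rintro ⟨h4, h6⟩
  have := discriminant_eq_E₄_cube_sub_E₆_sq z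
  rw [h4, h6] at this
  exact discriminant_ne_zero z (by simpa using this)

/-- The derivative of `a E₄³ + b E₆²`. -/
theorem rc_D_comb (a b : ℂ) (z : ℍ) :
    D (fun w : ℍ => a * E₄ w ^ 3 + b * E₆ w ^ 2) z =
      3 * a * E₄ z ^ 2 * D E₄ z + 2 * b * E₆ z * D E₆ z := by
  have h4 : MDiff (E₄ : ℍ → ℂ) := ModularFormClass.holo E₄
  have h6 : MDiff (E₆ : ℍ → ℂ) := ModularFormClass.holo E₆
  have h43 : MDiff ((E₄ : ℍ → ℂ) ^ 3) := h4.pow 3
  have h62 : MDiff ((E₆ : ℍ → ℂ) ^ 2) := h6.pow 2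
  have hfun : (fun w : ℍ => a * E₄ w ^ 3 + b * E₆ w ^ 2) =
      a • ((E₄ : ℍ → ℂ) ^ 3) + b • ((E₆ : ℍ → ℂ) ^ 2) := by
    ext w
    simp
  rw [hfun, normalizedDerivOfComplex_add _ _ (h43.const_smul a) (h62.const_smul b),
    normalizedDerivOfComplex_smul _ _ h43, normalizedDerivOfComplex_smul _ _ h62,
    normalizedDerivOfComplex_pow _ _ h4, normalizedDerivOfComplex_pow _ _ h6]
  simp only [Pi.add_apply, Pi.smul_apply, Pi.mul_apply, Pi.pow_apply, smul_eq_mul]
  norm_num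
  ring

/-- The zeros of `a E₄³ + b E₆²` (`a, b ≠ 0`) on `ℍ` are simple. -/
theorem rc_simple (a b : ℂ) (ha : a ≠ 0) (hb : b ≠ 0) {z : ℍ}
    (h : a * E₄ z ^ 3 + b * E₆ z ^ 2 = 0) :
    D (fun w : ℍ => a * E₄ w ^ 3 + b * E₆ w ^ 2) z ≠ 0 := by
  rw [rc_D_comb]
  intro h0
  have hΔ := discriminant_ne_zero z
  have hbr := rc_bracket z
  have h6 : E₆ z ≠ 0 := by
    intro h6
    rw [h6] at h
    have h4 : E₄ z = 0 := by
      have : a * E₄ z ^ 3 = 0 := by linear_combination h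
      simpa [ha] using this
    exact rc_E4_E6_not_both_zero z ⟨h4, h6⟩
  -- `E₄ · (derivative) = b E₆ · W`
  have key : b * E₆ z * (-1728 * ModularForm.discriminant z) = 0 := by
    rw [← hbr]
    linear_combination E₄ z * h0 - 3 * D E₄ z * h
  have : (-1728 : ℂ) * ModularForm.discriminant z ≠ 0 := mul_ne_zero (by norm_num) hΔ
  exact mul_ne_zero (mul_ne_zero hb h6) this key

/-- Translation between `D` and `deriv (· ∘ ofComplex)`. -/
theorem rc_deriv_ne_zero_iff (f : ℍ → ℂ) (z : ℍ) :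
    deriv (f ∘ ofComplex) z ≠ 0 ↔ D f z ≠ 0 := by
  have h2pi : (2 * π * I : ℂ)⁻¹ ≠ 0 := by
    simp [Real.pi_ne_zero, I_ne_zero]
  simp only [normalizedDerivOfComplex]
  constructor
  · intro h
    exact mul_ne_zero h2pi h
  · intro h h0
    apply h
    rw [h0, mul_zero]

theorem rc_deriv_E4_ne_zero {z : ℍ} (h : E₄ z = 0) :
    deriv ((E₄ : ℍ → ℂ) ∘ ofComplex) z ≠ 0 :=
  (rc_deriv_ne_zero_iff _ z).mpr (rc_D_E4_ne_zero h)

theorem rc_deriv_E6_ne_zero {z : ℍ} (h : E₆ z = 0) :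
    deriv ((E₆ : ℍ → ℂ) ∘ ofComplex) z ≠ 0 :=
  (rc_deriv_ne_zero_iff _ z).mpr (rc_D_E6_ne_zero h)

/-- The level one form `a E₄³ + b E₆²` of weight 12. -/
def rcComb (a b : ℂ) : ModularForm 𝒮ℒ 12 :=
  a • ModularForm.mcast (by decide) (E₄.pow 3) + b • ModularForm.mcast (by decide) (E₆.pow 2)

theorem rcComb_apply (a b : ℂ) (z : ℍ) : rcComb a b z = a * E₄ z ^ 3 + b * E₆ z ^ 2 := by
  simp only [rcComb, _root_.add_apply, _root_.smul_apply, coe_mcast, ModularForm.coe_pow,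
    Pi.pow_apply, smul_eq_mul]

theorem rcComb_coe (a b : ℂ) :
    (rcComb a b : ℍ → ℂ) = fun w : ℍ => a * E₄ w ^ 3 + b * E₆ w ^ 2 := by
  ext z
  exact rcComb_apply a b z

/-- The zeros of `rcComb a b` (`a, b ≠ 0`) on `ℍ` are simple. -/
theorem rc_deriv_comb_ne_zero (a b : ℂ) (ha : a ≠ 0) (hb : b ≠ 0) {z : ℍ}
    (h : rcComb a b z = 0) : deriv ((rcComb a b : ℍ → ℂ) ∘ ofComplex) z ≠ 0 := by
  rw [rc_deriv_ne_zero_iff, rcComb_coe]
  rw [rcComb_apply] at h
  exact rc_simple a b ha hb h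

theorem rc_E4_tendsto : Tendsto (fun z : ℍ => E₄ z) atImInfty (𝓝 1) := by
  have h4 := rc_tendsto_cusp E₄
  rwa [E_qExpansion_coeff_zero _ ⟨2, rfl⟩] at h4

theorem rc_E6_tendsto : Tendsto (fun z : ℍ => E₆ z) atImInfty (𝓝 1) := by
  have h6 := rc_tendsto_cusp E₆
  rwa [E_qExpansion_coeff_zero _ ⟨3, rfl⟩] at h6

theorem rc_comb_tendsto (a b : ℂ) :
    Tendsto (fun z : ℍ => rcComb a b z) atImInfty (𝓝 (a + b)) := by
  have := ((rc_E4_tendsto.pow 3).const_mul a).add ((rc_E6_tendsto.pow 2).const_mul b)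
  simp only [one_pow, mul_one] at this
  refine this.congr fun z => ?_
  rw [rcComb_apply]

end

end Fermat.Agent.S20
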