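import Fermat.Agent.S20.Defs
import Fermat.Agent.S20.LevelOneAux
import Fermat.Agent.S20.RankinCohen

/-!
# S20 / part (A0): level-one toolkit  (OWNER: helper8)

Elementary facts about `E₄`, `E₆`, `Δ` and the spaces `M_k(SL₂(ℤ))`, all from Mathlib's level-one
theory (`ModularForm.dimension_level_one`, `discriminant_eq_E₄_cube_sub_E₆_sq`,
`discriminant_ne_zero`, `CuspForm.discriminantEquiv`).  Statements FROZEN; prefix extra names
with `l1_`.
-/

set_option autoImplicit false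

namespace Fermat.Agent.S20

open UpperHalfPlane ModularForm EisensteinSeries Filter
open scoped MatrixGroups ModularForm Topology

/-- `E₄` and `E₆` have no common zero (because `1728 Δ = E₄³ - E₆²` and `Δ ≠ 0`). -/
theorem E4_E6_not_both_zero (z : ℍ) : E₄ z ≠ 0 ∨ E₆ z ≠ 0 := by
  by_contra h
  rw [not_or, not_not, not_not] at h
  have := discriminant_eq_E₄_cube_sub_E₆_sq z
  rw [h.1, h.2] at this
  exact discriminant_ne_zero z (by simpa using this)

/-- `S` fixes `i`, with automorphy factor `i`. -/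
theorem S_smul_I : ModularGroup.S • (I : ℍ) = I := by
  rw [modular_S_smul, UpperHalfPlane.ext_iff]
  norm_num

theorem denom_S_I : denom ModularGroup.S (I : ℍ) = Complex.I :=
  ModularGroup.denom_S I

theorem l1_rho_coe : (rho : ℂ) = (-1 / 2 : ℂ) + (Real.sqrt 3 / 2 : ℝ) * Complex.I := by
  apply Complex.ext <;> simp [rho]

theorem l1_sqrt3_sq : ((Real.sqrt 3 : ℝ) : ℂ) ^ 2 = 3 := by
  rw [← Complex.ofReal_pow, Real.sq_sqrt (by norm_num : (0 : ℝ) ≤ 3)]
  norm_num

/-- `S T = [[0,-1],[1,1]]` fixes `ρ`, with automorphy factor `ρ + 1 = e^{πi/3}`. -/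
theorem ST_smul_rho : (ModularGroup.S * ModularGroup.T) • rho = rho := by
  rw [mul_smul, modular_T_smul, modular_S_smul, UpperHalfPlane.ext_iff]
  simp only [coe_vadd, l1_rho_coe]
  have h3 := l1_sqrt3_sq
  symm
  apply eq_inv_of_mul_eq_one_left
  push_cast
  linear_combination (-Complex.I ^ 2 / 4) * h3 + (-3 / 4 : ℂ) * Complex.I_sq

theorem denom_ST_rho :
    denom (ModularGroup.S * ModularGroup.T) rho = (1 / 2 : ℂ) + (Real.sqrt 3 / 2 : ℝ) * Complex.I := by
  have h := ModularGroup.denom_apply (ModularGroup.S * ModularGroup.T) rho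
  have h10 : (ModularGroup.S * ModularGroup.T : SL(2, ℤ)) 1 0 = 1 := by decide
  have h11 : (ModularGroup.S * ModularGroup.T : SL(2, ℤ)) 1 1 = 1 := by decide
  rw [h10, h11] at h
  have h' : denom ((ModularGroup.S : GL (Fin 2) ℝ) * (ModularGroup.T : GL (Fin 2) ℝ)) rho =
      denom ((ModularGroup.S * ModularGroup.T : SL(2, ℤ)) : GL (Fin 2) ℝ) rho := by
    congr 1
    simp
  rw [h', h, l1_rho_coe]
  push_cast
  ring

/-- `E₆(i) = 0` (weight `6`, automorphy factor `i`, `i⁶ = -1`). -/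
theorem E6_I : E₆ I = 0 := by
  have hmem : ((ModularGroup.S : SL(2, ℤ)) : GL (Fin 2) ℝ) ∈ 𝒮ℒ := ⟨ModularGroup.S, rfl⟩
  have h := SlashInvariantForm.slash_action_eqn'' E₆ hmem I
  rw [← ModularGroup.sl_moeb, S_smul_I, denom_S_I] at h
  have hI : (Complex.I : ℂ) ^ (6 : ℤ) = -1 := by
    have : (Complex.I : ℂ) ^ (6 : ℤ) = Complex.I ^ (6 : ℕ) := by norm_cast
    rw [this, show (6 : ℕ) = 2 * 3 by norm_num, pow_mul, Complex.I_sq]
    norm_num
  rw [hI] at h
  have h2 : (2 : ℂ) * E₆ I = 0 := by linear_combination h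
  simpa using h2

theorem l1_zeta_pow_four :
    ((1 / 2 : ℂ) + (Real.sqrt 3 / 2 : ℝ) * Complex.I) ^ (4 : ℤ) =
      (-1 / 2 : ℂ) - (Real.sqrt 3 / 2 : ℝ) * Complex.I := by
  have h3 := l1_sqrt3_sq
  have hz : ((1 / 2 : ℂ) + (Real.sqrt 3 / 2 : ℝ) * Complex.I) ^ (4 : ℤ) =
      ((1 / 2 : ℂ) + (Real.sqrt 3 / 2 : ℝ) * Complex.I) ^ (4 : ℕ) := by norm_cast
  rw [hz]
  have hI4 : Complex.I ^ 4 = 1 := Complex.I_pow_four
  have hI3 : Complex.I ^ 3 = -Complex.I := Complex.I_pow_three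
  have h34 : ((Real.sqrt 3 : ℝ) : ℂ) ^ 4 = 9 := by
    rw [show (4 : ℕ) = 2 * 2 by norm_num, pow_mul, h3]; norm_num
  have h33 : ((Real.sqrt 3 : ℝ) : ℂ) ^ 3 = 3 * (Real.sqrt 3 : ℝ) := by
    rw [pow_succ, h3]
  push_cast
  ring_nf
  rw [hI4, hI3, Complex.I_sq, h34, h33, h3]
  ring

/-- `E₄(ρ) = 0` (weight `4`, automorphy factor `ζ₆`, `ζ₆⁴ ≠ 1`). -/
theorem E4_rho : E₄ rho = 0 := by
  have hmem : ((ModularGroup.S : SL(2, ℤ)) : GL (Fin 2) ℝ) *
      ((ModularGroup.T : SL(2, ℤ)) : GL (Fin 2) ℝ) ∈ 𝒮ℒ :=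
    Subgroup.mul_mem _ ⟨ModularGroup.S, rfl⟩ ⟨ModularGroup.T, rfl⟩
  have h := SlashInvariantForm.slash_action_eqn'' E₄ hmem rho
  have hsm : (((ModularGroup.S : SL(2, ℤ)) : GL (Fin 2) ℝ) *
      ((ModularGroup.T : SL(2, ℤ)) : GL (Fin 2) ℝ)) • rho = rho := by
    have := ST_smul_rho
    rw [ModularGroup.sl_moeb] at this
    conv_rhs => rw [← this]
    congr 1
    simp
  rw [hsm, denom_ST_rho, l1_zeta_pow_four] at h
  have hne : (1 : ℂ) - ((-1 / 2 : ℂ) - (Real.sqrt 3 / 2 : ℝ) * Complex.I) ≠ 0 := by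
    intro h0
    have := congrArg Complex.re h0
    simp at this
    norm_num at this
  have h2 : ((1 : ℂ) - ((-1 / 2 : ℂ) - (Real.sqrt 3 / 2 : ℝ) * Complex.I)) * E₄ rho = 0 := by
    linear_combination h
  rcases mul_eq_zero.mp h2 with h0 | h0
  · exact absurd h0 hne
  · exact h0

theorem E4_I_ne_zero : E₄ I ≠ 0 := by
  rcases E4_E6_not_both_zero I with h | h
  · exact h
  · exact absurd E6_I h

theorem E6_rho_ne_zero : E₆ rho ≠ 0 := by
  rcases E4_E6_not_both_zero rho with h | h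
  · exact absurd E4_rho h
  · exact h

/-- Every level-one form of nonzero weight lies in `E₄ M + E₆ M`
(structure of the ring of level-one forms). -/
theorem exists_E4_E6_decomp (k : ℤ) (hk : k ≠ 0) (f : ModularForm 𝒮ℒ k) :
    ∃ (a : ModularForm 𝒮ℒ (k - 4)) (b : ModularForm 𝒮ℒ (k - 6)),
      ∀ z, f z = E₄ z * a z + E₆ z * b z :=
  l1_exists_E4_E6_decomp k hk f

/-- The monomials `E₄^a E₆^b`. -/
theorem exists_monomial (a b : ℕ) (k : ℤ) (hk : k = 4 * a + 6 * b) :
    ∃ h : ModularForm 𝒮ℒ k, ∀ z, h z = E₄ z ^ a * E₆ z ^ b := by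
  refine ⟨ModularForm.mcast (by rw [hk]; ring) ((E₄.pow a).mul (E₆.pow b)), fun z => ?_⟩
  simp only [ModularForm.coe_mcast, ModularForm.coe_mul, ModularForm.coe_pow, Pi.mul_apply,
    Pi.pow_apply]

/-- A level-one form of weight `4a + 6b` with value `1` at a point where the monomial
`E₄^a E₆^b` does not vanish. -/
theorem l1_exists_eval (a b : ℕ) (k : ℤ) (hk : k = 4 * a + 6 * b) (z₀ : ℍ)
    (hne : E₄ z₀ ^ a * E₆ z₀ ^ b ≠ 0) : ∃ h : ModularForm 𝒮ℒ k, h z₀ = 1 := by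
  obtain ⟨m, hm⟩ := exists_monomial a b k hk
  refine ⟨(E₄ z₀ ^ a * E₆ z₀ ^ b)⁻¹ • m, ?_⟩
  rw [_root_.smul_apply, hm z₀, smul_eq_mul, inv_mul_cancel₀ hne]

/-- The value at `i∞` of a level-one form. -/
noncomputable def valInf {k : ℤ} (f : ModularForm 𝒮ℒ k) : ℂ := valueAtInfty f

theorem l1_valInf_eq {k : ℤ} (f : ModularForm 𝒮ℒ k) :
    valInf f = (qExpansion 1 f).coeff 0 :=
  (rc_tendsto_cusp f).limUnder_eq

theorem tendsto_valInf {k : ℤ} (f : ModularForm 𝒮ℒ k) :
    Tendsto f atImInfty (𝓝 (valInf f)) := by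
  rw [l1_valInf_eq]
  exact rc_tendsto_cusp f

/-- A level-one form with value `0` at `i∞` is divisible by `Δ`. -/
theorem exists_eq_delta_mul {k : ℤ} (f : ModularForm 𝒮ℒ k) (hf : valInf f = 0) :
    ∃ f' : ModularForm 𝒮ℒ (k - 12), ∀ z, f z = ModularForm.discriminant z * f' z := by
  rw [l1_valInf_eq] at hf
  refine ⟨CuspForm.discriminantEquiv (ModularForm.toCuspForm f hf), fun z => ?_⟩
  rw [ModularForm.discriminant_mul_discriminantEquiv_apply, ModularForm.toCuspForm_apply]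

/-- Level-one forms with prescribed value at `i∞` (all even weights except `2`). -/
theorem exists_form_valInf (k : ℕ) (hk : Even k) (hk2 : k ≠ 2) :
    ∃ h : ModularForm 𝒮ℒ k, valInf h = 1 := by
  rcases Nat.eq_zero_or_pos k with h0 | hpos
  · subst h0
    refine ⟨ModularForm.mcast (by norm_num) (1 : ModularForm 𝒮ℒ 0), ?_⟩
    rw [l1_valInf_eq, ModularForm.qExpansion_mcast]
    have : ((1 : ModularForm 𝒮ℒ 0) : ℍ → ℂ) = 1 := by
      ext z
      simp
    rw [this, qExpansion_one]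
    simp
  · have hk3 : 3 ≤ k := by
      obtain ⟨m, hm⟩ := hk
      omega
    refine ⟨E hk3, ?_⟩
    rw [l1_valInf_eq]
    exact E_qExpansion_coeff_zero hk3 hk

/-- Level-one forms with prescribed value at a point where `E₄ E₆ ≠ 0`. -/
theorem exists_form_eval (k : ℕ) (hk : Even k) (hk2 : k ≠ 2) (z₀ : ℍ)
    (h4 : E₄ z₀ ≠ 0) (h6 : E₆ z₀ ≠ 0) : ∃ h : ModularForm 𝒮ℒ k, h z₀ = 1 := by
  obtain ⟨m, hm⟩ := hk
  rcases Nat.even_or_odd m with ⟨n, hn⟩ | ⟨n, hn⟩
  · -- `k = 4 n`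
    exact l1_exists_eval n 0 k (by push_cast [hm, hn]; ring) z₀
      (mul_ne_zero (pow_ne_zero _ h4) (pow_ne_zero _ h6))
  · -- `k = 4 n + 2`, `n ≥ 1`
    have hn1 : 1 ≤ n := by
      rcases Nat.eq_zero_or_pos n with h0 | h0
      · exfalso; apply hk2; omega
      · exact h0
    obtain ⟨n', rfl⟩ : ∃ n', n = n' + 1 := ⟨n - 1, by omega⟩
    exact l1_exists_eval n' 1 k (by push_cast [hm, hn]; ring) z₀
      (mul_ne_zero (pow_ne_zero _ h4) (pow_ne_zero _ h6))

/-- Level-one forms with prescribed value at `i` (weights divisible by `4`). -/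
theorem exists_form_eval_I (k : ℕ) (hk : 4 ∣ k) : ∃ h : ModularForm 𝒮ℒ k, h I = 1 := by
  obtain ⟨n, hn⟩ := hk
  exact l1_exists_eval n 0 k (by push_cast [hn]; ring) I
    (by simpa using pow_ne_zero n E4_I_ne_zero)

/-- Level-one forms with prescribed value at `ρ` (weights divisible by `6`). -/
theorem exists_form_eval_rho (k : ℕ) (hk : 6 ∣ k) : ∃ h : ModularForm 𝒮ℒ k, h rho = 1 := by
  obtain ⟨n, hn⟩ := hk
  exact l1_exists_eval 0 n k (by push_cast [hn]; ring) rho
    (by simpa using pow_ne_zero n E6_rho_ne_zero)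

/-- The dimension of `M_k(SL₂(ℤ))`, as an explicit function of `k : ℤ`. -/
def levelOneDim (k : ℤ) : ℕ :=
  if k < 0 ∨ k % 2 = 1 then 0 else if k % 12 = 2 then (k / 12).toNat else (k / 12).toNat + 1

theorem finrank_levelOne (k : ℤ) :
    Module.finrank ℂ (ModularForm 𝒮ℒ k) = levelOneDim k := by
  unfold levelOneDim
  rcases lt_or_ge k 0 with hneg | hnn
  · rw [if_pos (Or.inl hneg)]
    exact Module.finrank_eq_of_rank_eq
      (by simpa using ModularForm.levelOne_neg_weight_rank_zero hneg)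
  rcases Int.even_or_odd k with hev | hodd
  · have h2 : ¬ (k < 0 ∨ k % 2 = 1) := by
      rintro (h | h)
      · omega
      · rw [Int.even_iff] at hev; omega
    rw [if_neg h2]
    lift k to ℕ using hnn
    have hev' : Even k := by exact_mod_cast hev
    have hrank := ModularForm.dimension_level_one k hev'
    by_cases h12 : (k : ℤ) % 12 = 2
    · rw [if_pos h12]
      have h12' : k ≡ 2 [MOD 12] := by
        unfold Nat.ModEq
        omega
      rw [if_pos h12'] at hrank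
      have : ((k : ℤ) / 12).toNat = k / 12 := by omega
      rw [this]
      exact Module.finrank_eq_of_rank_eq (by exact_mod_cast hrank)
    · rw [if_neg h12]
      have h12' : ¬ k ≡ 2 [MOD 12] := by
        unfold Nat.ModEq
        omega
      rw [if_neg h12'] at hrank
      have : ((k : ℤ) / 12).toNat = k / 12 := by omega
      rw [this]
      exact Module.finrank_eq_of_rank_eq (by exact_mod_cast hrank)
  · rw [if_pos (Or.inr (Int.odd_iff.mp hodd))]
    exact Module.finrank_eq_of_rank_eq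
      (by simpa using ModularForm.levelOne_odd_weight_rank_zero hodd)

end Fermat.Agent.S20
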