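import Fermat.Agent.S20.Basic
import Fermat.Agent.S20.LevelOne

/-!
# S20 / (C3), (C6) auxiliary: the linear map `(c_i) ↦ ∑ c_i g_i`  (OWNER: helper6)

`rle_comb w g k : (∀ i, M_{k - w_i}(SL₂(ℤ))) →ₗ[ℂ] M_k(Γ₀(N))`; it is injective for an `Indep`
family and surjective for a `Gen` family.
-/

set_option autoImplicit false

namespace Fermat.Agent.S20

open UpperHalfPlane ModularForm
open scoped MatrixGroups ModularForm

variable {N : ℕ} [NeZero N] {ι : Type} [Fintype ι]

/-- The linear map `(c_i) ↦ ∑ c_i g_i`. -/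
noncomputable def rle_comb (w : ι → ℕ) (g : ∀ i, ModularForm (G0 N) (w i)) (k : ℤ) :
    (∀ i, ModularForm 𝒮ℒ (k - w i)) →ₗ[ℂ] ModularForm (G0 N) k where
  toFun c := Classical.choose (exists_comb (k := k) g c)
  map_add' c d := by
    refine DFunLike.ext _ _ fun z => ?_
    rw [_root_.add_apply, Classical.choose_spec (exists_comb (k := k) g c) z,
      Classical.choose_spec (exists_comb (k := k) g d) z,
      Classical.choose_spec (exists_comb (k := k) g (c + d)) z, ← Finset.sum_add_distrib]
    refine Finset.sum_congr rfl fun i _ => ?_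
    rw [Pi.add_apply, _root_.add_apply]
    ring
  map_smul' a c := by
    refine DFunLike.ext _ _ fun z => ?_
    rw [RingHom.id_apply, _root_.smul_apply,
      Classical.choose_spec (exists_comb (k := k) g c) z,
      Classical.choose_spec (exists_comb (k := k) g (a • c)) z, Finset.smul_sum]
    refine Finset.sum_congr rfl fun i _ => ?_
    rw [Pi.smul_apply, _root_.smul_apply, smul_eq_mul, smul_eq_mul]
    ring

theorem rle_comb_apply (w : ι → ℕ) (g : ∀ i, ModularForm (G0 N) (w i)) (k : ℤ)
    (c : ∀ i, ModularForm 𝒮ℒ (k - w i)) (z : ℍ) :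
    rle_comb w g k c z = ∑ i, c i z * g i z :=
  Classical.choose_spec (exists_comb (k := k) g c) z

theorem rle_comb_injective (w : ι → ℕ) (g : ∀ i, ModularForm (G0 N) (w i)) (h : Indep w g)
    (k : ℤ) : Function.Injective (rle_comb w g k) := by
  rw [injective_iff_map_eq_zero]
  intro c hc
  funext i
  refine h k c (fun z => ?_) i
  rw [← rle_comb_apply, hc]
  rfl

theorem rle_comb_surjective (w : ι → ℕ) (g : ∀ i, ModularForm (G0 N) (w i)) (h : Gen w g)
    (k : ℤ) : Function.Surjective (rle_comb w g k) := by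
  intro f
  obtain ⟨c, hc⟩ := h k f
  exact ⟨c, DFunLike.ext _ _ fun z => by rw [rle_comb_apply, hc z]⟩

/-- The dimension of the source of `rle_comb`. -/
theorem rle_finrank_pi (w : ι → ℕ) (k : ℤ) :
    Module.finrank ℂ (∀ i, ModularForm 𝒮ℒ (k - w i)) = ∑ i, levelOneDim (k - w i) := by
  rw [Module.finrank_pi_fintype]
  exact Finset.sum_congr rfl fun i _ => finrank_levelOne _

/-- For an independent family, `∑_i dim M_{k - w_i}(SL₂(ℤ)) ≤ dim M_k(Γ₀(N))`. -/
theorem rle_sum_le (w : ι → ℕ) (g : ∀ i, ModularForm (G0 N) (w i)) (h : Indep w g) (k : ℤ) :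
    ∑ i, levelOneDim (k - w i) ≤ Module.finrank ℂ (ModularForm (G0 N) k) := by
  have := finiteDimensional_modularForm N k
  rw [← rle_finrank_pi]
  exact LinearMap.finrank_le_finrank_of_injective (rle_comb_injective w g h k)

/-- For a free basis, `dim M_k(Γ₀(N)) = ∑_i dim M_{k - w_i}(SL₂(ℤ))`. -/
theorem rle_finrank_eq (w : ι → ℕ) (g : ∀ i, ModularForm (G0 N) (w i)) (h : IsFreeBasis w g)
    (k : ℤ) : Module.finrank ℂ (ModularForm (G0 N) k) = ∑ i, levelOneDim (k - w i) := by
  rw [← rle_finrank_pi]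
  exact (LinearEquiv.finrank_eq (LinearEquiv.ofBijective (rle_comb w g k)
    ⟨rle_comb_injective w g h.2 k, rle_comb_surjective w g h.1 k⟩)).symm

omit [NeZero N] in
/-- The forms of an independent family are nonzero. -/
theorem rle_ne_zero (w : ι → ℕ) (g : ∀ i, ModularForm (G0 N) (w i)) (h : Indep w g) (i : ι) :
    g i ≠ 0 := by
  classical
  intro hi
  set x : ModularForm 𝒮ℒ ((w i : ℤ) - w i) :=
    ModularForm.mcast (by ring) (1 : ModularForm 𝒮ℒ 0) with hx
  -- the relation `1 · g_i = 0` in weight `w i`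
  have key := h (w i) (Pi.single i x) (fun z => by
    rw [Finset.sum_eq_single i]
    · rw [hi]
      simp
    · intro j _ hj
      rw [Pi.single_eq_of_ne hj]
      simp
    · intro hni
      exact absurd (Finset.mem_univ i) hni) i
  rw [Pi.single_eq_same] at key
  have := congrArg (fun f : ModularForm 𝒮ℒ ((w i : ℤ) - w i) => f I) key
  simp [hx, ModularForm.mcast_apply, ModularForm.one_coe_eq_one] at this

/-- The weights of an independent family are even. -/
theorem rle_weight_even (w : ι → ℕ) (g : ∀ i, ModularForm (G0 N) (w i)) (h : Indep w g)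
    (i : ι) : Even (w i) := by
  by_contra hodd
  rw [Nat.not_even_iff_odd] at hodd
  exact rle_ne_zero w g h i (modularForm_odd_eq_zero (by exact_mod_cast hodd) (g i))

/-- Lower bound for the dimension of `M_a(SL₂(ℤ))`. -/
theorem rle_levelOneDim_ge (m W w : ℕ) (hw : Even w) (hwW : w ≤ W) (hm : W ≤ m) :
    m - W ≤ levelOneDim (12 * (m : ℤ) - w) := by
  obtain ⟨j, rfl⟩ := hw
  unfold levelOneDim
  split_ifs with h1 h2
  · exfalso
    push_cast at h1
    omega
  · push_cast
    omega
  · push_cast
    omega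

end Fermat.Agent.S20
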