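import Fermat.Agent.S20.Basic
import Fermat.Agent.S20.LevelOne
import Fermat.Agent.S20.RankLeAux

/-!
# S20 / part (C6): dimensions from a free basis  (OWNER: see `s20_modules`)

For a free basis the map `(c_i)_i ↦ ∑ c_i g_i`, `∏_i M_{k - w_i}(SL₂(ℤ)) → M_k(Γ₀(N))`, is a linear
isomorphism (`exists_comb`, `Gen`, `Indep`), so
`dim M_k(Γ₀(N)) = ∑_i dim M_{k - w_i}(SL₂(ℤ))` (`finrank_levelOne`).

Statements FROZEN; prefix extra names with `fdim_`.
-/

set_option autoImplicit false

namespace Fermat.Agent.S20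

open UpperHalfPlane ModularForm
open scoped MatrixGroups ModularForm

/-- `M₀(Γ₀(N))` is one-dimensional (the constants). -/
theorem fdim_finrank_zero {N : ℕ} [NeZero N] :
    Module.finrank ℂ (ModularForm (G0 N) 0) = 1 := by
  have hne : (1 : ModularForm (G0 N) 0) ≠ 0 := by
    intro h1
    have := congrArg (fun f : ModularForm (G0 N) 0 => f I) h1
    simp [ModularForm.one_coe_eq_one] at this
  rw [finrank_eq_one_iff_of_nonzero' _ hne]
  intro f
  obtain ⟨c, hc⟩ := modularForm_zero_const f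
  refine ⟨c, DFunLike.ext _ _ fun z => ?_⟩
  rw [_root_.smul_apply, hc z, ModularForm.one_coe_eq_one]
  simp

theorem finrank_modularForm_of_free {N : ℕ} [NeZero N] {ι : Type} [Fintype ι] (w : ι → ℕ)
    (g : ∀ i, ModularForm (G0 N) (w i)) (h : IsFreeBasis w g) (k : ℤ) :
    Module.finrank ℂ (ModularForm (G0 N) k) = ∑ i, levelOneDim (k - w i) := by
  exact rle_finrank_eq w g h k

/-- The forms of a free basis are nonzero, hence of even weight (`-1 ∈ Γ₀(N)`). -/
theorem weight_even {N : ℕ} [NeZero N] {ι : Type} [Fintype ι] (w : ι → ℕ)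
    (g : ∀ i, ModularForm (G0 N) (w i)) (h : IsFreeBasis w g) (i : ι) : Even (w i) := by
  exact rle_weight_even w g h.2 i

/-- Exactly one generator has weight `0` (`M₀(Γ₀(N)) = ℂ`). -/
theorem card_weight_zero {N : ℕ} [NeZero N] {ι : Type} [Fintype ι] (w : ι → ℕ)
    (g : ∀ i, ModularForm (G0 N) (w i)) (h : IsFreeBasis w g) :
    (Finset.univ.filter fun i => w i = 0).card = 1 := by
  have h0 := rle_finrank_eq w g h 0
  rw [fdim_finrank_zero] at h0
  have hsum : ∑ i, (if w i = 0 then 1 else 0) = ∑ i, levelOneDim (0 - (w i : ℤ)) := by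
    refine Finset.sum_congr rfl fun i _ => ?_
    unfold levelOneDim
    by_cases hi : w i = 0
    · simp [hi]
    · have : (0 : ℤ) - (w i : ℤ) < 0 := by omega
      rw [if_neg hi, if_pos (Or.inl this)]
  rw [Finset.card_filter, hsum, ← h0]

end Fermat.Agent.S20
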