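import Fermat.Agent.S20.Infinity
import Fermat.Agent.S20.FreeDim

/-!
# S20 / part (V): `dim M_k - dim S_k = #cusps` for large `k`  (OWNER: see `s20_modules`)

The constant-term map `ct : M_k(Γ₀(N)) → (Q N → ℂ)`, `ct f q = cf f q 0 = lim_{i∞} tr f q`, has
kernel `S_k(Γ₀(N))` (`exists_cuspForm_of_tr_zero`, `isZeroAtImInfty_tr`) and takes values in the
`T`-invariant vectors (`tr_vadd_one`).  It is ONTO the `T`-invariant vectors when
`k ≥ max w_i + 4`, `k` even: given `u`, take `v` from `constTerm_surj`, `h_i` of weight `k - w_i`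
with `valInf h_i = 1` (`exists_form_valInf`), `f = ∑ v_i h_i g_i` (`exists_comb`).
The space of `T`-invariant vectors has dimension the number of `⟨T⟩`-orbits on `Q N`.

Statement FROZEN; prefix extra names with `cq_`.
-/

set_option autoImplicit false

namespace Fermat.Agent.S20

open UpperHalfPlane ModularForm EisensteinSeries Filter
open scoped MatrixGroups ModularForm Topology

section ct

variable {N : ℕ} [NeZero N] {k : ℤ}

/-- The translate `tr f q` tends to its constant term at `i∞`. -/
lemma cq_tendsto_cf (f : ModularForm (G0 N) k) (q : Q N) :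
    Tendsto (tr f q) atImInfty (𝓝 (cf f q 0)) := by
  have hN : (0 : ℝ) < N := Nat.cast_pos.mpr (Nat.pos_of_ne_zero (NeZero.ne N))
  have hP := inf_periodic_of_vadd (tr f q) (tr_vadd_N f q)
  have han := analyticAt_cuspFunction_zero hN hP (mdifferentiable_tr f q)
    (isBoundedAtImInfty_tr f q)
  have h0 : cf f q 0 = cuspFunction (N : ℝ) (tr f q) 0 := by
    simp [cf, qExpansion_coeff]
  rw [h0]
  have := han.continuousAt.tendsto.comp (qParam_tendsto_atImInfty hN)
  exact this.congr fun z => eq_cuspFunction z hN.ne' hP

lemma cq_tr_congr {F F' : Type*} [FunLike F ℍ ℂ] [FunLike F' ℍ ℂ]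
    [SlashInvariantFormClass F (G0 N) k] [SlashInvariantFormClass F' (G0 N) k]
    (f : F) (f' : F') (h : (f : ℍ → ℂ) = f') (q : Q N) : tr f q = tr f' q := by
  induction q using QuotientGroup.induction_on with
  | H γ => simp only [tr_mk, h]

lemma cq_tr_add (f g : ModularForm (G0 N) k) (q : Q N) (z : ℍ) :
    tr (f + g) q z = tr f q z + tr g q z := by
  induction q using QuotientGroup.induction_on with
  | H γ =>
    simp only [tr_mk]
    rw [ModularForm.SL_slash_apply, ModularForm.SL_slash_apply, ModularForm.SL_slash_apply,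
      ModularForm.add_apply, add_mul]

lemma cq_tr_smul (c : ℂ) (f : ModularForm (G0 N) k) (q : Q N) (z : ℍ) :
    tr (c • f) q z = c * tr f q z := by
  induction q using QuotientGroup.induction_on with
  | H γ =>
    simp only [tr_mk]
    rw [ModularForm.SL_slash_apply, ModularForm.SL_slash_apply, ModularForm.smul_apply,
      smul_eq_mul, mul_assoc]

variable (N k)

/-- The constant-term map. -/
noncomputable def cqCt : ModularForm (G0 N) k →ₗ[ℂ] (Q N → ℂ) where
  toFun f q := cf f q 0
  map_add' f g := by
    funext q
    exact tendsto_nhds_unique (cq_tendsto_cf (f + g) q)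
      (((cq_tendsto_cf f q).add (cq_tendsto_cf g q)).congr fun z => (cq_tr_add f g q z).symm)
  map_smul' c f := by
    funext q
    exact tendsto_nhds_unique (cq_tendsto_cf (c • f) q)
      (((cq_tendsto_cf f q).const_mul c).congr fun z => (cq_tr_smul c f q z).symm)

variable {N k}

lemma cqCt_apply (f : ModularForm (G0 N) k) (q : Q N) : cqCt N k f q = cf f q 0 := rfl

/-- The kernel of the constant-term map is the space of cusp forms. -/
lemma cq_ker : LinearMap.ker (cqCt N k) = LinearMap.range (basic_cuspIncl N k) := by
  ext f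
  rw [LinearMap.mem_ker, LinearMap.mem_range]
  constructor
  · intro hf
    have hz : ∀ q : Q N, IsZeroAtImInfty (tr f q) := by
      intro q
      have := cq_tendsto_cf f q
      have h0 : cf f q 0 = 0 := congrFun hf q
      rw [h0] at this
      exact this
    obtain ⟨s, hs⟩ := exists_cuspForm_of_tr_zero f hz
    refine ⟨s, ?_⟩
    ext z
    exact congrFun hs z
  · rintro ⟨s, rfl⟩
    funext q
    have h1 : tr (basic_cuspIncl N k s) q = tr s q := cq_tr_congr _ _ rfl q
    have h2 : Tendsto (tr (basic_cuspIncl N k s) q) atImInfty (𝓝 0) := by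
      rw [h1]
      exact isZeroAtImInfty_tr s q
    exact tendsto_nhds_unique (cq_tendsto_cf _ q) h2

end ct

section inv

variable (N : ℕ)

/-- Pull-back of functions on the set of `⟨T⟩`-orbits. -/
noncomputable def cqPull :
    (MulAction.orbitRel.Quotient (Subgroup.zpowers ModularGroup.T) (Q N) → ℂ) →ₗ[ℂ] (Q N → ℂ) where
  toFun φ q := φ (Quotient.mk'' q)
  map_add' _ _ := rfl
  map_smul' _ _ := rfl

variable {N}

lemma cqPull_injective : Function.Injective (cqPull N) := by
  intro φ ψ h
  funext x
  induction x using Quotient.inductionOn' with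
  | h q => exact congrFun h q

lemma cq_mem_range_pull (u : Q N → ℂ) :
    u ∈ LinearMap.range (cqPull N) ↔ ∀ q, u (ModularGroup.T • q) = u q := by
  constructor
  · rintro ⟨φ, rfl⟩ q
    show φ (Quotient.mk'' _) = φ (Quotient.mk'' _)
    congr 1
    rw [Quotient.eq'']
    exact ⟨⟨ModularGroup.T, Subgroup.mem_zpowers _⟩, rfl⟩
  · intro hu
    have hinv : ∀ q, u (ModularGroup.T⁻¹ • q) = u q := by
      intro q
      have := hu (ModularGroup.T⁻¹ • q)
      rw [smul_inv_smul] at this
      exact this.symm
    have hz : ∀ (n : ℤ) (q : Q N), u ((ModularGroup.T ^ n) • q) = u q := by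
      intro n
      induction n using Int.induction_on with
      | zero => intro q; simp
      | succ n ih =>
        intro q
        rw [zpow_add_one, mul_smul, ih, hu]
      | pred n ih =>
        intro q
        rw [zpow_sub_one, mul_smul, ih, hinv]
    refine ⟨fun x => Quotient.liftOn' x u ?_, ?_⟩
    · intro a b hab
      obtain ⟨⟨γ, hγ⟩, hγa⟩ := hab
      obtain ⟨n, rfl⟩ := Subgroup.mem_zpowers_iff.mp hγ
      have : (ModularGroup.T ^ n) • b = a := hγa
      rw [← this, hz]
    · funext q
      rfl

end inv

theorem finrank_modular_eq_cusp_add {N : ℕ} [NeZero N] {ι : Type} [Fintype ι] (w : ι → ℕ)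
    (g : ∀ i, ModularForm (G0 N) (w i)) (h : IsFreeBasis w g) (hw : ∀ i, w i ≤ 10)
    (k : ℕ) (hk : 14 ≤ k) (hk2 : Even k) :
    Module.finrank ℂ (ModularForm (G0 N) k) =
      Module.finrank ℂ (CuspForm (G0 N) k) +
        Nat.card (MulAction.orbitRel.Quotient (Subgroup.zpowers ModularGroup.T) (Q N)) := by
  classical
  have hfd := finiteDimensional_modularForm N (k : ℤ)
  -- range of the constant term map
  have hrange : LinearMap.range (cqCt N (k : ℤ)) = LinearMap.range (cqPull N) := by
    ext u
    rw [cq_mem_range_pull]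
    constructor
    · rintro ⟨f, rfl⟩ q
      rw [cqCt_apply, cqCt_apply]
      have := cf_T_inv_smul f (ModularGroup.T • q) 0
      rw [inv_smul_smul] at this
      rw [this]
      simp
    · intro hu
      obtain ⟨v, hv⟩ := constTerm_surj w g h u hu
      -- level-one coefficients with value `1` at `i∞`
      have hc : ∀ i, ∃ c : ModularForm 𝒮ℒ ((k : ℤ) - w i), Tendsto c atImInfty (𝓝 1) := by
        intro i
        have hwi := hw i
        obtain ⟨a, ha⟩ := hk2
        obtain ⟨b, hb⟩ := weight_even w g h i
        obtain ⟨c, hc⟩ := exists_form_valInf (k - w i) ⟨a - b, by omega⟩ (by omega)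
        have hcast : ((k - w i : ℕ) : ℤ) = (k : ℤ) - w i := by
          rw [Nat.cast_sub (by omega)]
        refine ⟨ModularForm.mcast hcast c, ?_⟩
        have := tendsto_valInf c
        rw [hc] at this
        exact this
      choose c hc using hc
      obtain ⟨f, hf⟩ := exists_comb (k := (k : ℤ)) g (fun i => v i • c i)
      refine ⟨f, ?_⟩
      funext q
      rw [cqCt_apply]
      have h1 : Tendsto (tr f q) atImInfty (𝓝 (∑ i, (v i * 1) * cf (g i) q 0)) := by
        have h2 : ∀ z, tr f q z = ∑ i, (v i * c i z) * tr (g i) q z := by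
          intro z
          rw [tr_comb g (fun i => v i • c i) f hf q z]
          refine Finset.sum_congr rfl fun i _ => ?_
          rw [ModularForm.smul_apply, smul_eq_mul]
        refine Tendsto.congr (fun z => (h2 z).symm) ?_
        refine tendsto_finset_sum _ fun i _ => ?_
        exact (((hc i).const_mul (v i))).mul (cq_tendsto_cf (g i) q)
      have h3 : ∑ i, (v i * 1) * cf (g i) q 0 = u q := by
        rw [← hv q]
        refine Finset.sum_congr rfl fun i _ => ?_
        rw [mul_one]
      rw [h3] at h1
      exact tendsto_nhds_unique (cq_tendsto_cf f q) h1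
  have hrk := LinearMap.finrank_range_add_finrank_ker (cqCt N (k : ℤ))
  rw [hrange, cq_ker, LinearMap.finrank_range_of_inj cqPull_injective,
    LinearMap.finrank_range_of_inj (basic_cuspIncl_injective N (k : ℤ)),
    Module.finrank_fintype_fun_eq_card, ← Nat.card_eq_fintype_card] at hrk
  rw [← hrk, add_comm]

end Fermat.Agent.S20
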