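import Fermat.Agent.S20.Basic
import Fermat.Agent.S20.LevelOne

/-!
# S20 / part (E4): auxiliary lemmas for duality  (OWNER: helper5)

* `dual_mdiff_det`, `dual_mdiff_inv`: determinants / inverses of matrices of holomorphic
  functions are holomorphic.
* `dual_tr_apply`, `dual_tr_add`, `dual_tr_smul`, `dual_tr_zero`: explicit formula for translates
  and linearity.
* `dual_smul_levelOne`, `dual_discriminant_smul`: transformation rules of level-one forms.
* `dual_cusp_of_family`: a family `S q` of holomorphic functions, permuted by the weight-`k`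
  action and tending to `0` at `i∞`, is the family of translates of a cusp form of level `N`.
* `dual_levelOne_of_invariant`: construction of level-one forms.
* `dual_exists_trace`: `Tr(s f) / Δ` for a cusp form `s` and a modular form `f` of level `N`.
-/

set_option autoImplicit false

namespace Fermat.Agent.S20

open UpperHalfPlane ModularForm EisensteinSeries Filter CongruenceSubgroup
open scoped MatrixGroups ModularForm Manifold Topology

/-- The determinant of a matrix of holomorphic functions is holomorphic. -/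
theorem dual_mdiff_det {n : Type} [Fintype n] [DecidableEq n] (M : ℍ → Matrix n n ℂ)
    (hM : ∀ i j, MDifferentiable 𝓘(ℂ) 𝓘(ℂ) (fun z => M z i j)) :
    MDifferentiable 𝓘(ℂ) 𝓘(ℂ) (fun z => (M z).det) := by
  have h1 : (fun z => (M z).det) =
      ∑ σ : Equiv.Perm n, (fun _ : ℍ => ((Equiv.Perm.sign σ : ℤ) : ℂ)) *
        ∏ i, (fun z => M z (σ i) i) := by
    funext z
    rw [Matrix.det_apply]
    simp only [Finset.sum_apply, Pi.mul_apply, Finset.prod_apply]
    apply Finset.sum_congr rfl
    intro σ _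
    rw [Units.smul_def, zsmul_eq_mul]
  rw [h1]
  refine MDifferentiable.sum fun σ _ => ?_
  refine MDifferentiable.mul mdifferentiable_const ?_
  exact MDifferentiable.prod fun i _ => hM (σ i) i

/-- The entries of the inverse of an invertible matrix of holomorphic functions are
holomorphic. -/
theorem dual_mdiff_inv {n : Type} [Fintype n] [DecidableEq n] (M : ℍ → Matrix n n ℂ)
    (hM : ∀ i j, MDifferentiable 𝓘(ℂ) 𝓘(ℂ) (fun z => M z i j))
    (hdet : ∀ z, (M z).det ≠ 0) (i j : n) :
    MDifferentiable 𝓘(ℂ) 𝓘(ℂ) (fun z => (M z)⁻¹ i j) := by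
  have h1 : (fun z => (M z)⁻¹ i j) =
      (fun z => (M z).det)⁻¹ * (fun z => ((M z).updateRow j (Pi.single i 1)).det) := by
    funext z
    rw [Matrix.inv_def, Matrix.smul_apply, Matrix.adjugate_apply, Ring.inverse_eq_inv', smul_eq_mul]
    rfl
  rw [h1]
  refine MDifferentiable.mul ((dual_mdiff_det M hM).inv hdet) ?_
  apply dual_mdiff_det
  intro a b
  by_cases hab : a = j
  · subst hab
    simp only [Matrix.updateRow_self]
    exact mdifferentiable_const
  · simp only [Matrix.updateRow_ne hab]
    exact hM a b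

variable {N : ℕ} {k : ℤ}

/-- Explicit formula for the translates. -/
theorem dual_tr_apply {F : Type*} [FunLike F ℍ ℂ] [SlashInvariantFormClass F (G0 N) k] (f : F)
    (γ : SL(2, ℤ)) (z : ℍ) :
    tr f (γ : Q N) z = f (γ⁻¹ • z) * denom (γ⁻¹ : SL(2, ℤ)) z ^ (-k) := by
  rw [tr_mk, ModularForm.SL_slash_apply]

theorem dual_tr_add (s t : CuspForm (G0 N) k) (q : Q N) (z : ℍ) :
    tr (s + t) q z = tr s q z + tr t q z := by
  induction q using QuotientGroup.induction_on with
  | H γ =>
    rw [dual_tr_apply, dual_tr_apply, dual_tr_apply, add_apply, add_mul]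

theorem dual_tr_smul (c : ℂ) (s : CuspForm (G0 N) k) (q : Q N) (z : ℍ) :
    tr (c • s) q z = c * tr s q z := by
  induction q using QuotientGroup.induction_on with
  | H γ =>
    rw [dual_tr_apply, dual_tr_apply, smul_apply, smul_eq_mul, mul_assoc]

theorem dual_tr_zero (q : Q N) (z : ℍ) : tr (0 : CuspForm (G0 N) k) q z = 0 := by
  induction q using QuotientGroup.induction_on with
  | H γ =>
    rw [dual_tr_apply, zero_apply, zero_mul]

/-- Transformation rule for level-one (slash-invariant) forms. -/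
theorem dual_smul_levelOne {F : Type*} [FunLike F ℍ ℂ] [SlashInvariantFormClass F 𝒮ℒ k] (f : F)
    (γ : SL(2, ℤ)) (z : ℍ) : f (γ • z) = denom γ z ^ k * f z := by
  have h := congrFun (basic_inv_one f γ) z
  rw [ModularForm.SL_slash_apply] at h
  have hd : denom γ z ≠ 0 := denom_ne_zero _ z
  rw [← h, mul_comm, mul_assoc, ← zpow_add₀ hd]
  simp

theorem dual_discriminant_smul (γ : SL(2, ℤ)) (z : ℍ) :
    ModularForm.discriminant (γ • z) = denom γ z ^ (12 : ℤ) * ModularForm.discriminant z :=
  dual_smul_levelOne CuspForm.discriminant γ z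

/-- From the pointwise transformation rule to the slash action. -/
theorem dual_slash_of_smul (S : Q N → ℍ → ℂ)
    (hsl : ∀ q (γ : SL(2, ℤ)) z, S q (γ • z) = denom γ z ^ k * S (γ⁻¹ • q) z)
    (q : Q N) (γ : SL(2, ℤ)) : S q ∣[k] γ = S (γ⁻¹ • q) := by
  funext z
  rw [ModularForm.SL_slash_apply, hsl, mul_comm, ← mul_assoc, ← zpow_add₀ (denom_ne_zero γ z)]
  simp

/-- A family `S q` of holomorphic functions, permuted by the weight-`k` action and tending to
`0` at `i∞`, is the family of translates of a cusp form of level `N`. -/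
theorem dual_cusp_of_family [NeZero N] (S : Q N → ℍ → ℂ)
    (hol : ∀ q, MDifferentiable 𝓘(ℂ) 𝓘(ℂ) (S q))
    (hsl : ∀ q (γ : SL(2, ℤ)) z, S q (γ • z) = denom γ z ^ k * S (γ⁻¹ • q) z)
    (hzero : ∀ q, Tendsto (S q) atImInfty (𝓝 0)) :
    ∃ s : CuspForm (G0 N) k, ∀ q z, tr s q z = S q z := by
  have hslash := dual_slash_of_smul S hsl
  obtain ⟨s, hs⟩ := exists_cuspForm_of_zero (k := k) (S ((1 : SL(2, ℤ)) : Q N)) (hol _)
    (fun γ hγ => by
      rw [hslash]
      congr 1
      rw [MulAction.Quotient.smul_mk, smul_eq_mul, mul_one]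
      refine QuotientGroup.eq.mpr ?_
      rw [inv_inv, mul_one]
      exact hγ)
    (fun γ => by rw [hslash]; exact hzero _)
  refine ⟨s, fun q z => ?_⟩
  induction q using QuotientGroup.induction_on with
  | H γ =>
    rw [tr_mk, hs, hslash, inv_inv, MulAction.Quotient.smul_mk, smul_eq_mul, mul_one]

/-- Construction of level-one forms. -/
theorem dual_levelOne_of_invariant (f : ℍ → ℂ) (hol : MDifferentiable 𝓘(ℂ) 𝓘(ℂ) f)
    (hsl : ∀ (γ : SL(2, ℤ)) z, f (γ • z) = denom γ z ^ k * f z)
    (hbdd : IsBoundedAtImInfty f) : ∃ F : ModularForm 𝒮ℒ k, ⇑F = f := by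
  have hslash : ∀ γ : SL(2, ℤ), f ∣[k] γ = f := by
    intro γ
    funext z
    rw [ModularForm.SL_slash_apply, hsl, mul_comm, ← mul_assoc, ← zpow_add₀ (denom_ne_zero γ z)]
    simp
  refine ⟨{ toFun := f, slash_action_eq' := ?_, holo' := hol, bdd_at_cusps' := ?_ }, rfl⟩
  · rintro γ ⟨g, rfl⟩
    exact hslash g
  · intro c hc
    rw [Subgroup.IsArithmetic.isCusp_iff_isCusp_SL2Z] at hc
    rw [OnePoint.isBoundedAt_iff_forall_SL2Z hc]
    intro γ _
    rw [hslash γ]
    exact hbdd

/-- A function tending to `0` times a bounded function tends to `0`. -/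
theorem dual_zero_mul_bdd {f g : ℍ → ℂ} (hf : IsZeroAtImInfty f) (hg : IsBoundedAtImInfty g) :
    Tendsto (fun z => f z * g z) atImInfty (𝓝 0) := by
  have h1 : f =o[atImInfty] (fun _ => (1 : ℝ)) := (Asymptotics.isLittleO_one_iff ℝ).mpr hf
  have h2 : g =O[atImInfty] (fun _ => (1 : ℝ)) := hg
  have h3 := h1.mul_isBigO h2
  simp only [mul_one] at h3
  exact (Asymptotics.isLittleO_one_iff ℝ).mp h3

/-- The trace form `Tr(s f) / Δ` of a cusp form times a modular form of level `N`. -/
theorem dual_exists_trace [NeZero N] {k k' : ℤ} (s : CuspForm (G0 N) k)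
    (f : ModularForm (G0 N) k') :
    ∃ a : ModularForm 𝒮ℒ (k + k' - 12),
      ∀ z, ModularForm.discriminant z * a z = ∑ q : Q N, tr s q z * tr f q z := by
  have hol : MDifferentiable 𝓘(ℂ) 𝓘(ℂ) (fun z => ∑ q : Q N, tr s q z * tr f q z) := by
    have h1 : (fun z => ∑ q : Q N, tr s q z * tr f q z) = ∑ q : Q N, tr s q * tr f q := by
      funext z
      simp only [Finset.sum_apply, Pi.mul_apply]
    rw [h1]
    exact MDifferentiable.sum fun q _ => (mdifferentiable_tr s q).mul (mdifferentiable_tr f q)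
  have hsl : ∀ (γ : SL(2, ℤ)) z, (fun z => ∑ q : Q N, tr s q z * tr f q z) (γ • z) =
      denom γ z ^ (k + k') * (fun z => ∑ q : Q N, tr s q z * tr f q z) z := by
    intro γ z
    show ∑ q : Q N, tr s q (γ • z) * tr f q (γ • z) =
      denom γ z ^ (k + k') * ∑ q : Q N, tr s q z * tr f q z
    rw [Finset.mul_sum, ← Equiv.sum_comp (MulAction.toPerm (γ⁻¹ : SL(2, ℤ)))
      (fun q : Q N => denom γ z ^ (k + k') * (tr s q z * tr f q z))]
    refine Finset.sum_congr rfl fun q _ => ?_
    rw [tr_smul_apply, tr_smul_apply, MulAction.toPerm_apply, zpow_add₀ (denom_ne_zero γ z)]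
    ring
  have hzero : Tendsto (fun z => ∑ q : Q N, tr s q z * tr f q z) atImInfty (𝓝 0) := by
    have := tendsto_finsetSum (Finset.univ : Finset (Q N)) fun q _ =>
      dual_zero_mul_bdd (isZeroAtImInfty_tr s q) (isBoundedAtImInfty_tr f q)
    simpa using this
  obtain ⟨P, hP⟩ := dual_levelOne_of_invariant (k := k + k')
    (fun z => ∑ q : Q N, tr s q z * tr f q z) hol hsl
    (Filter.ZeroAtFilter.boundedAtFilter hzero)
  have h0 : valInf P = 0 := by
    have h1 := tendsto_valInf P
    rw [hP] at h1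
    exact tendsto_nhds_unique h1 hzero
  obtain ⟨a, ha⟩ := exists_eq_delta_mul P h0
  exact ⟨a, fun z => by rw [← ha, hP]⟩

end Fermat.Agent.S20
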