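import Fermat.Agent.S20.Div
import Fermat.Agent.S20.FreeDim

/-!
# S20 / part (D): the matrix of translates of a free basis is invertible on `ℍ`
(OWNER: helper5)

KEY TRICK.  Let `v · F(z₀) = 0`.  Pick level-one forms `h_i` of weight `K - w_i` with
`h_i(z₀) = v_i`; then `G = ∑ h_i g_i ∈ M_K(Γ₀(N))` vanishes on `SL₂(ℤ)·z₀`
(`tr_comb`), so `G = φ G'` by `division`, `G' = ∑ h_i' g_i` by `Gen`, hence `h_i = φ h_i'` by
`Indep` and `v_i = h_i(z₀) = 0`.

* generic `z₀` (`E₄(z₀) E₆(z₀) ≠ 0`): `exists_form_eval` with `K` even, `K ≥ max w_i + 4`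
  (all `w_i` are even: forms of odd weight vanish);
* `z₀ = i`: the left kernel is stable under `diag(i^{w_i})` (`tr_smul_apply` with `γ = S`,
  `S_smul_I`, `denom_S_I`), so one may assume that `v` is supported on one class of `w_i` mod 4;
  then `exists_form_eval_I` with `K ≡ w_i` mod 4;
* `z₀ = ρ`: same with `S T`, classes mod 6, `exists_form_eval_rho`;
* transport along `γ ∈ SL₂(ℤ)` by `tr_smul_apply`; conclude with `zero_E4_iff`, `zero_E6_iff`.

Statements FROZEN; prefix extra names with `nv_`.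
-/

set_option autoImplicit false
set_option linter.unusedSectionVars false

namespace Fermat.Agent.S20

open UpperHalfPlane ModularForm EisensteinSeries
open scoped MatrixGroups ModularForm

variable {N : ℕ} [NeZero N] {ι : Type} [Fintype ι] (w : ι → ℕ)
  (g : ∀ i, ModularForm (G0 N) (w i))

/-- The left kernel of `F(z₀)` is trivial. -/
def LeftKerTrivial (z₀ : ℍ) : Prop :=
  ∀ v : ι → ℂ, (∀ q : Q N, ∑ i, v i * tr (g i) q z₀ = 0) → v = 0

/-- KEY TRICK: a vector in the left kernel of `F(z₀)` which is the vector of values at `z₀` of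
level-one forms `c i` of weights `K - w i` vanishes. -/
theorem nv_key (h : IsFreeBasis w g) (z₀ : ℍ) (K : ℤ) (c : ∀ i, ModularForm 𝒮ℒ (K - w i))
    (v : ι → ℂ) (hv : ∀ i, c i z₀ = v i) (hker : ∀ q : Q N, ∑ i, v i * tr (g i) q z₀ = 0) :
    v = 0 := by
  obtain ⟨G, hG⟩ := exists_comb (k := K) g c
  have htr : ∀ q : Q N, tr G q z₀ = 0 := by
    intro q
    rw [tr_comb g c G hG q z₀]
    simp only [hv]
    exact hker q
  obtain ⟨w', φ, hφ0, hdiv⟩ := division N z₀
  obtain ⟨G', hG'⟩ := hdiv K G htr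
  obtain ⟨c', hc'⟩ := h.1 (K - w') G'
  let d : ∀ i, ModularForm 𝒮ℒ (K - w i) := fun i =>
    c i - ModularForm.mcast (by ring) (φ.mul (c' i))
  have hd : ∀ z : ℍ, ∑ i, d i z * g i z = 0 := by
    intro z
    have h1 : ∀ i, d i z = c i z - φ z * c' i z := by
      intro i
      rfl
    simp only [h1, sub_mul, Finset.sum_sub_distrib]
    rw [← hG z, hG' z, hc' z, Finset.mul_sum, sub_eq_zero]
    apply Finset.sum_congr rfl
    intro i _
    ring
  have hd0 := h.2 K d hd
  funext i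
  have h2 : d i z₀ = 0 := by rw [hd0 i]; rfl
  have h1 : d i z₀ = c i z₀ - φ z₀ * c' i z₀ := rfl
  rw [h1, hφ0, zero_mul, sub_zero, hv] at h2
  exact h2

/-- The key trick for a vector supported on one class of weights modulo `n`. -/
theorem nv_class (h : IsFreeBasis w g) (z₀ : ℍ) (n : ℕ) (hn : 0 < n)
    (hform : ∀ k : ℕ, n ∣ k → 4 ≤ k → ∃ f : ModularForm 𝒮ℒ k, f z₀ = 1) (r : ℕ)
    (v : ι → ℂ) (hsupp : ∀ i, v i ≠ 0 → w i % n = r % n)
    (hker : ∀ q : Q N, ∑ i, v i * tr (g i) q z₀ = 0) : v = 0 := by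
  classical
  set S : ℕ := ∑ j, w j with hS
  have hwS : ∀ i, w i ≤ S := fun i => Finset.single_le_sum (fun j _ => Nat.zero_le (w j))
    (Finset.mem_univ i)
  set Kn : ℕ := r + n * (S + 4) with hKn
  have hle : ∀ i, w i ≤ Kn := by
    intro i
    have h1 : S + 4 ≤ n * (S + 4) := Nat.le_mul_of_pos_left _ hn
    have := hwS i
    omega
  have h4 : ∀ i, 4 ≤ Kn - w i := by
    intro i
    have h1 : S + 4 ≤ n * (S + 4) := Nat.le_mul_of_pos_left _ hn
    have := hwS i
    omega
  have hdvd : ∀ i, v i ≠ 0 → n ∣ Kn - w i := by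
    intro i hi
    have h1 : w i % n = r % n := hsupp i hi
    have h2 : (r + n * (S + 4)) % n = r % n := Nat.add_mul_mod_self_left r n (S + 4)
    have h3 : w i ≡ Kn [MOD n] := by
      rw [Nat.ModEq, h1, hKn, h2]
    exact (Nat.modEq_iff_dvd' (hle i)).mp h3
  have hcast : ∀ i, ((Kn - w i : ℕ) : ℤ) = (Kn : ℤ) - (w i : ℤ) := fun i =>
    Nat.cast_sub (hle i)
  let c : ∀ i, ModularForm 𝒮ℒ ((Kn : ℤ) - w i) := fun i =>
    if hvi : v i = 0 then 0
    else ModularForm.mcast (hcast i) (v i • (hform (Kn - w i) (hdvd i hvi) (h4 i)).choose)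
  have hc : ∀ i, c i z₀ = v i := by
    intro i
    by_cases hvi : v i = 0
    · simp only [c, hvi, dif_pos]
      rfl
    · simp only [c, hvi, dif_neg, not_false_eq_true]
      rw [ModularForm.mcast_apply]
      have := (hform (Kn - w i) (hdvd i hvi) (h4 i)).choose_spec
      change v i • ((hform (Kn - w i) (hdvd i hvi) (h4 i)).choose z₀) = v i
      rw [this, smul_eq_mul, mul_one]
  exact nv_key w g h z₀ (Kn : ℤ) c v hc hker

theorem leftKer_generic (h : IsFreeBasis w g) (z₀ : ℍ) (h4 : E₄ z₀ ≠ 0) (h6 : E₆ z₀ ≠ 0) :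
    LeftKerTrivial w g z₀ := by
  intro v hker
  refine nv_class w g h z₀ 2 (by norm_num) ?_ 0 v ?_ hker
  · intro k hk hk4
    exact exists_form_eval k (even_iff_two_dvd.mpr hk) (by omega) z₀ h4 h6
  · intro i _
    have := weight_even w g h i
    rw [Nat.even_iff] at this
    rw [this]

/-- The left kernel at a fixed point `z₀` of `γ` is stable under `diag(ζ^{w_i})`. -/
theorem nv_ker_stable (γ : SL(2, ℤ)) (z₀ : ℍ) (hz : γ • z₀ = z₀) (ζ : ℂ)
    (hζ : denom γ z₀ = ζ) (v : ι → ℂ) (hker : ∀ q : Q N, ∑ i, v i * tr (g i) q z₀ = 0) :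
    ∀ q : Q N, ∑ i, (ζ ^ (w i) * v i) * tr (g i) q z₀ = 0 := by
  intro q
  have hrel : ∀ i, tr (g i) (γ • q) z₀ = ζ ^ (w i) * tr (g i) q z₀ := by
    intro i
    have := tr_smul_apply (g i) (γ • q) γ z₀
    rw [hz, hζ, inv_smul_smul, zpow_natCast] at this
    exact this
  rw [← hker (γ • q)]
  apply Finset.sum_congr rfl
  intro i _
  rw [hrel i]
  ring

theorem nv_ker_stable_pow (γ : SL(2, ℤ)) (z₀ : ℍ) (hz : γ • z₀ = z₀) (ζ : ℂ)
    (hζ : denom γ z₀ = ζ) (v : ι → ℂ) (hker : ∀ q : Q N, ∑ i, v i * tr (g i) q z₀ = 0)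
    (k : ℕ) : ∀ q : Q N, ∑ i, ((ζ ^ (w i)) ^ k * v i) * tr (g i) q z₀ = 0 := by
  induction k with
  | zero => simpa using hker
  | succ k ih =>
    intro q
    have := nv_ker_stable w g γ z₀ hz ζ hζ (fun i => (ζ ^ (w i)) ^ k * v i) ih q
    rw [← this]
    apply Finset.sum_congr rfl
    intro i _
    ring

/-- Nonvanishing at a fixed point `z₀` of `γ` whose automorphy factor is a primitive `m`-th root
of unity, provided that the weights divisible by `m` carry forms not vanishing at `z₀`. -/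
theorem nv_fixed (h : IsFreeBasis w g) (γ : SL(2, ℤ)) (z₀ : ℍ) (hz : γ • z₀ = z₀) (ζ : ℂ)
    (hζ : denom γ z₀ = ζ) (m : ℕ) (hm : 0 < m) (hprim : IsPrimitiveRoot ζ m)
    (hform : ∀ k : ℕ, m ∣ k → 4 ≤ k → ∃ f : ModularForm 𝒮ℒ k, f z₀ = 1) :
    LeftKerTrivial w g z₀ := by
  intro v hker
  -- the component of `v` in the class `r`
  let u : ℕ → ι → ℂ := fun r i => (∑ k ∈ Finset.range m, (ζ ^ (w i + (m - r))) ^ k) * v i
  have hu_ker : ∀ r, ∀ q : Q N, ∑ i, u r i * tr (g i) q z₀ = 0 := by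
    intro r q
    have h1 : ∀ i, u r i * tr (g i) q z₀ =
        ∑ k ∈ Finset.range m, (ζ ^ (m - r)) ^ k * (((ζ ^ (w i)) ^ k * v i) * tr (g i) q z₀) := by
      intro i
      simp only [u, Finset.sum_mul]
      apply Finset.sum_congr rfl
      intro k _
      rw [pow_add, mul_pow]
      ring
    simp only [h1]
    rw [Finset.sum_comm]
    apply Finset.sum_eq_zero
    intro k _
    rw [← Finset.mul_sum, nv_ker_stable_pow w g γ z₀ hz ζ hζ v hker k q, mul_zero]
  have hu_supp : ∀ r, r < m → ∀ i, u r i ≠ 0 → w i % m = r % m := by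
    intro r hr i hi
    by_contra hne
    apply hi
    have hξ : ζ ^ (w i + (m - r)) ≠ 1 := by
      intro h1
      rw [hprim.pow_eq_one_iff_dvd] at h1
      apply hne
      have h2 : (w i + (m - r)) % m = 0 := Nat.mod_eq_zero_of_dvd h1
      have h3 : (w i + (m - r) + r) % m = (0 + r) % m := by
        rw [Nat.add_mod, h2, Nat.zero_add, Nat.mod_mod, Nat.zero_add]
      have h4 : w i + (m - r) + r = w i + m := by omega
      rw [h4, Nat.add_mod_right, Nat.zero_add] at h3
      exact h3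
    have hξm : (ζ ^ (w i + (m - r))) ^ m = 1 := by
      rw [← pow_mul, mul_comm, pow_mul, hprim.pow_eq_one, one_pow]
    have hgeom := geom_sum_mul (ζ ^ (w i + (m - r))) m
    rw [hξm, sub_self] at hgeom
    have h0 : ∑ k ∈ Finset.range m, (ζ ^ (w i + (m - r))) ^ k = 0 := by
      rcases mul_eq_zero.mp hgeom with h0 | h0
      · exact h0
      · exact absurd (sub_eq_zero.mp h0) hξ
    simp only [u, h0, zero_mul]
  have hu0 : ∀ r, r < m → u r = 0 := fun r hr =>
    nv_class w g h z₀ m hm hform r (u r) (hu_supp r hr) (hu_ker r)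
  funext i
  have hr : w i % m < m := Nat.mod_lt _ hm
  have h1 := congrFun (hu0 (w i % m) hr) i
  have hξ : ζ ^ (w i + (m - w i % m)) = 1 := by
    rw [hprim.pow_eq_one_iff_dvd]
    have h2 : w i + (m - w i % m) = m * (w i / m) + m := by
      have := Nat.div_add_mod (w i) m
      omega
    rw [h2]
    exact Dvd.dvd.add (dvd_mul_right m _) (dvd_refl m)
  simp only [u, hξ, one_pow, Finset.sum_const, Finset.card_range, nsmul_eq_mul, mul_one,
    Pi.zero_apply] at h1
  rcases mul_eq_zero.mp h1 with h0 | h0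
  · exact absurd h0 (by exact_mod_cast hm.ne')
  · exact h0

theorem leftKer_I (h : IsFreeBasis w g) : LeftKerTrivial w g I :=
  nv_fixed w g h ModularGroup.S I S_smul_I Complex.I denom_S_I 4 (by norm_num)
    Complex.isPrimitiveRoot_I (fun k hk _ => exists_form_eval_I k hk)

/-- `ζ = e^{πi/3}` is a primitive sixth root of unity. -/
theorem nv_isPrimitiveRoot_zeta :
    IsPrimitiveRoot ((1 / 2 : ℂ) + (Real.sqrt 3 / 2 : ℝ) * Complex.I) 6 := by
  have h := Complex.isPrimitiveRoot_exp 6 (by norm_num)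
  have e : Complex.exp (2 * Real.pi * Complex.I / (6 : ℕ)) =
      (1 / 2 : ℂ) + (Real.sqrt 3 / 2 : ℝ) * Complex.I := by
    have h1 : (2 * Real.pi * Complex.I / (6 : ℕ) : ℂ) = ((Real.pi / 3 : ℝ) : ℂ) * Complex.I := by
      push_cast
      ring
    rw [h1, Complex.exp_mul_I, ← Complex.ofReal_cos, ← Complex.ofReal_sin,
      Real.cos_pi_div_three, Real.sin_pi_div_three]
    push_cast
    ring
  rwa [e] at h

theorem leftKer_rho (h : IsFreeBasis w g) : LeftKerTrivial w g rho := by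
  have hden : denom ((ModularGroup.S * ModularGroup.T : SL(2, ℤ)) : GL (Fin 2) ℝ) rho =
      (1 / 2 : ℂ) + (Real.sqrt 3 / 2 : ℝ) * Complex.I := by
    rw [← denom_ST_rho]
    congr 1
    rw [map_mul, map_mul]
  exact nv_fixed w g h (ModularGroup.S * ModularGroup.T) rho ST_smul_rho _ hden 6 (by norm_num)
    nv_isPrimitiveRoot_zeta (fun k hk _ => exists_form_eval_rho k hk)

theorem leftKer_smul (γ : SL(2, ℤ)) (z : ℍ) (hz : LeftKerTrivial w g z) :
    LeftKerTrivial w g (γ • z) := by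
  intro v hker
  have hden : denom γ z ≠ 0 := denom_ne_zero γ z
  have h1 : ∀ q : Q N, ∑ i, (v i * denom γ z ^ (w i)) * tr (g i) q z = 0 := by
    intro q
    rw [← hker (γ • q)]
    apply Finset.sum_congr rfl
    intro i _
    rw [tr_smul_apply (g i) (γ • q) γ z, inv_smul_smul, zpow_natCast]
    ring
  have h2 := hz _ h1
  funext i
  have h3 := congrFun h2 i
  simp only [Pi.zero_apply] at h3
  rcases mul_eq_zero.mp h3 with h0 | h0
  · exact h0
  · exact absurd h0 (pow_ne_zero _ hden)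

/-- **Nonvanishing.** For a free basis the left kernel of `F(z₀)` is trivial for every `z₀`. -/
theorem leftKer_trivial (h : IsFreeBasis w g) (z₀ : ℍ) : LeftKerTrivial w g z₀ := by
  by_cases h4 : E₄ z₀ = 0
  · obtain ⟨γ, rfl⟩ := (zero_E4_iff z₀).mp h4
    exact leftKer_smul w g γ rho (leftKer_rho w g h)
  · by_cases h6 : E₆ z₀ = 0
    · obtain ⟨γ, rfl⟩ := (zero_E6_iff z₀).mp h6
      exact leftKer_smul w g γ I (leftKer_I w g h)
    · exact leftKer_generic w g h z₀ h4 h6

end Fermat.Agent.S20
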