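import Fermat.Agent.S20.Infinity
import Fermat.Agent.S20.Nonvanish
import Fermat.Agent.S20.FreeDim
import Fermat.Agent.S20.DualityAux

/-!
# S20 / part (E4): duality  (OWNER: helper5)

For a free basis `F(z)` is invertible for all `z` (`leftKer_trivial`, `card_eq_of_free`).
`exists_dual`: `φ_i := Δ · (F⁻ᵀ)_{i, 1}` is holomorphic, `Γ₀(N)`-invariant of weight `12 - w_i`
(from `F(γz) = diag((cz+d)^{w_i}) F(z) P_γ`, i.e. `tr_smul_apply`), its translates are
`Δ · (F⁻ᵀ)_{i,q}`, and they tend to `0` at `i∞` by `decay`; so `φ_i` is a cusp form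
(`exists_cuspForm_of_zero`) and `∑_q (φ_i)_q (g_i')_q = δ_{ii'} Δ`.
Consequences: `w_i ≤ 10` (a nonzero cusp form has positive weight: `cuspForm_nonpos_eq_zero`),
and `s ↦ (Tr(s g_i)/Δ)_i` is an isomorphism `S_k(Γ₀(N)) ≃ ∏_i M_{k + w_i - 12}(SL₂(ℤ))`
(`CuspForm.trace`-like sums are level-one cusp forms, `exists_eq_delta_mul`), inverse
`(a_i) ↦ ∑ a_i φ_i`.

Statements FROZEN; prefix extra names with `dual_`.
-/

set_option autoImplicit false

namespace Fermat.Agent.S20

open UpperHalfPlane ModularForm EisensteinSeries Filter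
open scoped MatrixGroups ModularForm Manifold Topology

variable {N : ℕ} [NeZero N] {ι : Type} [Fintype ι] [DecidableEq ι] (w : ι → ℕ)
  (g : ∀ i, ModularForm (G0 N) (w i))

/-- The inverse `Y(z)` of the matrix of translates `F(z)` of a free basis: `F Y = 1`, `Y F = 1`,
and the entries of `Y` are holomorphic. -/
theorem dual_exists_inv (h : IsFreeBasis w g) :
    ∃ Y : ℍ → Q N → ι → ℂ,
      (∀ z i i', ∑ q, tr (g i') q z * Y z q i = if i' = i then 1 else 0) ∧
      (∀ z q q', ∑ i, Y z q i * tr (g i) q' z = if q = q' then 1 else 0) ∧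
      (∀ q i, MDifferentiable 𝓘(ℂ) 𝓘(ℂ) (fun z => Y z q i)) := by
  classical
  have hcard : Fintype.card ι = Fintype.card (Q N) := by
    rw [card_eq_of_free w g h, Nat.card_eq_fintype_card]
  let e : ι ≃ Q N := Fintype.equivOfCardEq hcard
  let B : ℍ → Matrix ι ι ℂ := fun z => Matrix.of fun i j => tr (g i) (e j) z
  have hdet : ∀ z, (B z).det ≠ 0 := by
    intro z hz
    obtain ⟨v, hv0, hv⟩ := Matrix.exists_vecMul_eq_zero_iff.mpr hz
    apply hv0
    apply leftKer_trivial w g h z v
    intro q
    have := congrFun hv (e.symm q)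
    simpa [Matrix.vecMul, dotProduct, B] using this
  have hunit : ∀ z, IsUnit (B z).det := fun z => (hdet z).isUnit
  refine ⟨fun z q i => (B z)⁻¹ (e.symm q) i, ?_, ?_, ?_⟩
  · intro z i i'
    have := congrFun (congrFun (Matrix.mul_nonsing_inv (B z) (hunit z)) i') i
    rw [Matrix.mul_apply, Matrix.one_apply] at this
    rw [← this, ← Equiv.sum_comp e]
    refine Finset.sum_congr rfl fun j _ => ?_
    simp only [B, Matrix.of_apply, Equiv.symm_apply_apply]
  · intro z q q'
    have := congrFun (congrFun (Matrix.nonsing_inv_mul (B z) (hunit z)) (e.symm q)) (e.symm q')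
    rw [Matrix.mul_apply, Matrix.one_apply] at this
    simp only [B, Matrix.of_apply, Equiv.apply_symm_apply] at this
    rw [this]
    by_cases hq : q = q'
    · rw [if_pos hq, if_pos (by rw [hq])]
    · rw [if_neg hq, if_neg (fun hh => hq (e.symm.injective hh))]
  · intro q i
    exact dual_mdiff_inv B (fun a b => mdifferentiable_tr (g a) (e b)) hdet _ _

omit [DecidableEq ι] in
/-- Uniqueness of solutions of `F(z) x = c`. -/
theorem dual_uniq (Y : ℍ → Q N → ι → ℂ)
    (hYF : ∀ z q q', ∑ i, Y z q i * tr (g i) q' z = if q = q' then 1 else 0)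
    (z : ℍ) (x : Q N → ℂ) (c : ι → ℂ) (hx : ∀ i, ∑ q, tr (g i) q z * x q = c i) (q : Q N) :
    x q = ∑ i, Y z q i * c i := by
  calc x q = ∑ q', (if q = q' then 1 else 0) * x q' := by
        rw [Finset.sum_eq_single q]
        · rw [if_pos rfl, one_mul]
        · intro b _ hb
          rw [if_neg (Ne.symm hb), zero_mul]
        · intro hq
          exact absurd (Finset.mem_univ q) hq
    _ = ∑ q', (∑ i, Y z q i * tr (g i) q' z) * x q' := by
        refine Finset.sum_congr rfl fun q' _ => ?_
        rw [hYF]
    _ = ∑ i, Y z q i * ∑ q', tr (g i) q' z * x q' := by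
        simp_rw [Finset.sum_mul, Finset.mul_sum]
        rw [Finset.sum_comm]
        refine Finset.sum_congr rfl fun i _ => Finset.sum_congr rfl fun q' _ => ?_
        ring
    _ = ∑ i, Y z q i * c i := by
        refine Finset.sum_congr rfl fun i _ => ?_
        rw [hx]

/-- The dual family together with the inverse matrix. -/
theorem dual_exists_dual' (h : IsFreeBasis w g) :
    ∃ (Y : ℍ → Q N → ι → ℂ) (φ : ∀ i, CuspForm (G0 N) (12 - (w i : ℤ))),
      (∀ z i i', ∑ q, tr (g i') q z * Y z q i = if i' = i then 1 else 0) ∧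
      (∀ z q q', ∑ i, Y z q i * tr (g i) q' z = if q = q' then 1 else 0) ∧
      (∀ i q z, tr (φ i) q z = ModularForm.discriminant z * Y z q i) := by
  obtain ⟨Y, hFY, hYF, hhol⟩ := dual_exists_inv w g h
  have hD : ∀ i i' z, ∑ q, tr (g i') q z * (ModularForm.discriminant z * Y z q i) =
      if i' = i then ModularForm.discriminant z else 0 := by
    intro i i' z
    have : ∑ q, tr (g i') q z * (ModularForm.discriminant z * Y z q i) =
        ModularForm.discriminant z * ∑ q, tr (g i') q z * Y z q i := by
      rw [Finset.mul_sum]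
      refine Finset.sum_congr rfl fun q _ => ?_
      ring
    rw [this, hFY]
    split_ifs
    · rw [mul_one]
    · rw [mul_zero]
  have hsl : ∀ i q (γ : SL(2, ℤ)) z,
      ModularForm.discriminant (γ • z) * Y (γ • z) q i =
        denom γ z ^ (12 - (w i : ℤ)) * (ModularForm.discriminant z * Y z (γ⁻¹ • q) i) := by
    intro i q γ z
    have hd : denom γ z ≠ 0 := denom_ne_zero γ z
    have hx : ∀ i', ∑ q, tr (g i') q (γ • z) *
        (denom γ z ^ (12 - (w i : ℤ)) * (ModularForm.discriminant z * Y z (γ⁻¹ • q) i)) =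
        if i' = i then ModularForm.discriminant (γ • z) else 0 := by
      intro i'
      have h1 : ∑ q, tr (g i') q (γ • z) *
          (denom γ z ^ (12 - (w i : ℤ)) * (ModularForm.discriminant z * Y z (γ⁻¹ • q) i)) =
          denom γ z ^ ((w i' : ℤ) + (12 - (w i : ℤ))) *
            ∑ q, tr (g i') q z * (ModularForm.discriminant z * Y z q i) := by
        rw [Finset.mul_sum, ← Equiv.sum_comp (MulAction.toPerm (γ⁻¹ : SL(2, ℤ)))
          (fun q : Q N => denom γ z ^ ((w i' : ℤ) + (12 - (w i : ℤ))) *
            (tr (g i') q z * (ModularForm.discriminant z * Y z q i)))]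
        refine Finset.sum_congr rfl fun q _ => ?_
        rw [tr_smul_apply, MulAction.toPerm_apply, zpow_add₀ hd]
        ring
      rw [h1, hD]
      by_cases hii : i' = i
      · rw [if_pos hii, if_pos hii, hii, dual_discriminant_smul]
        congr 2
        ring
      · rw [if_neg hii, if_neg hii, mul_zero]
    have key := dual_uniq w g Y hYF (γ • z)
      (fun q => denom γ z ^ (12 - (w i : ℤ)) * (ModularForm.discriminant z * Y z (γ⁻¹ • q) i))
      (fun i' => if i' = i then ModularForm.discriminant (γ • z) else 0) hx q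
    rw [key, Finset.sum_eq_single i]
    · rw [if_pos rfl, mul_comm]
    · intro b _ hb
      rw [if_neg hb, mul_zero]
    · intro hi
      exact absurd (Finset.mem_univ i) hi
  have hzero : ∀ i q, Tendsto (fun z => ModularForm.discriminant z * Y z q i) atImInfty (𝓝 0) := by
    intro i q
    have := decay w g h i (fun z q => ModularForm.discriminant z * Y z q i)
      (fun z i' => hD i i' z) q
    exact this
  have hol : ∀ i q, MDifferentiable 𝓘(ℂ) 𝓘(ℂ)
      (fun z => ModularForm.discriminant z * Y z q i) := by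
    intro i q
    exact MDifferentiable.mul CuspForm.discriminant.holo' (hhol q i)
  choose φ hφ using fun i => dual_cusp_of_family (N := N) (k := 12 - (w i : ℤ))
    (fun q z => ModularForm.discriminant z * Y z q i) (hol i) (hsl i) (hzero i)
  exact ⟨Y, φ, hFY, hYF, hφ⟩

/-- The dual family of cusp forms. -/
theorem exists_dual (h : IsFreeBasis w g) :
    ∃ φ : ∀ i, CuspForm (G0 N) (12 - (w i : ℤ)),
      ∀ i i' z, ∑ q : Q N, tr (φ i) q z * tr (g i') q z =
        if i = i' then ModularForm.discriminant z else 0 := by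
  obtain ⟨Y, φ, hFY, hYF, hφ⟩ := dual_exists_dual' w g h
  refine ⟨φ, fun i i' z => ?_⟩
  have : ∑ q : Q N, tr (φ i) q z * tr (g i') q z =
      ModularForm.discriminant z * ∑ q, tr (g i') q z * Y z q i := by
    rw [Finset.mul_sum]
    refine Finset.sum_congr rfl fun q _ => ?_
    rw [hφ]
    ring
  rw [this, hFY]
  by_cases hii : i = i'
  · rw [if_pos hii, if_pos hii.symm, mul_one]
  · rw [if_neg hii, if_neg (fun hh => hii hh.symm), mul_zero]

theorem weight_le_ten (h : IsFreeBasis w g) (i : ι) : w i ≤ 10 := by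
  obtain ⟨φ, hφ⟩ := exists_dual w g h
  obtain ⟨m, hm⟩ := weight_even w g h i
  by_contra hcon
  have hk : 12 - (w i : ℤ) ≤ 0 := by omega
  have h0 := cuspForm_nonpos_eq_zero hk (φ i)
  have h1 := hφ i i I
  rw [if_pos rfl, h0] at h1
  simp only [dual_tr_zero, zero_mul, Finset.sum_const_zero] at h1
  exact ModularForm.discriminant_ne_zero I h1.symm

theorem finrank_cuspForm_of_free (h : IsFreeBasis w g) (k : ℤ) :
    Module.finrank ℂ (CuspForm (G0 N) k) = ∑ i, levelOneDim (k + w i - 12) := by
  obtain ⟨Y, φ, hFY, hYF, hφ⟩ := dual_exists_dual' w g h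
  have hΔ := ModularForm.discriminant_ne_zero
  choose a ha using fun (s : CuspForm (G0 N) k) (i : ι) => dual_exists_trace s (g i)
  let Ψ : CuspForm (G0 N) k →ₗ[ℂ] (∀ i, ModularForm 𝒮ℒ (k + w i - 12)) :=
    { toFun := a
      map_add' := fun s t => by
        funext i
        ext z
        apply mul_left_cancel₀ (hΔ z)
        rw [Pi.add_apply, add_apply, mul_add, ha, ha, ha, ← Finset.sum_add_distrib]
        refine Finset.sum_congr rfl fun q _ => ?_
        rw [dual_tr_add, add_mul]
      map_smul' := fun c s => by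
        funext i
        ext z
        apply mul_left_cancel₀ (hΔ z)
        rw [RingHom.id_apply, Pi.smul_apply, smul_apply, smul_eq_mul, mul_left_comm, ha, ha,
          Finset.mul_sum]
        refine Finset.sum_congr rfl fun q _ => ?_
        rw [dual_tr_smul, mul_assoc] }
  have hΨ : ∀ s i, Ψ s i = a s i := fun s i => rfl
  have hinj : Function.Injective Ψ := by
    refine (injective_iff_map_eq_zero Ψ).mpr fun s hs => ?_
    have h1 : ∀ i z, ∑ q, tr (g i) q z * tr s q z = 0 := by
      intro i z
      have h2 := ha s i z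
      rw [← hΨ, hs] at h2
      simp only [Pi.zero_apply, zero_apply, mul_zero] at h2
      rw [← h2.symm]
      refine Finset.sum_congr rfl fun q _ => ?_
      ring
    ext z
    have h3 := dual_uniq w g Y hYF z (fun q => tr s q z) (fun _ : ι => (0 : ℂ)) (fun i => h1 i z)
      ((1 : SL(2, ℤ)) : Q N)
    simp only [mul_zero, Finset.sum_const_zero] at h3
    rw [tr_one] at h3
    rw [h3]
    rfl
  have hsurj : Function.Surjective Ψ := by
    intro b
    have hol : ∀ q : Q N, MDifferentiable 𝓘(ℂ) 𝓘(ℂ) (fun z => ∑ i, b i z * tr (φ i) q z) := by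
      intro q
      have h1 : (fun z => ∑ i, b i z * tr (φ i) q z) = ∑ i, ⇑(b i) * tr (φ i) q := by
        funext z
        simp only [Finset.sum_apply, Pi.mul_apply]
      rw [h1]
      exact MDifferentiable.sum fun i _ => (b i).holo'.mul (mdifferentiable_tr (φ i) q)
    have hsl : ∀ (q : Q N) (γ : SL(2, ℤ)) z,
        (fun q z => ∑ i, b i z * tr (φ i) q z) q (γ • z) =
          denom γ z ^ k * (fun q z => ∑ i, b i z * tr (φ i) q z) (γ⁻¹ • q) z := by
      intro q γ z
      show ∑ i, b i (γ • z) * tr (φ i) q (γ • z) =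
        denom γ z ^ k * ∑ i, b i z * tr (φ i) (γ⁻¹ • q) z
      rw [Finset.mul_sum]
      refine Finset.sum_congr rfl fun i _ => ?_
      rw [tr_smul_apply, dual_smul_levelOne (b i) γ z]
      have hd : denom γ z ≠ 0 := denom_ne_zero γ z
      have hk : denom γ z ^ k =
          denom γ z ^ (k + (w i : ℤ) - 12) * denom γ z ^ (12 - (w i : ℤ)) := by
        rw [← zpow_add₀ hd]
        congr 1
        ring
      rw [hk]
      ring
    have hzero : ∀ q : Q N, Tendsto (fun z => ∑ i, b i z * tr (φ i) q z) atImInfty (𝓝 0) := by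
      intro q
      have := tendsto_finsetSum (Finset.univ : Finset ι) fun i _ =>
        dual_zero_mul_bdd (isZeroAtImInfty_tr (φ i) q) (ModularFormClass.bdd_at_infty (b i))
      simp only [Finset.sum_const_zero] at this
      refine this.congr fun z => ?_
      refine Finset.sum_congr rfl fun i _ => ?_
      ring
    obtain ⟨s, hs⟩ := dual_cusp_of_family (N := N) (k := k)
      (fun q z => ∑ i, b i z * tr (φ i) q z) hol hsl hzero
    refine ⟨s, ?_⟩
    funext i'
    ext z
    apply mul_left_cancel₀ (hΔ z)
    rw [hΨ, ha]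
    simp_rw [hs, hφ]
    calc ∑ q, (∑ i, b i z * (ModularForm.discriminant z * Y z q i)) * tr (g i') q z
        = ∑ i, (ModularForm.discriminant z * b i z) * ∑ q, tr (g i') q z * Y z q i := by
          simp_rw [Finset.sum_mul, Finset.mul_sum]
          rw [Finset.sum_comm]
          refine Finset.sum_congr rfl fun i _ => Finset.sum_congr rfl fun q _ => ?_
          ring
      _ = ModularForm.discriminant z * b i' z := by
          rw [Finset.sum_eq_single i']
          · rw [hFY, if_pos rfl, mul_one]
          · intro j _ hj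
            rw [hFY, if_neg (Ne.symm hj), mul_zero]
          · intro hi
            exact absurd (Finset.mem_univ i') hi
  have e := LinearEquiv.ofBijective Ψ ⟨hinj, hsurj⟩
  rw [e.finrank_eq, Module.finrank_pi_fintype]
  exact Finset.sum_congr rfl fun i _ => finrank_levelOne _

end Fermat.Agent.S20
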