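import Mathlib

/-!
# S20 / (A2), part 1: a lattice is determined by `g₂` and `g₃`  (OWNER: helper2)

If two period lattices `L`, `L'` have the same invariants `g₂`, `g₃`, then `℘_L = ℘_{L'}` near `0`
(first-order ODE `℘'² = 4℘³ - g₂℘ - g₃` at its singular point), hence everywhere (identity theorem),
hence the two lattices — the pole sets — coincide.
-/

set_option autoImplicit false

namespace Fermat.Agent.S20

open Complex Filter Topology
open scoped PeriodPair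

variable (L L' : PeriodPair)

/-- The open neighbourhood of `0` avoiding all nonzero points of both lattices. -/
def jinjNhd : Set ℂ := (↑L.lattice \ {0})ᶜ ∩ (↑L'.lattice \ {0})ᶜ

theorem jinj_isOpen_nhd : IsOpen (jinjNhd L L') :=
  L.isOpen_compl_lattice_sdiff.inter L'.isOpen_compl_lattice_sdiff

theorem jinj_zero_mem_nhd : (0 : ℂ) ∈ jinjNhd L L' := by
  simp [jinjNhd]

theorem jinj_nhd_mem_nhds : jinjNhd L L' ∈ 𝓝 (0 : ℂ) :=
  (jinj_isOpen_nhd L L').mem_nhds (jinj_zero_mem_nhd L L')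

theorem jinj_notMem_left {z : ℂ} (hz : z ∈ jinjNhd L L') (hz0 : z ≠ 0) : z ∉ L.lattice := by
  intro h
  exact hz.1 ⟨h, by simpa using hz0⟩

theorem jinj_notMem_right {z : ℂ} (hz : z ∈ jinjNhd L L') (hz0 : z ≠ 0) : z ∉ L'.lattice := by
  intro h
  exact hz.2 ⟨h, by simpa using hz0⟩

/-- `℘ = ℘[L - 0] + 1/z²`. -/
theorem jinj_weierstrassP_eq (z : ℂ) : ℘[L] z = ℘[L - (0 : ℂ)] z + 1 / z ^ 2 := by
  have := L.weierstrassPExcept_def (0 : L.lattice) z
  simp only [ZeroMemClass.coe_zero, sub_zero] at this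
  rw [this]
  simp

/-- `℘' = ℘'[L - 0] - 2/z³`. -/
theorem jinj_derivWeierstrassP_eq (z : ℂ) : ℘'[L] z = ℘'[L - (0 : ℂ)] z - 2 / z ^ 3 := by
  have := L.derivWeierstrassPExcept_def (0 : L.lattice) z
  simp only [ZeroMemClass.coe_zero, sub_zero] at this
  rw [this]
  ring

/-- The ODE, multiplied by `z⁶`, in terms of the regular parts. Valid on the whole neighbourhood. -/
theorem jinj_ode {z : ℂ} (hz : z ∈ jinjNhd L L') :
    (z ^ 3 * ℘'[L - (0 : ℂ)] z - 2) ^ 2 =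
      4 * (z ^ 2 * ℘[L - (0 : ℂ)] z + 1) ^ 3 - L.g₂ * z ^ 4 * (z ^ 2 * ℘[L - (0 : ℂ)] z + 1)
        - L.g₃ * z ^ 6 := by
  by_cases hz0 : z = 0
  · subst hz0
    norm_num
  · have h := L.derivWeierstrassP_sq z (jinj_notMem_left L L' hz hz0)
    rw [jinj_weierstrassP_eq, jinj_derivWeierstrassP_eq] at h
    have e1 : z ^ 3 * ℘'[L - (0 : ℂ)] z - 2 = z ^ 3 * (℘'[L - (0 : ℂ)] z - 2 / z ^ 3) := by
      field_simp
    have e2 : z ^ 2 * ℘[L - (0 : ℂ)] z + 1 = z ^ 2 * (℘[L - (0 : ℂ)] z + 1 / z ^ 2) := by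
      field_simp
    rw [e1, e2, mul_pow, h]
    ring

theorem jinj_nhd_symm {z : ℂ} (hz : z ∈ jinjNhd L L') : z ∈ jinjNhd L' L := ⟨hz.2, hz.1⟩

theorem jinj_hasDerivAt {z : ℂ} (hz : z ∈ jinjNhd L L') :
    HasDerivAt ℘[L - (0 : ℂ)] (℘'[L - (0 : ℂ)] z) z := by
  have hd : DifferentiableAt ℂ ℘[L - (0 : ℂ)] z :=
    (L.differentiableOn_weierstrassPExcept 0).differentiableAt
      (L.isOpen_compl_lattice_sdiff.mem_nhds hz.1)
  have := hd.hasDerivAt
  rwa [L.eqOn_deriv_weierstrassPExcept_derivWeierstrassPExcept 0 hz.1] at this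

theorem jinj_analyticAt (z : ℂ) (hz : z ∈ jinjNhd L L') : AnalyticAt ℂ ℘[L - (0 : ℂ)] z :=
  L.analyticOnNhd_weierstrassPExcept 0 z hz.1

theorem jinj_analyticAt' (z : ℂ) (hz : z ∈ jinjNhd L L') : AnalyticAt ℂ ℘'[L - (0 : ℂ)] z :=
  L.analyticOnNhd_derivWeierstrassPExcept 0 z hz.1

/-- The auxiliary function `k(z) = z³ (℘[L - 0] z - ℘[L' - 0] z)`. -/
noncomputable def jinjK (z : ℂ) : ℂ := z ^ 3 * (℘[L - (0 : ℂ)] z - ℘[L' - (0 : ℂ)] z)

/-- `A(z) = z³ (a' + b') - 4`. -/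
noncomputable def jinjA (z : ℂ) : ℂ := z ^ 3 * (℘'[L - (0 : ℂ)] z + ℘'[L' - (0 : ℂ)] z) - 4

/-- `B(z) = 4 ((z²a+1)² + (z²a+1)(z²b+1) + (z²b+1)²) - g₂ z⁴`. -/
noncomputable def jinjB (z : ℂ) : ℂ :=
  4 * ((z ^ 2 * ℘[L - (0 : ℂ)] z + 1) ^ 2 +
    (z ^ 2 * ℘[L - (0 : ℂ)] z + 1) * (z ^ 2 * ℘[L' - (0 : ℂ)] z + 1) +
    (z ^ 2 * ℘[L' - (0 : ℂ)] z + 1) ^ 2) - L.g₂ * z ^ 4

theorem jinj_analyticAt_K : AnalyticAt ℂ (jinjK L L') 0 := by
  have h1 := jinj_analyticAt L L' 0 (jinj_zero_mem_nhd L L')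
  have h2 := jinj_analyticAt L' L 0 (jinj_zero_mem_nhd L' L)
  unfold jinjK
  fun_prop

theorem jinj_analyticAt_A : AnalyticAt ℂ (jinjA L L') 0 := by
  have h1 := jinj_analyticAt' L L' 0 (jinj_zero_mem_nhd L L')
  have h2 := jinj_analyticAt' L' L 0 (jinj_zero_mem_nhd L' L)
  unfold jinjA
  fun_prop

theorem jinj_analyticAt_B : AnalyticAt ℂ (jinjB L L') 0 := by
  have h1 := jinj_analyticAt L L' 0 (jinj_zero_mem_nhd L L')
  have h2 := jinj_analyticAt L' L 0 (jinj_zero_mem_nhd L' L)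
  unfold jinjB
  fun_prop

theorem jinj_hasDerivAt_K {z : ℂ} (hz : z ∈ jinjNhd L L') :
    HasDerivAt (jinjK L L')
      (3 * z ^ 2 * (℘[L - (0 : ℂ)] z - ℘[L' - (0 : ℂ)] z) +
        z ^ 3 * (℘'[L - (0 : ℂ)] z - ℘'[L' - (0 : ℂ)] z)) z := by
  have h1 := jinj_hasDerivAt L L' hz
  have h2 := jinj_hasDerivAt L' L (jinj_nhd_symm L L' hz)
  have h3 : HasDerivAt (fun z : ℂ => z ^ 3) (3 * z ^ 2) z := by
    simpa using hasDerivAt_pow 3 z
  exact h3.mul (h1.sub h2)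

/-- The key identity `z A k' = k (3A + B)`. -/
theorem jinj_key (h₂ : L.g₂ = L'.g₂) (h₃ : L.g₃ = L'.g₃) {z : ℂ} (hz : z ∈ jinjNhd L L') :
    z * jinjA L L' z * deriv (jinjK L L') z =
      jinjK L L' z * (3 * jinjA L L' z + jinjB L L' z) := by
  rw [(jinj_hasDerivAt_K L L' hz).deriv]
  have e1 := jinj_ode L L' hz
  have e2 := jinj_ode L' L (jinj_nhd_symm L L' hz)
  rw [← h₂, ← h₃] at e2
  simp only [jinjA, jinjB, jinjK]
  linear_combination z * (e1 - e2)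

theorem jinj_K_zero : jinjK L L' 0 = 0 := by simp [jinjK]

theorem jinj_A_zero : jinjA L L' 0 = -4 := by simp [jinjA]

theorem jinj_B_zero : jinjB L L' 0 = 12 := by simp [jinjB]; norm_num

/-- `k` vanishes identically near `0`. -/
theorem jinj_K_eventually_zero (h₂ : L.g₂ = L'.g₂) (h₃ : L.g₃ = L'.g₃) :
    ∀ᶠ z in 𝓝 (0 : ℂ), jinjK L L' z = 0 := by
  by_contra hne
  have hk := jinj_analyticAt_K L L'
  have hA := jinj_analyticAt_A L L'
  have hB := jinj_analyticAt_B L L'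
  have htop : analyticOrderAt (jinjK L L') 0 ≠ ⊤ := fun h => hne (analyticOrderAt_eq_top.mp h)
  obtain ⟨m, hm⟩ := ENat.ne_top_iff_exists.mp htop
  have hm0 : m ≠ 0 := by
    intro h0
    have : analyticOrderAt (jinjK L L') 0 = 0 := by rw [← hm, h0]; rfl
    exact (hk.analyticOrderAt_eq_zero.mp this) (jinj_K_zero L L')
  obtain ⟨n, rfl⟩ := Nat.exists_eq_succ_of_ne_zero hm0
  have hord : analyticOrderAt (jinjK L L') 0 = (n : ℕ∞) + 1 := by
    rw [← hm]; push_cast; rfl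
  have hd : analyticOrderAt (deriv (jinjK L L')) 0 = n := analyticOrderAt_deriv_of_pos hk hord
  -- the two sides of the key identity
  have hev : (fun z => z * jinjA L L' z * deriv (jinjK L L') z) =ᶠ[𝓝 0]
      (fun z => jinjK L L' z * (3 * jinjA L L' z + jinjB L L' z)) := by
    filter_upwards [jinj_nhd_mem_nhds L L'] with z hz
    exact jinj_key L L' h₂ h₃ hz
  have hl : analyticOrderAt (fun z => z * jinjA L L' z * deriv (jinjK L L') z) 0 = (n : ℕ∞) + 1 := by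
    have e : (fun z => z * jinjA L L' z * deriv (jinjK L L') z) =
        (id * jinjA L L') * deriv (jinjK L L') := by
      funext z; simp
    rw [e, analyticOrderAt_mul (analyticAt_id.mul hA) hk.deriv, analyticOrderAt_mul analyticAt_id hA,
      analyticOrderAt_id, hd, hA.analyticOrderAt_eq_zero.mpr (by rw [jinj_A_zero]; norm_num)]
    rw [add_zero, add_comm]
  have h3AB : AnalyticAt ℂ (fun z => 3 * jinjA L L' z + jinjB L L' z) 0 := by fun_prop
  have hr : (n : ℕ∞) + 2 ≤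
      analyticOrderAt (fun z => jinjK L L' z * (3 * jinjA L L' z + jinjB L L' z)) 0 := by
    have e : (fun z => jinjK L L' z * (3 * jinjA L L' z + jinjB L L' z)) =
        jinjK L L' * (fun z => 3 * jinjA L L' z + jinjB L L' z) := by
      funext z; simp
    rw [e, analyticOrderAt_mul hk h3AB, hord]
    have h1 : (1 : ℕ∞) ≤ analyticOrderAt (fun z => 3 * jinjA L L' z + jinjB L L' z) 0 := by
      rw [Order.one_le_iff_ne_zero]
      rw [h3AB.analyticOrderAt_ne_zero, jinj_A_zero, jinj_B_zero]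
      norm_num
    calc (n : ℕ∞) + 2 = (n : ℕ∞) + 1 + 1 := by rw [add_assoc]; rfl
      _ ≤ _ := by gcongr
  rw [← analyticOrderAt_congr hev, hl] at hr
  have : (n : ℕ∞) + 2 ≤ (n : ℕ∞) + 1 := hr
  have h' : ((n + 2 : ℕ) : ℕ∞) ≤ ((n + 1 : ℕ) : ℕ∞) := by exact_mod_cast this
  have := Nat.cast_le.mp h'
  omega

/-- `℘_L = ℘_{L'}` on a punctured neighbourhood of `0`. -/
theorem jinj_weierstrassP_eventuallyEq (h₂ : L.g₂ = L'.g₂) (h₃ : L.g₃ = L'.g₃) :
    ∀ᶠ z in 𝓝 (0 : ℂ), z ≠ 0 → ℘[L] z = ℘[L'] z := by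
  filter_upwards [jinj_K_eventually_zero L L' h₂ h₃] with z hz hz0
  have h3 : z ^ 3 ≠ 0 := pow_ne_zero 3 hz0
  have : ℘[L - (0 : ℂ)] z - ℘[L' - (0 : ℂ)] z = 0 := by
    rcases mul_eq_zero.mp hz with h | h
    · exact absurd h h3
    · exact h
  rw [jinj_weierstrassP_eq, jinj_weierstrassP_eq, sub_eq_zero.mp this]

theorem jinj_countable_lattice : (L.lattice : Set ℂ).Countable :=
  countable_of_Lindelof_of_discrete (X := L.lattice)

/-- `℘_L = ℘_{L'}` away from the two lattices. -/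
theorem jinj_weierstrassP_eqOn (h₂ : L.g₂ = L'.g₂) (h₃ : L.g₃ = L'.g₃) :
    Set.EqOn ℘[L] ℘[L'] ((L.lattice : Set ℂ) ∪ (L'.lattice : Set ℂ))ᶜ := by
  have hconn : IsPreconnected (((L.lattice : Set ℂ) ∪ (L'.lattice : Set ℂ))ᶜ) :=
    (Set.Countable.isConnected_compl_of_one_lt_rank (by simp)
      ((jinj_countable_lattice L).union (jinj_countable_lattice L'))).isPreconnected
  have hf : AnalyticOnNhd ℂ ℘[L] ((L.lattice : Set ℂ) ∪ (L'.lattice : Set ℂ))ᶜ :=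
    L.analyticOnNhd_weierstrassP.mono (Set.compl_subset_compl.mpr Set.subset_union_left)
  have hg : AnalyticOnNhd ℂ ℘[L'] ((L.lattice : Set ℂ) ∪ (L'.lattice : Set ℂ))ᶜ :=
    L'.analyticOnNhd_weierstrassP.mono (Set.compl_subset_compl.mpr Set.subset_union_right)
  -- find a good base point
  have hev := (jinj_weierstrassP_eventuallyEq L L' h₂ h₃).and (jinj_nhd_mem_nhds L L')
  obtain ⟨r, hr, hball⟩ := Metric.eventually_nhds_iff.mp hev
  set z₀ : ℂ := ((r / 2 : ℝ) : ℂ) with hz₀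
  have hz₀ne : z₀ ≠ 0 := by
    rw [hz₀]
    exact_mod_cast (half_pos hr).ne'
  have hz₀ball : dist z₀ 0 < r := by
    rw [hz₀, dist_zero_right, Complex.norm_real, Real.norm_of_nonneg (half_pos hr).le]
    linarith
  have hz₀U : z₀ ∈ ((L.lattice : Set ℂ) ∪ (L'.lattice : Set ℂ))ᶜ := by
    have := (hball hz₀ball).2
    intro hmem
    rcases hmem with hmem | hmem
    · exact jinj_notMem_left L L' this hz₀ne hmem
    · exact jinj_notMem_right L L' this hz₀ne hmem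
  refine hf.eqOn_of_preconnected_of_eventuallyEq hg hconn hz₀U ?_
  have h1 : ∀ᶠ z in 𝓝 z₀, dist z 0 < r := by
    exact (isOpen_lt (continuous_id.dist continuous_const) continuous_const).mem_nhds hz₀ball
  have h2 : ∀ᶠ z in 𝓝 z₀, z ≠ 0 := isOpen_ne.mem_nhds hz₀ne
  filter_upwards [h1, h2] with z hz1 hz2
  exact (hball hz1).1 hz2

/-- One inclusion of lattices. -/
theorem jinj_lattice_le (h₂ : L.g₂ = L'.g₂) (h₃ : L.g₃ = L'.g₃) : L.lattice ≤ L'.lattice := by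
  intro l hl
  by_contra hl'
  have hord := L.order_weierstrassP l hl
  have han : AnalyticAt ℂ ℘[L'] l := L'.analyticOnNhd_weierstrassP l hl'
  have hcongr : ℘[L] =ᶠ[𝓝[≠] l] ℘[L'] := by
    have h1 : (↑L.lattice \ {l})ᶜ ∈ 𝓝 l := L.compl_lattice_sdiff_singleton_mem_nhds l
    have h2 : (↑L'.lattice : Set ℂ)ᶜ ∈ 𝓝 l := L'.isClosed_lattice.isOpen_compl.mem_nhds hl'
    filter_upwards [mem_nhdsWithin_of_mem_nhds h1, mem_nhdsWithin_of_mem_nhds h2,
      self_mem_nhdsWithin] with z hz1 hz2 hz3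
    apply jinj_weierstrassP_eqOn L L' h₂ h₃
    intro hmem
    rcases hmem with hmem | hmem
    · exact hz1 ⟨hmem, hz3⟩
    · exact hz2 hmem
  rw [meromorphicOrderAt_congr hcongr] at hord
  have := han.meromorphicOrderAt_nonneg
  rw [hord] at this
  exact absurd this (by decide)

/-- **A lattice is determined by `g₂` and `g₃`.** -/
theorem jinj_lattice_eq (h₂ : L.g₂ = L'.g₂) (h₃ : L.g₃ = L'.g₃) : L.lattice = L'.lattice :=
  le_antisymm (jinj_lattice_le L L' h₂ h₃) (jinj_lattice_le L' L h₂.symm h₃.symm)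

end Fermat.Agent.S20
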