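import Mathlib
import Fermat.Agent.S20.JInjLattice

/-!
# S20 (A2), part 2: Eisenstein series as lattice sums

For `τ ∈ ℍ` and `c ≠ 0`, the period pair `(c τ, c)` has
`G_k = c⁻ᵏ · 2 ζ(k) · E_k(τ)` for `k ≥ 3`.
-/

namespace Fermat.Agent.S20

open Complex UpperHalfPlane ModularForm EisensteinSeries

/-- The period pair `(c τ, c)`. -/
noncomputable def jinjPair (c : ℂ) (hc : c ≠ 0) (τ : ℍ) : PeriodPair where
  ω₁ := c * τ
  ω₂ := c
  indep := by
    rw [LinearIndependent.pair_iff]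
    intro s t h
    have h1 : c * ((s : ℂ) * τ + t) = 0 := by
      rw [← h]
      simp only [Complex.real_smul]
      ring
    have h2 : (s : ℂ) * τ + t = 0 := by
      rcases mul_eq_zero.mp h1 with h | h
      · exact absurd h hc
      · exact h
    have h3 := congrArg Complex.im h2
    simp at h3
    have hs : s = 0 := by
      rcases h3 with h | h
      · exact h
      · exact absurd h τ.im_ne_zero
    subst hs
    simp at h2
    exact ⟨rfl, h2⟩

@[simp] theorem jinjPair_ω₁ (c : ℂ) (hc : c ≠ 0) (τ : ℍ) : (jinjPair c hc τ).ω₁ = c * τ := rfl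
@[simp] theorem jinjPair_ω₂ (c : ℂ) (hc : c ≠ 0) (τ : ℍ) : (jinjPair c hc τ).ω₂ = c := rfl

theorem jinj_mem_pair_lattice {c : ℂ} {hc : c ≠ 0} {τ : ℍ} {x : ℂ} :
    x ∈ (jinjPair c hc τ).lattice ↔ ∃ m n : ℤ, c * (m * τ + n) = x := by
  rw [PeriodPair.mem_lattice]
  simp only [jinjPair_ω₁, jinjPair_ω₂]
  constructor
  · rintro ⟨m, n, h⟩
    exact ⟨m, n, by rw [← h]; ring⟩
  · rintro ⟨m, n, h⟩
    exact ⟨m, n, by rw [← h]; ring⟩

/-- The lattice sum `G_k` of `(c τ, c)` in terms of the Eisenstein series. -/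
theorem jinj_G_eq (c : ℂ) (hc : c ≠ 0) (τ : ℍ) {k : ℕ} (hk : 3 ≤ k) :
    (jinjPair c hc τ).G k = (c ^ k)⁻¹ * (2 * riemannZeta k * E hk τ) := by
  have hE : E hk τ = (1 / 2 : ℂ) * eisensteinSeries (N := 1) 0 k τ := by
    rw [show E hk τ = (1 / 2 : ℂ) • eisensteinSeriesSIF (N := 1) 0 k τ from rfl,
      eisensteinSeriesSIF_apply 0 k τ, smul_eq_mul]
  have hsum := tsum_eisSummand_eq_riemannZeta_mul_eisensteinSeries hk τ
  have h1 : 2 * riemannZeta k * E hk τ = ∑' v : Fin 2 → ℤ, eisSummand k v τ := by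
    rw [hsum, hE]; ring
  rw [h1, PeriodPair.G, ← tsum_mul_left]
  rw [← (jinjPair c hc τ).latticeEquivProd.symm.toEquiv.tsum_eq]
  rw [← (finTwoArrowEquiv ℤ).tsum_eq]
  refine tsum_congr fun v => ?_
  simp only [LinearEquiv.coe_toEquiv, PeriodPair.latticeEquiv_symm_apply, jinjPair_ω₁,
    jinjPair_ω₂, eisSummand]
  rw [zpow_neg, zpow_natCast, ← mul_inv, ← mul_pow]
  congr 2
  simp
  ring

end Fermat.Agent.S20
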