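import Mathlib
import Fermat.Agent.S20.JInjEis

/-!
# S20 (A2): the `j`-invariant is injective modulo `SL(2, ℤ)`

Main results:

* `jinj_of_scaling`: if `E₄ τ₂ = c⁴ E₄ τ₁` and `E₆ τ₂ = c⁶ E₆ τ₁` for some `c ≠ 0`, then
  `τ₂ ∈ SL(2, ℤ) • τ₁`;
* `jinj_main`: if `E₄(τ₁)³ Δ(τ₂) = E₄(τ₂)³ Δ(τ₁)` (i.e. `j τ₁ = j τ₂`), then
  `τ₂ ∈ SL(2, ℤ) • τ₁`.
-/

namespace Fermat.Agent.S20

open Complex UpperHalfPlane ModularForm EisensteinSeries
open scoped MatrixGroups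

/-- Uniqueness of coordinates with respect to `(τ, 1)`. -/
theorem jinj_coord_unique (τ : ℍ) (p q r s : ℤ) (h : (p : ℂ) * τ + q = r * τ + s) :
    p = r ∧ q = s := by
  have him := congrArg Complex.im h
  simp at him
  have hp : p = r := by
    rcases him with h | h
    · exact_mod_cast h
    · exact absurd h τ.im_ne_zero
  subst hp
  have hq : (q : ℂ) = s := add_left_cancel h
  exact ⟨rfl, by exact_mod_cast hq⟩

/-- Two points of `ℍ` whose lattices `ℤ τ₂ + ℤ` and `c⁻¹ (ℤ τ₁ + ℤ)` agree are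
`SL(2, ℤ)`-equivalent. -/
theorem jinj_of_lattice_eq (τ₁ τ₂ : ℍ) (c : ℂ) (hc : c ≠ 0)
    (h : (jinjPair c hc τ₁).lattice = (jinjPair 1 one_ne_zero τ₂).lattice) :
    ∃ γ : SL(2, ℤ), γ • τ₁ = τ₂ := by
  -- `τ₂` and `1` lie in the lattice of `τ₁`
  have m1 : (τ₂ : ℂ) ∈ (jinjPair c hc τ₁).lattice := by
    rw [h, jinj_mem_pair_lattice]; exact ⟨1, 0, by simp⟩
  have m2 : (1 : ℂ) ∈ (jinjPair c hc τ₁).lattice := by
    rw [h, jinj_mem_pair_lattice]; exact ⟨0, 1, by simp⟩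
  have m3 : c * (τ₁ : ℂ) ∈ (jinjPair 1 one_ne_zero τ₂).lattice := by
    rw [← h, jinj_mem_pair_lattice]; exact ⟨1, 0, by simp⟩
  have m4 : c ∈ (jinjPair 1 one_ne_zero τ₂).lattice := by
    rw [← h, jinj_mem_pair_lattice]; exact ⟨0, 1, by simp⟩
  obtain ⟨a, b, hab⟩ := jinj_mem_pair_lattice.mp m1
  obtain ⟨c', d, hcd⟩ := jinj_mem_pair_lattice.mp m2
  obtain ⟨a', b', hab'⟩ := jinj_mem_pair_lattice.mp m3
  obtain ⟨c'', d', hcd'⟩ := jinj_mem_pair_lattice.mp m4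
  rw [one_mul] at hab' hcd'
  -- the two integer matrices are inverse to each other
  have e1 : ((a * a' + b * c'' : ℤ) : ℂ) * τ₂ + ((a * b' + b * d' : ℤ) : ℂ)
      = ((1 : ℤ) : ℂ) * τ₂ + ((0 : ℤ) : ℂ) := by
    push_cast
    have : (τ₂ : ℂ) = a * (c * τ₁) + b * c := by rw [← hab]; ring
    rw [← hab', ← hcd'] at this
    linear_combination -this
  have e2 : ((c' * a' + d * c'' : ℤ) : ℂ) * τ₂ + ((c' * b' + d * d' : ℤ) : ℂ)
      = ((0 : ℤ) : ℂ) * τ₂ + ((1 : ℤ) : ℂ) := by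
    push_cast
    have : (1 : ℂ) = c' * (c * τ₁) + d * c := by rw [← hcd]; ring
    rw [← hab', ← hcd'] at this
    linear_combination -this
  obtain ⟨f1, f2⟩ := jinj_coord_unique τ₂ _ _ _ _ e1
  obtain ⟨f3, f4⟩ := jinj_coord_unique τ₂ _ _ _ _ e2
  have hdet : (a * d - b * c') * (a' * d' - b' * c'') = 1 := by
    have : (a * d - b * c') * (a' * d' - b' * c'') =
        (a * a' + b * c'') * (c' * b' + d * d') - (a * b' + b * d') * (c' * a' + d * c'') := by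
      ring
    rw [this, f1, f2, f3, f4]; ring
  -- the key relation `τ₂ (c' τ₁ + d) = a τ₁ + b`
  have key : (τ₂ : ℂ) * (c' * τ₁ + d) = a * τ₁ + b := by
    have hc1 : c * (↑c' * ↑τ₁ + ↑d) = 1 := hcd
    calc (τ₂ : ℂ) * (c' * τ₁ + d) = (c * (a * τ₁ + b)) * (c' * τ₁ + d) := by rw [hab]
      _ = (a * τ₁ + b) * (c * (c' * τ₁ + d)) := by ring
      _ = a * τ₁ + b := by rw [hc1, mul_one]
  have hden : (c' : ℂ) * τ₁ + d ≠ 0 := by
    intro h0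
    rw [h0, mul_zero] at hcd
    exact zero_ne_one hcd
  -- sign of the determinant
  have hre := congrArg Complex.re key
  have him := congrArg Complex.im key
  simp only [Complex.mul_re, Complex.mul_im, Complex.add_re, Complex.add_im, Complex.intCast_re,
    Complex.intCast_im, zero_mul, sub_zero, add_zero, UpperHalfPlane.coe_re,
    UpperHalfPlane.coe_im] at hre him
  have hy1 := τ₁.im_pos
  have hy2 := τ₂.im_pos
  have hrel : τ₂.im * (((c' : ℝ) * τ₁.re + d) ^ 2 + ((c' : ℝ) * τ₁.im) ^ 2)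
      = ((a * d - b * c' : ℤ) : ℝ) * τ₁.im := by
    push_cast
    linear_combination ((c' : ℝ) * τ₁.re + d) * him - ((c' : ℝ) * τ₁.im) * hre
  have hdet1 : a * d - b * c' = 1 := by
    rcases Int.eq_one_or_neg_one_of_mul_eq_one hdet with h1 | h1
    · exact h1
    · exfalso
      rw [h1] at hrel
      push_cast at hrel
      nlinarith [sq_nonneg ((c' : ℝ) * τ₁.re + d), sq_nonneg ((c' : ℝ) * τ₁.im),
        mul_nonneg hy2.le (add_nonneg (sq_nonneg ((c' : ℝ) * τ₁.re + d))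
          (sq_nonneg ((c' : ℝ) * τ₁.im)))]
  have hdetM : (!![a, b; c', d] : Matrix (Fin 2) (Fin 2) ℤ).det = 1 := by
    rw [Matrix.det_fin_two_of]; exact hdet1
  let γ : SL(2, ℤ) := ⟨!![a, b; c', d], hdetM⟩
  refine ⟨γ, ?_⟩
  apply UpperHalfPlane.ext
  rw [UpperHalfPlane.coe_specialLinearGroup_apply]
  have g00 : γ 0 0 = a := rfl
  have g01 : γ 0 1 = b := rfl
  have g10 : γ 1 0 = c' := rfl
  have g11 : γ 1 1 = d := rfl
  rw [g00, g01, g10, g11]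
  simp only [algebraMap_int_eq, eq_intCast, Complex.ofReal_intCast]
  rw [div_eq_iff hden]
  exact key.symm

/-- Points of `ℍ` with proportional `(E₄, E₆)` (weighted) are `SL(2, ℤ)`-equivalent. -/
theorem jinj_of_scaling (τ₁ τ₂ : ℍ) (c : ℂ) (hc : c ≠ 0) (h4 : E₄ τ₂ = c ^ 4 * E₄ τ₁)
    (h6 : E₆ τ₂ = c ^ 6 * E₆ τ₁) : ∃ γ : SL(2, ℤ), γ • τ₁ = τ₂ := by
  have hc' : c⁻¹ ≠ 0 := inv_ne_zero hc
  apply jinj_of_lattice_eq τ₁ τ₂ c⁻¹ hc'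
  apply jinj_lattice_eq
  · simp only [PeriodPair.g₂]
    rw [jinj_G_eq c⁻¹ hc' τ₁ (by norm_num : 3 ≤ 4), jinj_G_eq 1 one_ne_zero τ₂ (by norm_num : 3 ≤ 4)]
    change 60 * (((c⁻¹) ^ 4)⁻¹ * (2 * riemannZeta (4 : ℕ) * E₄ τ₁)) =
      60 * (((1 : ℂ) ^ 4)⁻¹ * (2 * riemannZeta (4 : ℕ) * E₄ τ₂))
    rw [h4, inv_pow, inv_inv]
    ring
  · simp only [PeriodPair.g₃]
    rw [jinj_G_eq c⁻¹ hc' τ₁ (by norm_num : 3 ≤ 6), jinj_G_eq 1 one_ne_zero τ₂ (by norm_num : 3 ≤ 6)]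
    change 140 * (((c⁻¹) ^ 6)⁻¹ * (2 * riemannZeta (6 : ℕ) * E₆ τ₁)) =
      140 * (((1 : ℂ) ^ 6)⁻¹ * (2 * riemannZeta (6 : ℕ) * E₆ τ₂))
    rw [h6, inv_pow, inv_inv]
    ring

/-- Pure algebra: from `a₁³ b₂² = a₂³ b₁²` with both discriminants `aᵢ³ - bᵢ²` nonzero, get a
weighted scaling. -/
theorem jinj_exists_scaling (a₁ b₁ a₂ b₂ : ℂ) (hD₁ : a₁ ^ 3 - b₁ ^ 2 ≠ 0)
    (hD₂ : a₂ ^ 3 - b₂ ^ 2 ≠ 0) (h : a₁ ^ 3 * b₂ ^ 2 = a₂ ^ 3 * b₁ ^ 2) :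
    ∃ c : ℂ, c ≠ 0 ∧ a₂ = c ^ 4 * a₁ ∧ b₂ = c ^ 6 * b₁ := by
  by_cases ha₁ : a₁ = 0
  · -- then `b₁ ≠ 0`, `a₂ = 0`, `b₂ ≠ 0`
    subst ha₁
    have hb₁ : b₁ ≠ 0 := by
      rintro rfl; simp at hD₁
    have ha₂ : a₂ = 0 := by
      have : a₂ ^ 3 * b₁ ^ 2 = 0 := by rw [← h]; ring
      rcases mul_eq_zero.mp this with h | h
      · exact pow_eq_zero_iff (by norm_num) |>.mp h
      · exact absurd (pow_eq_zero_iff (by norm_num) |>.mp h) hb₁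
    subst ha₂
    have hb₂ : b₂ ≠ 0 := by
      rintro rfl; simp at hD₂
    obtain ⟨c, hc⟩ := IsAlgClosed.exists_pow_nat_eq (b₂ / b₁) (n := 6) (by norm_num)
    refine ⟨c, ?_, by simp, ?_⟩
    · rintro rfl
      rw [zero_pow (by norm_num)] at hc
      exact (div_ne_zero hb₂ hb₁) hc.symm
    · rw [hc]; field_simp
  by_cases hb₁ : b₁ = 0
  · subst hb₁
    have hb₂ : b₂ = 0 := by
      have : a₁ ^ 3 * b₂ ^ 2 = 0 := by rw [h]; ring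
      rcases mul_eq_zero.mp this with h | h
      · exact absurd (pow_eq_zero_iff (by norm_num) |>.mp h) ha₁
      · exact pow_eq_zero_iff (by norm_num) |>.mp h
    subst hb₂
    have ha₂ : a₂ ≠ 0 := by
      rintro rfl; simp at hD₂
    obtain ⟨c, hc⟩ := IsAlgClosed.exists_pow_nat_eq (a₂ / a₁) (n := 4) (by norm_num)
    refine ⟨c, ?_, ?_, by simp⟩
    · rintro rfl
      rw [zero_pow (by norm_num)] at hc
      exact (div_ne_zero ha₂ ha₁) hc.symm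
    · rw [hc]; field_simp
  -- generic case
  have ha₂ : a₂ ≠ 0 := by
    rintro rfl
    have : a₁ ^ 3 * b₂ ^ 2 = 0 := by rw [h]; ring
    rcases mul_eq_zero.mp this with h' | h'
    · exact ha₁ (pow_eq_zero_iff (by norm_num) |>.mp h')
    · have hb₂ : b₂ = 0 := pow_eq_zero_iff (by norm_num) |>.mp h'
      subst hb₂
      simp at hD₂
  have hb₂ : b₂ ≠ 0 := by
    rintro rfl
    have : a₂ ^ 3 * b₁ ^ 2 = 0 := by rw [← h]; ring
    rcases mul_eq_zero.mp this with h' | h'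
    · exact ha₂ (pow_eq_zero_iff (by norm_num) |>.mp h')
    · exact hb₁ (pow_eq_zero_iff (by norm_num) |>.mp h')
  -- `μ = (b₂/b₁)/(a₂/a₁)`, `c² = μ`
  obtain ⟨c, hc⟩ := IsAlgClosed.exists_pow_nat_eq ((b₂ / b₁) / (a₂ / a₁)) (n := 2) (by norm_num)
  have hμ : (b₂ / b₁) / (a₂ / a₁) ≠ 0 := by
    apply div_ne_zero (div_ne_zero hb₂ hb₁) (div_ne_zero ha₂ ha₁)
  refine ⟨c, ?_, ?_, ?_⟩
  · rintro rfl
    rw [zero_pow (by norm_num)] at hc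
    exact hμ hc.symm
  · have : c ^ 4 = (c ^ 2) ^ 2 := by ring
    rw [this, hc]
    field_simp
    linear_combination -h
  · have : c ^ 6 = (c ^ 2) ^ 3 := by ring
    rw [this, hc]
    field_simp
    linear_combination -h
  
/-- **The `j`-invariant is injective modulo `SL(2, ℤ)`**, in division-free form. -/
theorem jinj_main (τ₁ τ₂ : UpperHalfPlane)
    (h : E₄ τ₁ ^ 3 * ModularForm.discriminant τ₂ = E₄ τ₂ ^ 3 * ModularForm.discriminant τ₁) :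
    ∃ γ : SL(2, ℤ), γ • τ₁ = τ₂ := by
  have hΔ₁ := ModularForm.discriminant_ne_zero τ₁
  have hΔ₂ := ModularForm.discriminant_ne_zero τ₂
  rw [ModularForm.discriminant_eq_E₄_cube_sub_E₆_sq] at hΔ₁ hΔ₂ h
  rw [ModularForm.discriminant_eq_E₄_cube_sub_E₆_sq] at h
  have hD₁ : E₄ τ₁ ^ 3 - E₆ τ₁ ^ 2 ≠ 0 := fun h0 => hΔ₁ (by rw [h0, zero_div])
  have hD₂ : E₄ τ₂ ^ 3 - E₆ τ₂ ^ 2 ≠ 0 := fun h0 => hΔ₂ (by rw [h0, zero_div])
  have h' : E₄ τ₁ ^ 3 * E₆ τ₂ ^ 2 = E₄ τ₂ ^ 3 * E₆ τ₁ ^ 2 := by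
    linear_combination (-1728 : ℂ) * h
  obtain ⟨c, hc, h4, h6⟩ := jinj_exists_scaling _ _ _ _ hD₁ hD₂ h'
  exact jinj_of_scaling τ₁ τ₂ c hc h4 h6

/-- Variant of `jinj_main` with the scaling as an existential hypothesis. -/
theorem jinj_main' (τ₁ τ₂ : UpperHalfPlane)
    (h : ∃ c : ℂ, c ≠ 0 ∧ E₄ τ₂ = c ^ 4 * E₄ τ₁ ∧ E₆ τ₂ = c ^ 6 * E₆ τ₁) :
    ∃ γ : SL(2, ℤ), γ • τ₁ = τ₂ := by
  obtain ⟨c, hc, h4, h6⟩ := h
  exact jinj_of_scaling τ₁ τ₂ c hc h4 h6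

end Fermat.Agent.S20
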