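import Fermat.Agent.S20.Basic
import Fermat.Agent.S20.JInj

/-!
# S20 / part (C4), auxiliary file  (OWNER: helper3)

* `rgeLift N f`: the form `τ ↦ N^{k-1} f(Nτ)` of level `N` attached to a level-one form `f`
  (`ModularForm.translate` by `diag(N, 1)`, restricted to `Γ₀(N)`), and the formula
  `rge_tr_lift` for its translates: `(rgeLift f)_γ (z) = f(β_γ z) N^{k-1} denom(β_γ, z)^{-k}`,
  `β_γ = diag(N,1) γ⁻¹`;
* `rge_not_quadratic`: `z₀ = √2 + i` is not a root of a nonzero integral quadratic polynomial;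
* `rge_coset_eq`: if `δ β_γ z₀ = β_γ' z₀` with `δ ∈ SL₂(ℤ)` then `γ Γ₀(N) = γ' Γ₀(N)`;
* `rge_separates`: `q ↦ j(β_q z₀)` is injective on the coset space;
* `rge_vandermonde`: Vandermonde-type independence.
-/

set_option autoImplicit false

namespace Fermat.Agent.S20

open UpperHalfPlane ModularForm CongruenceSubgroup Matrix.SpecialLinearGroup
open scoped MatrixGroups ModularForm Pointwise

/-- The matrix `diag(N, 1)`. -/
noncomputable def rgeAlpha (N : ℕ) [NeZero N] : GL (Fin 2) ℝ :=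
  Matrix.GeneralLinearGroup.mkOfDetNeZero !![(N : ℝ), 0; 0, 1] (by
    rw [Matrix.det_fin_two_of]
    simpa using (NeZero.ne N))

lemma rgeAlpha_coe (N : ℕ) [NeZero N] :
    (rgeAlpha N : Matrix (Fin 2) (Fin 2) ℝ) = !![(N : ℝ), 0; 0, 1] := rfl

lemma rgeAlpha_det (N : ℕ) [NeZero N] : (rgeAlpha N).det.val = N := by
  rw [Matrix.GeneralLinearGroup.val_det_apply, rgeAlpha_coe, Matrix.det_fin_two_of]
  ring

lemma rgeAlpha_det_pos (N : ℕ) [NeZero N] : 0 < (rgeAlpha N).det.val := by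
  rw [rgeAlpha_det]
  exact_mod_cast Nat.pos_of_ne_zero (NeZero.ne N)

/-- `α γ α⁻¹ ∈ SL₂(ℤ)` for `γ ∈ Γ₀(N)`. -/
lemma rge_conj_mem (N : ℕ) [NeZero N] (γ : SL(2, ℤ)) (hγ : γ ∈ Gamma0 N) :
    rgeAlpha N * mapGL ℝ γ * (rgeAlpha N)⁻¹ ∈ 𝒮ℒ := by
  rw [Gamma0_mem, ZMod.intCast_zmod_eq_zero_iff_dvd] at hγ
  obtain ⟨c', hc'⟩ := hγ
  have hdet : γ 0 0 * γ 1 1 - γ 0 1 * γ 1 0 = 1 := by
    have := γ.det_coe
    rw [Matrix.det_fin_two] at this
    exact this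
  obtain ⟨γ', h00, h01, h10, h11⟩ : ∃ γ' : SL(2, ℤ), γ' 0 0 = γ 0 0 ∧ γ' 0 1 = N * γ 0 1 ∧
      γ' 1 0 = c' ∧ γ' 1 1 = γ 1 1 := by
    refine ⟨⟨!![γ 0 0, N * γ 0 1; c', γ 1 1], ?_⟩, rfl, rfl, rfl, rfl⟩
    rw [Matrix.det_fin_two_of]
    rw [hc'] at hdet
    linear_combination hdet
  refine ⟨γ', ?_⟩
  rw [eq_mul_inv_iff_mul_eq]
  ext i j
  fin_cases i <;> fin_cases j <;>
    simp [rgeAlpha_coe, Matrix.mul_apply, Fin.sum_univ_two, hc', mul_comm, h00, h01, h10, h11]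

lemma rge_le (N : ℕ) [NeZero N] :
    G0 N ≤ ConjAct.toConjAct (rgeAlpha N)⁻¹ • 𝒮ℒ := by
  rintro _ ⟨γ, hγ, rfl⟩
  rw [Subgroup.mem_pointwise_smul_iff_inv_smul_mem, ← ConjAct.toConjAct_inv, inv_inv,
    ConjAct.toConjAct_smul]
  exact rge_conj_mem N γ hγ

/-- `f(N τ)` (up to a constant) as a form of level `N`. -/
noncomputable def rgeLift (N : ℕ) [NeZero N] {k : ℤ} {F : Type*} [FunLike F ℍ ℂ]
    [ModularFormClass F 𝒮ℒ k] (f : F) : ModularForm (G0 N) k where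
  toFun := (f : ℍ → ℂ) ∣[k] rgeAlpha N
  slash_action_eq' γ hγ := (ModularForm.translate f (rgeAlpha N)).slash_action_eq' γ (rge_le N hγ)
  holo' := (ModularForm.translate f (rgeAlpha N)).holo'
  bdd_at_cusps' hc := (ModularForm.translate f (rgeAlpha N)).bdd_at_cusps' (hc.mono (rge_le N))

lemma rgeLift_coe (N : ℕ) [NeZero N] {k : ℤ} {F : Type*} [FunLike F ℍ ℂ]
    [ModularFormClass F 𝒮ℒ k] (f : F) :
    (rgeLift N f : ℍ → ℂ) = (f : ℍ → ℂ) ∣[k] rgeAlpha N := rfl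

/-- The matrix `β_γ = diag(N,1) γ⁻¹`. -/
noncomputable def rgeBeta (N : ℕ) [NeZero N] (γ : SL(2, ℤ)) : GL (Fin 2) ℝ :=
  rgeAlpha N * mapGL ℝ γ⁻¹

lemma rgeBeta_det (N : ℕ) [NeZero N] (γ : SL(2, ℤ)) : (rgeBeta N γ).det.val = N := by
  rw [rgeBeta, map_mul, Units.val_mul, rgeAlpha_det]
  simp

lemma rgeBeta_det_pos (N : ℕ) [NeZero N] (γ : SL(2, ℤ)) : 0 < (rgeBeta N γ).det.val := by
  rw [rgeBeta_det]
  exact_mod_cast Nat.pos_of_ne_zero (NeZero.ne N)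

/-- The translates of `rgeLift f`. -/
lemma rge_tr_lift (N : ℕ) [NeZero N] {k : ℤ} {F : Type*} [FunLike F ℍ ℂ]
    [ModularFormClass F 𝒮ℒ k] (f : F) (γ : SL(2, ℤ)) (z : ℍ) :
    tr (rgeLift N f) (γ : Q N) z
      = f (rgeBeta N γ • z) * (N : ℂ) ^ (k - 1) * denom (rgeBeta N γ) z ^ (-k) := by
  have h0 : ((f : ℍ → ℂ) ∣[k] rgeAlpha N) ∣[k] (γ⁻¹ : SL(2, ℤ)) = (f : ℍ → ℂ) ∣[k] rgeBeta N γ := by
    rw [ModularForm.SL_slash, ← SlashAction.slash_mul]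
    rfl
  rw [tr_mk, rgeLift_coe, h0, ModularForm.slash_apply]
  have h1 : σ (rgeBeta N γ) = ContinuousAlgEquiv.refl ℝ ℂ := by
    rw [σ, if_pos (rgeBeta_det_pos N γ)]
  have h2 : ((|(rgeBeta N γ).det.val| : ℝ) : ℂ) = (N : ℂ) := by
    rw [abs_of_pos (rgeBeta_det_pos N γ), rgeBeta_det N γ]
    simp
  rw [h1, h2]
  rfl


/-- The point `z₀ = √2 + i`, which is fixed by no non-scalar rational matrix. -/
noncomputable def rgeZ0 : ℍ := ⟨⟨Real.sqrt 2, 1⟩, by simp⟩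

lemma rgeZ0_coe : (rgeZ0 : ℂ) = ⟨Real.sqrt 2, 1⟩ := rfl

/-- `z₀` is not a quadratic irrationality. -/
lemma rge_not_quadratic (P Q R : ℤ)
    (h : (P : ℂ) * (rgeZ0 : ℂ) ^ 2 + Q * (rgeZ0 : ℂ) + R = 0) : P = 0 ∧ Q = 0 ∧ R = 0 := by
  have hs : Real.sqrt 2 * Real.sqrt 2 = 2 := Real.mul_self_sqrt (by norm_num)
  have hre := congrArg Complex.re h
  have him := congrArg Complex.im h
  simp [rgeZ0_coe, pow_two] at hre him
  -- him : P * (√2 + √2) + Q = 0 ; hre : P * (√2 * √2 - 1) + Q * √2 + R = 0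
  have hirr := irrational_sqrt_two
  have hP : P = 0 := by
    by_contra hP
    apply hirr
    refine ⟨-Q / (2 * P), ?_⟩
    have hP' : (P : ℝ) ≠ 0 := by exact_mod_cast hP
    push_cast
    field_simp
    linarith
  subst hP
  have hQ : Q = 0 := by
    have : (Q : ℝ) = 0 := by simpa using him
    exact_mod_cast this
  subst hQ
  have hR : R = 0 := by
    have : (R : ℝ) = 0 := by simpa using hre
    exact_mod_cast this
  exact ⟨rfl, rfl, hR⟩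

/-- The integer algebra behind the separation of cosets. -/
lemma rge_int_key (N a b c d a' b' c' d' p q r s : ℤ) (hN : N ≠ 0)
    (h1 : a * d - b * c = 1) (h2 : a' * d' - b' * c' = 1) (h3 : p * s - q * r = 1)
    (hP : -(p * N * d - q * c) * c' - N * d' * (r * N * d - s * c) = 0)
    (hQ : (p * N * d - q * c) * a' - (-(p * N * b) + q * a) * c'
      - N * d' * (-(r * N * b) + s * a) + N * b' * (r * N * d - s * c) = 0)
    (hR : (-(p * N * b) + q * a) * a' + N * b' * (-(r * N * b) + s * a) = 0) :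
    N ∣ a * c' - a' * c := by
  set X₁ := p * N * d - q * c with hX₁
  set X₀ := -(p * N * b) + q * a with hX₀
  set Y₁ := r * N * d - s * c with hY₁
  set Y₀ := -(r * N * b) + s * a with hY₀
  set lam := a' * X₁ + N * b' * Y₁ with hlam
  have hdetA : X₁ * Y₀ - X₀ * Y₁ = N := by
    rw [hX₁, hX₀, hY₁, hY₀]
    linear_combination N * (a * d - b * c) * h3 + N * h1
  have e1 : N * Y₁ = -c' * lam := by
    rw [hlam]; linear_combination (-a') * hP - N * Y₁ * h2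
  have e0 : N * Y₀ = a' * lam := by
    rw [hlam]; linear_combination (-a') * hQ - c' * hR - N * Y₀ * h2
  have f1 : X₁ = d' * lam := by
    have : N * X₁ = N * (d' * lam) := by
      rw [hlam]; linear_combination (N * b') * hP - N * X₁ * h2
    exact mul_left_cancel₀ hN this
  have f0 : X₀ = -b' * lam := by
    have : N * X₀ = N * (-b' * lam) := by
      rw [hlam]; linear_combination (N * b') * hQ + N * d' * hR - N * X₀ * h2
    exact mul_left_cancel₀ hN this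
  have hsq : lam ^ 2 = N ^ 2 := by
    linear_combination (-lam ^ 2) * h2 - a' * lam * f1 - X₁ * e0 - c' * lam * f0 + X₀ * e1
      + N * hdetA
  rcases sq_eq_sq_iff_eq_or_eq_neg.mp hsq with hl | hl
  · rw [hl] at e1 e0
    have g1 : Y₁ = -c' := mul_left_cancel₀ hN (by linear_combination e1)
    have g0 : Y₀ = a' := mul_left_cancel₀ hN (by linear_combination e0)
    refine ⟨-r, ?_⟩
    rw [hY₁] at g1
    rw [hY₀] at g0
    linear_combination a * g1 + c * g0 - N * r * h1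
  · rw [hl] at e1 e0
    have g1 : Y₁ = c' := mul_left_cancel₀ hN (by linear_combination e1)
    have g0 : Y₀ = -a' := mul_left_cancel₀ hN (by linear_combination e0)
    refine ⟨r, ?_⟩
    rw [hY₁] at g1
    rw [hY₀] at g0
    linear_combination (-a) * g1 - c * g0 + N * r * h1


lemma rgeBeta_coe (N : ℕ) [NeZero N] (γ : SL(2, ℤ)) :
    (rgeBeta N γ : Matrix (Fin 2) (Fin 2) ℝ)
      = !![(N : ℝ) * γ 1 1, -((N : ℝ) * γ 0 1); -(γ 1 0 : ℝ), γ 0 0] := by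
  obtain ⟨g, hg, h00, h01, h10, h11⟩ : ∃ g : SL(2, ℤ), g = γ⁻¹ ∧ g 0 0 = γ 1 1 ∧
      g 0 1 = -γ 0 1 ∧ g 1 0 = -γ 1 0 ∧ g 1 1 = γ 0 0 := by
    refine ⟨γ⁻¹, rfl, ?_, ?_, ?_, ?_⟩ <;>
      simp [Matrix.SpecialLinearGroup.coe_inv, Matrix.adjugate_fin_two]
  rw [rgeBeta, ← hg]
  ext i j
  fin_cases i <;> fin_cases j <;>
    simp [rgeAlpha_coe, Matrix.mul_apply, Fin.sum_univ_two, h00, h01, h10, h11]

lemma rgeBeta_smul_coe (N : ℕ) [NeZero N] (γ : SL(2, ℤ)) (z : ℍ) :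
    ((rgeBeta N γ • z : ℍ) : ℂ)
      = (N : ℂ) * ((γ 1 1 : ℂ) * z - γ 0 1) / (-(γ 1 0 : ℂ) * z + γ 0 0) := by
  rw [coe_smul_of_det_pos (rgeBeta_det_pos N γ), num, denom]
  have h := rgeBeta_coe N γ
  have e00 : (rgeBeta N γ) 0 0 = (N : ℝ) * γ 1 1 := by
    show (rgeBeta N γ : Matrix (Fin 2) (Fin 2) ℝ) 0 0 = _; rw [h]; rfl
  have e01 : (rgeBeta N γ) 0 1 = -((N : ℝ) * γ 0 1) := by
    show (rgeBeta N γ : Matrix (Fin 2) (Fin 2) ℝ) 0 1 = _; rw [h]; rfl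
  have e10 : (rgeBeta N γ) 1 0 = -(γ 1 0 : ℝ) := by
    show (rgeBeta N γ : Matrix (Fin 2) (Fin 2) ℝ) 1 0 = _; rw [h]; rfl
  have e11 : (rgeBeta N γ) 1 1 = (γ 0 0 : ℝ) := by
    show (rgeBeta N γ : Matrix (Fin 2) (Fin 2) ℝ) 1 1 = _; rw [h]; rfl
  rw [e00, e01, e10, e11]
  push_cast
  ring

lemma rgeBeta_denom (N : ℕ) [NeZero N] (γ : SL(2, ℤ)) (z : ℍ) :
    denom (rgeBeta N γ) z = -(γ 1 0 : ℂ) * z + γ 0 0 := by
  rw [denom]
  have h := rgeBeta_coe N γ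
  have e10 : (rgeBeta N γ) 1 0 = -(γ 1 0 : ℝ) := by
    show (rgeBeta N γ : Matrix (Fin 2) (Fin 2) ℝ) 1 0 = _; rw [h]; rfl
  have e11 : (rgeBeta N γ) 1 1 = (γ 0 0 : ℝ) := by
    show (rgeBeta N γ : Matrix (Fin 2) (Fin 2) ℝ) 1 1 = _; rw [h]; rfl
  rw [e10, e11]
  push_cast
  ring

/-- Distinct cosets give `SL₂(ℤ)`-inequivalent points `β_γ z₀`. -/
lemma rge_coset_eq (N : ℕ) [NeZero N] (γ γ' δ : SL(2, ℤ))
    (h : δ • (rgeBeta N γ • rgeZ0) = rgeBeta N γ' • rgeZ0) : (γ : Q N) = γ' := by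
  have hc := congrArg (fun w : ℍ => (w : ℂ)) h
  beta_reduce at hc
  rw [UpperHalfPlane.coe_specialLinearGroup_apply, rgeBeta_smul_coe N γ' rgeZ0] at hc
  set w : ℂ := ((rgeBeta N γ • rgeZ0 : ℍ) : ℂ) with hw
  have hw' : w = (N : ℂ) * ((γ 1 1 : ℂ) * rgeZ0 - γ 0 1) / (-(γ 1 0 : ℂ) * rgeZ0 + γ 0 0) :=
    rgeBeta_smul_coe N γ rgeZ0
  have hm : (-(γ 1 0 : ℂ) * rgeZ0 + γ 0 0) ≠ 0 := by
    rw [← rgeBeta_denom N γ rgeZ0]; exact denom_ne_zero _ _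
  have hm' : (-(γ' 1 0 : ℂ) * rgeZ0 + γ' 0 0) ≠ 0 := by
    rw [← rgeBeta_denom N γ' rgeZ0]; exact denom_ne_zero _ _
  have hD : ((δ 1 0 : ℂ) * w + δ 1 1) ≠ 0 := by
    have := denom_ne_zero (δ : GL (Fin 2) ℝ) (rgeBeta N γ • rgeZ0)
    rw [denom] at this
    simpa using this
  simp only [algebraMap_int_eq, eq_intCast, Complex.ofReal_intCast] at hc
  rw [div_eq_div_iff hD hm'] at hc
  have E2 : w * (-(γ 1 0 : ℂ) * rgeZ0 + γ 0 0) = (N : ℂ) * ((γ 1 1 : ℂ) * rgeZ0 - γ 0 1) := by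
    rw [hw', div_mul_cancel₀ _ hm]
  rw [coset_eq_iff]
  have hdet : ∀ g : SL(2, ℤ), g 0 0 * g 1 1 - g 0 1 * g 1 0 = 1 := fun g => by
    have := g.det_coe
    rw [Matrix.det_fin_two] at this
    exact this
  have hN : (N : ℤ) ≠ 0 := by exact_mod_cast NeZero.ne N
  have key := rge_not_quadratic
    (-(δ 0 0 * N * γ 1 1 - δ 0 1 * γ 1 0) * γ' 1 0 - N * γ' 1 1 * (δ 1 0 * N * γ 1 1 - δ 1 1 * γ 1 0))
    ((δ 0 0 * N * γ 1 1 - δ 0 1 * γ 1 0) * γ' 0 0 - (-(δ 0 0 * N * γ 0 1) + δ 0 1 * γ 0 0) * γ' 1 0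
      - N * γ' 1 1 * (-(δ 1 0 * N * γ 0 1) + δ 1 1 * γ 0 0)
      + N * γ' 0 1 * (δ 1 0 * N * γ 1 1 - δ 1 1 * γ 1 0))
    ((-(δ 0 0 * N * γ 0 1) + δ 0 1 * γ 0 0) * γ' 0 0
      + N * γ' 0 1 * (-(δ 1 0 * N * γ 0 1) + δ 1 1 * γ 0 0))
    (by
      push_cast
      linear_combination (-(γ 1 0 : ℂ) * rgeZ0 + γ 0 0) * hc
        - ((δ 0 0 : ℂ) * (-(γ' 1 0 : ℂ) * rgeZ0 + γ' 0 0)
            - (N : ℂ) * ((γ' 1 1 : ℂ) * rgeZ0 - γ' 0 1) * δ 1 0) * E2)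
  obtain ⟨hP, hQ, hR⟩ := key
  exact rge_int_key N (γ 0 0) (γ 0 1) (γ 1 0) (γ 1 1) (γ' 0 0) (γ' 0 1) (γ' 1 0) (γ' 1 1)
    (δ 0 0) (δ 0 1) (δ 1 0) (δ 1 1) hN (by linear_combination hdet γ)
    (by linear_combination hdet γ') (by linear_combination hdet δ) hP hQ hR


/-- Vandermonde-type independence: if `t` is injective on a finite type `Q` and `e : Q ≃ Fin μ`,
then a vector `v` with `∑ a, v a * t q ^ (e a) = 0` for all `q` vanishes. -/
lemma rge_vandermonde {Q : Type} [Fintype Q] {μ : ℕ} (e : Q ≃ Fin μ) (t : Q → ℂ)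
    (ht : Function.Injective t) (v : Q → ℂ)
    (h : ∀ q : Q, ∑ a : Q, v a * t q ^ (e a : ℕ) = 0) : v = 0 := by
  classical
  set P : Polynomial ℂ := ∑ a : Q, Polynomial.C (v a) * Polynomial.X ^ (e a : ℕ) with hP
  have hcard : Fintype.card Q = μ := by simpa using Fintype.card_congr e
  funext a
  have hpos : 0 < μ := lt_of_le_of_lt (Nat.zero_le _) (e a).isLt
  have hdeg : P.natDegree < Fintype.card Q := by
    rw [hcard]
    refine lt_of_le_of_lt (Polynomial.natDegree_sum_le_of_forall_le (n := μ - 1) _ _ fun b _ => ?_)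
      (Nat.sub_lt hpos one_pos)
    refine (Polynomial.natDegree_C_mul_X_pow_le (v b) (e b : ℕ)).trans ?_
    have := (e b).isLt
    omega
  have heval : ∀ q, P.eval (t q) = 0 := by
    intro q
    rw [hP, Polynomial.eval_finsetSum]
    simpa using h q
  have hzero := Polynomial.eq_zero_of_natDegree_lt_card_of_eval_eq_zero P ht heval hdeg
  have hc : P.coeff (e a : ℕ) = v a := by
    rw [hP, Polynomial.finsetSum_coeff]
    simp only [Polynomial.coeff_C_mul, Polynomial.coeff_X_pow]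
    rw [Finset.sum_eq_single a]
    · simp
    · intro b _ hb
      have : (e a : ℕ) ≠ (e b : ℕ) := fun hh => hb (e.injective (Fin.ext hh)).symm
      simp [this]
    · simp
  rw [← hc, hzero]
  simp


/-- `E₄(Nτ)` as a form of level `N`. -/
noncomputable def rgeE (N : ℕ) [NeZero N] : ModularForm (G0 N) 4 := rgeLift N E₄

/-- `Δ(Nτ)` as a form of level `N`. -/
noncomputable def rgeD (N : ℕ) [NeZero N] : ModularForm (G0 N) 12 :=
  rgeLift N CuspForm.discriminant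

/-- The forms `E₄(Nτ)^{3i} Δ(Nτ)^{m - i}`. -/
noncomputable def rgeF (N : ℕ) [NeZero N] (m i : ℕ) (hi : i ≤ m) :
    ModularForm (G0 N) ((12 * m : ℕ) : ℤ) :=
  ModularForm.mcast (by push_cast; omega)
    (((rgeE N).pow (3 * i)).mul ((rgeD N).pow (m - i)))

lemma rgeF_apply (N : ℕ) [NeZero N] (m i : ℕ) (hi : i ≤ m) (z : ℍ) :
    rgeF N m i hi z = rgeE N z ^ (3 * i) * rgeD N z ^ (m - i) := by
  have h1 : ⇑((rgeE N).pow (3 * i)) = ⇑(rgeE N) ^ (3 * i) := ModularForm.coe_pow _ _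
  have h2 : ⇑((rgeD N).pow (m - i)) = ⇑(rgeD N) ^ (m - i) := ModularForm.coe_pow _ _
  show (⇑((rgeE N).pow (3 * i)) * ⇑((rgeD N).pow (m - i))) z = _
  rw [h1, h2]
  rfl

lemma rge_tr_F (N : ℕ) [NeZero N] (m i : ℕ) (hi : i ≤ m) (q : Q N) (z : ℍ) :
    tr (rgeF N m i hi) q z = (tr (rgeE N) q z ^ 3) ^ i * tr (rgeD N) q z ^ (m - i) := by
  induction q using QuotientGroup.induction_on with
  | H γ =>
    simp only [tr_mk, ModularForm.SL_slash_apply, rgeF_apply]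
    have hd := denom_ne_zero (γ⁻¹ : SL(2, ℤ)) z
    set d := denom (γ⁻¹ : SL(2, ℤ)) z with hd'
    have e : d ^ (-((12 * m : ℕ) : ℤ)) = ((d ^ (-4 : ℤ)) ^ 3) ^ i * (d ^ (-12 : ℤ)) ^ (m - i) := by
      rw [← zpow_natCast (d ^ (-4 : ℤ)) 3, ← zpow_mul, ← zpow_natCast _ i, ← zpow_mul,
        ← zpow_natCast _ (m - i), ← zpow_mul, ← zpow_add₀ hd]
      congr 1
      push_cast
      omega
    rw [e]
    ring


lemma rge_tr_E (N : ℕ) [NeZero N] (γ : SL(2, ℤ)) (z : ℍ) :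
    tr (rgeE N) (γ : Q N) z
      = E₄ (rgeBeta N γ • z) * (N : ℂ) ^ (3 : ℤ) * denom (rgeBeta N γ) z ^ (-4 : ℤ) := by
  rw [rgeE, rge_tr_lift]
  norm_num

lemma rge_tr_D (N : ℕ) [NeZero N] (γ : SL(2, ℤ)) (z : ℍ) :
    tr (rgeD N) (γ : Q N) z
      = ModularForm.discriminant (rgeBeta N γ • z) * (N : ℂ) ^ (11 : ℤ)
        * denom (rgeBeta N γ) z ^ (-12 : ℤ) := by
  rw [rgeD, rge_tr_lift]
  norm_num

lemma rge_tr_D_ne_zero (N : ℕ) [NeZero N] (q : Q N) (z : ℍ) : tr (rgeD N) q z ≠ 0 := by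
  induction q using QuotientGroup.induction_on with
  | H γ =>
    rw [rge_tr_D]
    have hN : (N : ℂ) ≠ 0 := by exact_mod_cast NeZero.ne N
    exact mul_ne_zero (mul_ne_zero (ModularForm.discriminant_ne_zero _) (zpow_ne_zero _ hN))
      (zpow_ne_zero _ (denom_ne_zero _ _))

/-- The function `q ↦ j(β_q z₀)` (up to the constant `N⁻²`) separates the cosets. -/
lemma rge_separates (N : ℕ) [NeZero N] (q q' : Q N)
    (h : tr (rgeE N) q rgeZ0 ^ 3 * tr (rgeD N) q' rgeZ0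
      = tr (rgeE N) q' rgeZ0 ^ 3 * tr (rgeD N) q rgeZ0) : q = q' := by
  induction q using QuotientGroup.induction_on with
  | H γ =>
  induction q' using QuotientGroup.induction_on with
  | H γ' =>
    rw [rge_tr_E, rge_tr_E, rge_tr_D, rge_tr_D] at h
    have hN : (N : ℂ) ≠ 0 := by exact_mod_cast NeZero.ne N
    have hd := denom_ne_zero (rgeBeta N γ) rgeZ0
    have hd' := denom_ne_zero (rgeBeta N γ') rgeZ0
    set d := denom (rgeBeta N γ) rgeZ0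
    set d' := denom (rgeBeta N γ') rgeZ0
    have e12 : d ^ (-12 : ℤ) = (d ^ (-4 : ℤ)) ^ 3 := by
      rw [← zpow_natCast, ← zpow_mul]; norm_num
    have e12' : d' ^ (-12 : ℤ) = (d' ^ (-4 : ℤ)) ^ 3 := by
      rw [← zpow_natCast, ← zpow_mul]; norm_num
    rw [e12, e12'] at h
    have hA : d ^ (-4 : ℤ) ≠ 0 := zpow_ne_zero _ hd
    have hA' : d' ^ (-4 : ℤ) ≠ 0 := zpow_ne_zero _ hd'
    have hu : (N : ℂ) ^ (3 : ℤ) ≠ 0 := zpow_ne_zero _ hN
    have hu' : (N : ℂ) ^ (11 : ℤ) ≠ 0 := zpow_ne_zero _ hN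
    have hc : ((N : ℂ) ^ (3 : ℤ)) ^ 3 * (N : ℂ) ^ (11 : ℤ) * (d ^ (-4 : ℤ)) ^ 3
        * (d' ^ (-4 : ℤ)) ^ 3 ≠ 0 := by positivity
    have key : E₄ (rgeBeta N γ • rgeZ0) ^ 3 * ModularForm.discriminant (rgeBeta N γ' • rgeZ0)
        = E₄ (rgeBeta N γ' • rgeZ0) ^ 3 * ModularForm.discriminant (rgeBeta N γ • rgeZ0) := by
      apply mul_right_cancel₀ hc
      linear_combination h
    obtain ⟨δ, hδ⟩ := jinj_main _ _ key
    exact rge_coset_eq N γ γ' δ hδ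

end Fermat.Agent.S20
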