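import Fermat.Agent.S20.Basic
import Fermat.Agent.S20.LevelOne
import Fermat.Agent.S20.JInj
import Fermat.Agent.S20.RankGeAux

/-!
# S20 / part (C4): a generating family has at least `μ` elements  (OWNER: helper3; all proofs complete)

The forms `E₄(Nτ)`, `Δ(Nτ)` are modular for `Γ₀(N)` (`ModularForm.translate` by `diag(N,1)`, then
restrict).  Their translates at the coset `γΓ₀(N)` are, up to nonzero automorphy factors, `E₄`
and `Δ` at `β_γ z`, `β_γ = diag(N,1) γ⁻¹`; so `t_q := (E₄N)_q³/(ΔN)_q = j(β_q z)`.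
At `z₀ = √2 + i` (fixed by no non-scalar rational matrix) the values `t_q(z₀)` are pairwise
distinct by `jinj_main`: `β_q z₀ = δ β_q' z₀` forces `β_q = ± δ β_q'`, i.e. `q = q'`.
Hence the Vandermonde matrix `(t_q(z₀)^a)` is invertible, so the `μ` forms
`f_a = E₄N^{3a} ΔN^{μ-1-a}` have an invertible matrix of translates at `z₀`; if `g` generates,
this matrix factors through `Fmat g z₀`, whence `μ ≤ #ι`.

Statements FROZEN; prefix extra names with `rge_`.
-/

set_option autoImplicit false

namespace Fermat.Agent.S20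

open UpperHalfPlane ModularForm EisensteinSeries
open scoped MatrixGroups ModularForm

/-- There are `μ` forms of level `N` (of a common weight) whose matrix of translates is
invertible at some point. -/
theorem exists_separating_family (N : ℕ) [NeZero N] :
    ∃ (K : ℕ) (f : Q N → ModularForm (G0 N) K) (z₀ : ℍ),
      ∀ v : Q N → ℂ, (∀ q : Q N, ∑ a : Q N, v a * tr (f a) q z₀ = 0) → v = 0 := by
  classical
  set μ := Fintype.card (Q N) with hμ
  let e : Q N ≃ Fin μ := Fintype.equivFin (Q N)
  have hle : ∀ a : Q N, (e a : ℕ) ≤ μ - 1 := fun a => by have := (e a).isLt; omega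
  refine ⟨12 * (μ - 1), fun a => rgeF N (μ - 1) (e a) (hle a), rgeZ0, fun v hv => ?_⟩
  set t : Q N → ℂ := fun q => tr (rgeE N) q rgeZ0 ^ 3 / tr (rgeD N) q rgeZ0 with ht
  have htinj : Function.Injective t := by
    intro q q' hqq
    simp only [ht] at hqq
    rw [div_eq_div_iff (rge_tr_D_ne_zero N q rgeZ0) (rge_tr_D_ne_zero N q' rgeZ0)] at hqq
    exact rge_separates N q q' hqq
  refine rge_vandermonde e t htinj v fun q => ?_
  have hY := rge_tr_D_ne_zero N q rgeZ0
  have hq := hv q
  simp only [rge_tr_F] at hq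
  have hterm : ∀ a : Q N, v a * ((tr (rgeE N) q rgeZ0 ^ 3) ^ (e a : ℕ)
      * tr (rgeD N) q rgeZ0 ^ (μ - 1 - (e a : ℕ)))
      = tr (rgeD N) q rgeZ0 ^ (μ - 1) * (v a * t q ^ (e a : ℕ)) := by
    intro a
    have hX : tr (rgeE N) q rgeZ0 ^ 3 = t q * tr (rgeD N) q rgeZ0 := by
      simp only [ht]; rw [div_mul_cancel₀ _ hY]
    have hsplit : tr (rgeD N) q rgeZ0 ^ (μ - 1)
        = tr (rgeD N) q rgeZ0 ^ (e a : ℕ) * tr (rgeD N) q rgeZ0 ^ (μ - 1 - (e a : ℕ)) := by
      rw [← pow_add]; congr 1; have := hle a; omega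
    rw [hX, hsplit, mul_pow]
    ring
  rw [Finset.sum_congr rfl fun a _ => hterm a, ← Finset.mul_sum] at hq
  exact (mul_eq_zero.mp hq).resolve_left (pow_ne_zero _ hY)

theorem card_ge_of_gen {N : ℕ} [NeZero N] {ι : Type} [Fintype ι] (w : ι → ℕ)
    (g : ∀ i, ModularForm (G0 N) (w i)) (h : Gen w g) :
    Nat.card (Q N) ≤ Fintype.card ι := by
  classical
  obtain ⟨K, f, z₀, hsep⟩ := exists_separating_family N
  choose c hc using fun a : Q N => h (K : ℤ) (f a)
  -- the linear map `v ↦ v C`
  let L : (Q N → ℂ) →ₗ[ℂ] (ι → ℂ) :=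
    { toFun := fun v i => ∑ a, v a * c a i z₀
      map_add' := fun v v' => by
        funext i
        simp only [Pi.add_apply, add_mul, Finset.sum_add_distrib]
      map_smul' := fun r v => by
        funext i
        simp only [Pi.smul_apply, smul_eq_mul, RingHom.id_apply, Finset.mul_sum, mul_assoc] }
  have hL : Function.Injective L := by
    refine (injective_iff_map_eq_zero L).mpr fun v hv => hsep v fun q => ?_
    have hLi : ∀ i, ∑ a, v a * c a i z₀ = 0 := fun i => congrFun hv i
    calc ∑ a, v a * tr (f a) q z₀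
        = ∑ a, v a * ∑ i, c a i z₀ * tr (g i) q z₀ := by
          refine Finset.sum_congr rfl fun a _ => ?_
          rw [tr_comb g (c a) (f a) (hc a) q z₀]
      _ = ∑ i, (∑ a, v a * c a i z₀) * tr (g i) q z₀ := by
          simp only [Finset.mul_sum, Finset.sum_mul]
          rw [Finset.sum_comm]
          refine Finset.sum_congr rfl fun i _ => Finset.sum_congr rfl fun a _ => ?_
          ring
      _ = 0 := by simp [hLi]
  have := LinearMap.finrank_le_finrank_of_injective hL
  rw [Module.finrank_fintype_fun_eq_card, Module.finrank_fintype_fun_eq_card] at this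
  rwa [Nat.card_eq_fintype_card]

end Fermat.Agent.S20
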