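import Fermat.Agent.S20.Basic
import Fermat.Agent.S20.LevelOne
import Fermat.Agent.S20.RankLeAux

/-!
# S20 / part (C3): an independent family has at most `μ` elements  (OWNER: see `s20_modules`)

Counting: for an independent family the map `(c_i) ↦ ∑ c_i g_i` is injective, so
`dim M_k(Γ₀(N)) ≥ ∑_i dim M_{k - w_i}(SL₂(ℤ)) ≥ ∑_i ((k - w_i)/12 - 1)`, while
`dim M_k(Γ₀(N)) ≤ k μ/12 + 1` (`finrank_modularForm_le`).  Let `k → ∞`.

Statement FROZEN; prefix extra names with `rle_`.
-/

set_option autoImplicit false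

namespace Fermat.Agent.S20

open UpperHalfPlane ModularForm
open scoped MatrixGroups ModularForm

theorem card_le_of_indep {N : ℕ} [NeZero N] {ι : Type} [Fintype ι] (w : ι → ℕ)
    (g : ∀ i, ModularForm (G0 N) (w i)) (h : Indep w g) :
    Fintype.card ι ≤ Nat.card (Q N) := by
  by_contra hlt
  rw [not_le] at hlt
  set μ := Nat.card (Q N) with hμ
  set W := ∑ i, w i with hW
  set m := W * (μ + 1) + 2 with hm
  have hwW : ∀ i, w i ≤ W := fun i =>
    Finset.single_le_sum (f := w) (fun j _ => Nat.zero_le _) (Finset.mem_univ i)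
  have hWm : W ≤ m := by
    rw [hm]
    nlinarith
  -- lower bound
  have h1 : Fintype.card ι * (m - W) ≤ ∑ i, levelOneDim (((12 * m : ℕ) : ℤ) - w i) := by
    rw [← Finset.card_univ, ← smul_eq_mul, ← Finset.sum_const]
    refine Finset.sum_le_sum fun i _ => ?_
    have := rle_levelOneDim_ge m W (w i) (rle_weight_even w g h i) (hwW i) hWm
    push_cast
    exact this
  -- upper bound
  have h2 := (rle_sum_le w g h ((12 * m : ℕ) : ℤ)).trans (finrank_modularForm_le N (12 * m))
  have h3 : 12 * m * Nat.card (Q N) / 12 + 1 = m * μ + 1 := by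
    rw [mul_assoc, Nat.mul_div_cancel_left _ (by norm_num : 0 < 12)]
  rw [h3] at h2
  have h4 : (μ + 1) * (m - W) ≤ m * μ + 1 :=
    (Nat.mul_le_mul_right _ hlt).trans (h1.trans h2)
  have h5 : m - W = W * μ + 2 := by
    rw [hm]
    have : W * (μ + 1) + 2 = W + (W * μ + 2) := by ring
    rw [this, Nat.add_sub_cancel_left]
  rw [h5, hm] at h4
  nlinarith

end Fermat.Agent.S20
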