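import Fermat.Agent.S20.Nakayama
import Fermat.Agent.S20.RankLe
import Fermat.Agent.S20.RankGe

/-!
# S20 / part (C5): existence of a free basis  (OWNER: see `s20_modules`)

`exists_minimal_spanning`: every `M_k(Γ₀(N))` is finite-dimensional
(`finiteDimensional_modularForm`); a `Minimal` family is `Indep` (`indep_of_minimal`), hence has
at most `μ` elements (`card_le_of_indep`).  Take a `Minimal` family of maximal cardinality; if it
were not `Spanning` in some weight `k`, one could add a form of weight `k` and stay `Minimal`.
(Equivalently: choose bases of `M_k / (E₄ M_{k-4} + E₆ M_{k-6})` weight by weight; the partial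
families are `Minimal`, so the total number of chosen forms is `≤ μ`.)

Only `exists_minimal_spanning` is left to prove; the rest is assembled here.
Statements FROZEN; prefix extra names with `fex_`.
-/

set_option autoImplicit false

namespace Fermat.Agent.S20

open UpperHalfPlane ModularForm
open scoped MatrixGroups ModularForm

/-- The extension of a family by one more form. -/
def fex_w {ι : Type} (w : ι → ℕ) (k : ℕ) : Option ι → ℕ
  | none => k
  | some i => w i

/-- The extension of a family by one more form. -/
def fex_g {N : ℕ} {ι : Type} {w : ι → ℕ} (g : ∀ i, ModularForm (G0 N) (w i)) {k : ℕ}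
    (f : ModularForm (G0 N) k) : ∀ o : Option ι, ModularForm (G0 N) (fex_w w k o)
  | none => f
  | some i => g i

/-- A `Minimal` family which is not `Spanning` can be extended by one form. -/
theorem fex_extend {N : ℕ} [NeZero N] {ι : Type} [Fintype ι] (w : ι → ℕ)
    (g : ∀ i, ModularForm (G0 N) (w i)) (hmin : Minimal w g) (hs : ¬ Spanning w g) :
    ∃ (k : ℕ) (f : ModularForm (G0 N) k), Minimal (fex_w w k) (fex_g g f) := by
  unfold Spanning at hs
  push Not at hs
  obtain ⟨k, f, hf⟩ := hs
  refine ⟨k, f, ?_⟩
  intro k' c' F hF hI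
  have hF' : ∀ z, F z = (if k = k' then c' none else 0) * f z
      + ∑ i, (if w i = k' then c' (some i) else 0) * g i z := by
    intro z
    rw [hF z, Fintype.sum_option]
    rfl
  by_cases h0 : (if k = k' then c' none else 0) = 0
  · -- the new form does not occur
    have hF'' : ∀ z, F z = ∑ i, (if w i = k' then c' (some i) else 0) * g i z := by
      intro z
      rw [hF' z, h0, zero_mul, zero_add]
    have := hmin k' (fun i => c' (some i)) F hF'' hI
    intro o ho
    cases o with
    | none =>
      have hk : k = k' := ho
      rwa [if_pos hk] at h0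
    | some i => exact this i ho
  · -- the new form occurs with a nonzero coefficient: contradiction
    exfalso
    have hk : k = k' := by
      by_contra hk
      exact h0 (if_neg hk)
    subst hk
    rw [if_pos rfl] at h0
    simp only [if_true] at hF'
    obtain ⟨a, b, hab⟩ := hI
    obtain ⟨z, hz⟩ := hf (fun i => - ((c' none)⁻¹ * c' (some i))) ((c' none)⁻¹ • F)
      ⟨(c' none)⁻¹ • a, (c' none)⁻¹ • b, fun z => by
        simp only [smul_apply, smul_eq_mul]
        rw [hab z]
        ring⟩
    apply hz
    simp only [smul_apply, smul_eq_mul]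
    rw [hF' z]
    have hsum : ∑ i, (if w i = k then -((c' none)⁻¹ * c' (some i)) else 0) * g i z
        = - ((c' none)⁻¹ * ∑ i, (if w i = k then c' (some i) else 0) * g i z) := by
      rw [Finset.mul_sum, ← Finset.sum_neg_distrib]
      refine Finset.sum_congr rfl fun i _ => ?_
      split_ifs <;> ring
    rw [hsum]
    field_simp
    ring

theorem fex_aux (N : ℕ) [NeZero N] (d : ℕ) :
    ∀ (ι : Type) (_ : Fintype ι) (w : ι → ℕ) (g : ∀ i, ModularForm (G0 N) (w i)),
      Minimal w g → Nat.card (Q N) ≤ Fintype.card ι + d →
      ∃ (ι' : Type) (_ : Fintype ι') (w' : ι' → ℕ) (g' : ∀ i, ModularForm (G0 N) (w' i)),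
        Minimal w' g' ∧ Spanning w' g' := by
  induction d with
  | zero =>
    intro ι _ w g hmin hcard
    by_cases hs : Spanning w g
    · exact ⟨ι, inferInstance, w, g, hmin, hs⟩
    · exfalso
      obtain ⟨k, f, hmin'⟩ := fex_extend w g hmin hs
      have := card_le_of_indep _ _ (indep_of_minimal _ _ hmin')
      rw [Fintype.card_option] at this
      omega
  | succ d ih =>
    intro ι _ w g hmin hcard
    by_cases hs : Spanning w g
    · exact ⟨ι, inferInstance, w, g, hmin, hs⟩
    · obtain ⟨k, f, hmin'⟩ := fex_extend w g hmin hs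
      refine ih (Option ι) inferInstance _ _ hmin' ?_
      rw [Fintype.card_option]
      omega

theorem exists_minimal_spanning (N : ℕ) [NeZero N] :
    ∃ (ι : Type) (_ : Fintype ι) (w : ι → ℕ) (g : ∀ i, ModularForm (G0 N) (w i)),
      Minimal w g ∧ Spanning w g := by
  refine fex_aux N (Nat.card (Q N)) Empty inferInstance (fun i => i.elim) (fun i => i.elim)
    (fun _ _ _ _ _ i => i.elim) (by omega)

theorem exists_free_basis (N : ℕ) [NeZero N] :
    ∃ (ι : Type) (_ : Fintype ι) (w : ι → ℕ) (g : ∀ i, ModularForm (G0 N) (w i)),
      IsFreeBasis w g := by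
  obtain ⟨ι, hι, w, g, hmin, hspan⟩ := exists_minimal_spanning N
  exact ⟨ι, hι, w, g, gen_of_spanning w g hspan, indep_of_minimal w g hmin⟩

theorem card_eq_of_free {N : ℕ} [NeZero N] {ι : Type} [Fintype ι] (w : ι → ℕ)
    (g : ∀ i, ModularForm (G0 N) (w i)) (h : IsFreeBasis w g) :
    Fintype.card ι = Nat.card (Q N) :=
  le_antisymm (card_le_of_indep w g h.2) (card_ge_of_gen w g h.1)

end Fermat.Agent.S20
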