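import Fermat.Agent.S20.Nonvanish
import Fermat.Agent.S20.FreeExists
import Fermat.Agent.S20.FreeDim

/-!
# S20 / part (E1, E2): the weights modulo 4 and modulo 6  (OWNER: helper5)

`A := F(i)` is a square matrix (`card_eq_of_free`) with trivial left kernel (`leftKer_trivial`),
hence invertible, and `tr_smul_apply` with `γ = S` gives `A = diag(i^{w_i}) · A · P` with
`P` the permutation matrix of `q ↦ S⁻¹ q`.  Taking traces of `P = A⁻¹ diag(i^{-w_i}) A`:
`#Fix(S) = ∑ i^{-w_i} = ∑ (-1)^{w_i/2}` (the `w_i` are even).  Same at `ρ` with `S T` and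
`ζ₆ = e^{πi/3}`: `#Fix(ST) = ∑ ζ₆^{-w_i}`; take real parts.

Statements FROZEN; prefix extra names with `spec_`.
-/

set_option autoImplicit false

namespace Fermat.Agent.S20

open UpperHalfPlane ModularForm
open scoped MatrixGroups ModularForm

/-- If `B` is a square matrix with trivial left kernel and `B_{i, σ j} = c_i B_{i j}`, then
`∑ c_i` is the number of fixed points of `σ`. -/
theorem spec_trace_eq {ι : Type} [Fintype ι] [DecidableEq ι] (B : Matrix ι ι ℂ)
    (hB : ∀ v : ι → ℂ, Matrix.vecMul v B = 0 → v = 0) (c : ι → ℂ) (σ : ι → ι)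
    (hrel : ∀ i j, B i (σ j) = c i * B i j) :
    ∑ i, c i = ((Finset.univ.filter fun j => σ j = j).card : ℂ) := by
  have hdet : B.det ≠ 0 := by
    intro h0
    obtain ⟨v, hv, hv0⟩ := Matrix.exists_vecMul_eq_zero_iff.mpr h0
    exact hv (hB v hv0)
  have hunit : IsUnit B.det := isUnit_iff_ne_zero.mpr hdet
  let P : Matrix ι ι ℂ := Matrix.of fun k j => if k = σ j then 1 else 0
  have hBP : B * P = Matrix.diagonal c * B := by
    ext i j
    rw [Matrix.mul_apply, Matrix.diagonal_mul]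
    simp only [P, Matrix.of_apply, mul_ite, mul_one, mul_zero, Finset.sum_ite_eq',
      Finset.mem_univ, if_true]
    exact hrel i j
  have hP : P = B⁻¹ * (Matrix.diagonal c * B) := by
    rw [← hBP, ← Matrix.mul_assoc, Matrix.nonsing_inv_mul _ hunit, Matrix.one_mul]
  have htr : P.trace = ∑ i, c i := by
    rw [hP, Matrix.trace_mul_comm, Matrix.mul_assoc, Matrix.mul_nonsing_inv _ hunit,
      Matrix.mul_one, Matrix.trace_diagonal]
  rw [← htr]
  simp only [Matrix.trace, Matrix.diag_apply, P, Matrix.of_apply]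
  rw [Finset.sum_boole]
  congr 2
  ext j
  simp only [Finset.mem_filter, Finset.mem_univ, true_and]
  exact eq_comm

variable {N : ℕ} [NeZero N] {ι : Type} [Fintype ι] (w : ι → ℕ)
  (g : ∀ i, ModularForm (G0 N) (w i))

/-- The trace identity at a fixed point `z₀` of `γ`, with automorphy factor `ζ`. -/
theorem spec_sum_eq (h : IsFreeBasis w g) (γ : SL(2, ℤ)) (z₀ : ℍ) (hz : γ • z₀ = z₀) (ζ : ℂ)
    (hζ : denom γ z₀ = ζ) :
    ∑ i, ζ ^ (w i) = (Nat.card (MulAction.fixedBy (Q N) γ) : ℂ) := by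
  classical
  have hcard : Fintype.card ι = Fintype.card (Q N) := by
    rw [card_eq_of_free w g h, Nat.card_eq_fintype_card]
  let e : ι ≃ Q N := Fintype.equivOfCardEq hcard
  let B : Matrix ι ι ℂ := Matrix.of fun i j => tr (g i) (e j) z₀
  have hB : ∀ v : ι → ℂ, Matrix.vecMul v B = 0 → v = 0 := by
    intro v hv
    apply leftKer_trivial w g h z₀ v
    intro q
    have := congrFun hv (e.symm q)
    simpa [Matrix.vecMul, dotProduct, B] using this
  have hrel : ∀ i j, B i (e.symm (γ • e j)) = ζ ^ (w i) * B i j := by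
    intro i j
    simp only [B, Matrix.of_apply, Equiv.apply_symm_apply]
    have := tr_smul_apply (g i) (γ • e j) γ z₀
    rw [hz, hζ, inv_smul_smul, zpow_natCast] at this
    exact this
  rw [spec_trace_eq B hB (fun i => ζ ^ (w i)) (fun j => e.symm (γ • e j)) hrel]
  congr 1
  rw [Nat.card_eq_fintype_card, Fintype.card_subtype]
  refine Finset.card_bij (fun j _ => e j) ?_ ?_ ?_
  · intro j hj
    simp only [Finset.mem_filter, Finset.mem_univ, true_and] at hj ⊢
    rw [MulAction.mem_fixedBy]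
    have := congrArg e hj
    rwa [Equiv.apply_symm_apply] at this
  · intro j₁ _ j₂ _ h12
    exact e.injective h12
  · intro q hq
    simp only [Finset.mem_filter, Finset.mem_univ, true_and] at hq ⊢
    rw [MulAction.mem_fixedBy] at hq
    refine ⟨e.symm q, ?_, e.apply_symm_apply q⟩
    rw [Equiv.apply_symm_apply, hq]

theorem spectral_S (h : IsFreeBasis w g) :
    (∑ i, (-1 : ℚ) ^ (w i / 2)) = Nat.card (MulAction.fixedBy (Q N) ModularGroup.S) := by
  have key := spec_sum_eq w g h ModularGroup.S I S_smul_I Complex.I denom_S_I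
  apply Rat.cast_injective (α := ℂ)
  push_cast
  rw [← key]
  apply Finset.sum_congr rfl
  intro i _
  obtain ⟨m, hm⟩ := weight_even w g h i
  have hm2 : w i / 2 = m := by omega
  have hm3 : w i = 2 * m := by omega
  rw [hm2, hm3, pow_mul, Complex.I_sq]

/-- `ζ = e^{πi/3}` satisfies `ζ² = ζ - 1`. -/
theorem spec_zeta_sq :
    ((1 / 2 : ℂ) + (Real.sqrt 3 / 2 : ℝ) * Complex.I) ^ 2 =
      ((1 / 2 : ℂ) + (Real.sqrt 3 / 2 : ℝ) * Complex.I) - 1 := by
  have h3 : ((Real.sqrt 3 : ℝ) : ℂ) ^ 2 = 3 := by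
    rw [← Complex.ofReal_pow, Real.sq_sqrt (by norm_num : (0 : ℝ) ≤ 3)]
    norm_num
  push_cast
  linear_combination (1 / 4 : ℂ) * Complex.I ^ 2 * h3 + (3 / 4 : ℂ) * Complex.I_sq

theorem spec_zeta_re :
    ((1 / 2 : ℂ) + (Real.sqrt 3 / 2 : ℝ) * Complex.I).re = 1 / 2 := by
  simp

theorem spec_zeta_pow_re (n : ℕ) (hn : Even n) :
    (((1 / 2 : ℂ) + (Real.sqrt 3 / 2 : ℝ) * Complex.I) ^ n).re =
      if n % 6 = 0 then 1 else -1 / 2 := by
  set ζ : ℂ := (1 / 2 : ℂ) + (Real.sqrt 3 / 2 : ℝ) * Complex.I with hζ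
  have h2 : ζ ^ 2 = ζ - 1 := spec_zeta_sq
  have hre : ζ.re = 1 / 2 := spec_zeta_re
  have h4 : ζ ^ 4 = -ζ := by linear_combination (ζ ^ 2 + ζ) * h2
  have h6 : ζ ^ 6 = 1 := by linear_combination (ζ ^ 4 + ζ ^ 3 - ζ - 1) * h2
  obtain ⟨m, hm⟩ := hn
  have hdecomp : n = 6 * (n / 6) + n % 6 := (Nat.div_add_mod n 6).symm
  have hpow : ζ ^ n = ζ ^ (n % 6) := by
    conv_lhs => rw [hdecomp, pow_add, pow_mul, h6, one_pow, one_mul]
  rw [hpow]
  have hr : n % 6 = 0 ∨ n % 6 = 2 ∨ n % 6 = 4 := by omega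
  rcases hr with hr | hr | hr
  · rw [hr]; simp
  · rw [hr, h2]
    simp only [Complex.sub_re, hre, Complex.one_re]
    norm_num
  · rw [hr, h4]
    simp only [Complex.neg_re, hre]
    norm_num

theorem spectral_ST (h : IsFreeBasis w g) :
    (∑ i, (if w i % 6 = 0 then (1 : ℚ) else -1 / 2)) =
      Nat.card (MulAction.fixedBy (Q N) (ModularGroup.S * ModularGroup.T)) := by
  have hden : denom ((ModularGroup.S * ModularGroup.T : SL(2, ℤ)) : GL (Fin 2) ℝ) rho =
      (1 / 2 : ℂ) + (Real.sqrt 3 / 2 : ℝ) * Complex.I := by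
    rw [← denom_ST_rho]
    congr 1
    rw [map_mul, map_mul]
  have key := spec_sum_eq w g h (ModularGroup.S * ModularGroup.T) rho ST_smul_rho _ hden
  have key2 := congrArg Complex.re key
  rw [Complex.re_sum, Complex.natCast_re] at key2
  apply Rat.cast_injective (α := ℝ)
  push_cast
  rw [← key2]
  apply Finset.sum_congr rfl
  intro i _
  rw [spec_zeta_pow_re (w i) (weight_even w g h i)]
  split_ifs <;> norm_num

end Fermat.Agent.S20
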