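import Fermat.Agent.S20.CosetFix
import Fermat.Agent.S20.CosetCusp
import Fermat.Agent.S20.CosetIndex
import Fermat.Agent.S20.FreeExists
import Fermat.Agent.S20.FreeDim
import Fermat.Agent.S20.Spectral
import Fermat.Agent.S20.Duality
import Fermat.Agent.S20.CuspQuot

/-!
# S20: final assembly  (OWNER: helper1)

With `n_j = #{i : w_i = j}` for a free basis of weights `w_i ∈ {0, 2, …, 10}`:
`n_0 = 1`, `∑ 1 = μ`, `∑ (-1)^{w_i/2} = ν₂`, `∑ Re ζ₆^{-w_i} = ν₃`,
`∑ (m(24 - w_i) - m(12 + w_i)) = ν_∞`, and `dim S₂ = ∑ m(w_i - 10) = n_10`.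
The pointwise identity
`m(w - 10) = 1/12 - (-1)^{w/2}/4 - b(w)/3 - (m(24-w) - m(12+w))/2 + [w = 0]`
on `w ∈ {0, 2, 4, 6, 8, 10}` gives the genus formula.
-/

set_option autoImplicit false

namespace Fermat.Agent.S20

open UpperHalfPlane ModularForm CongruenceSubgroup
open scoped MatrixGroups ModularForm

/-- The pointwise identity behind the final count. -/
theorem assembly_pointwise (w : ℕ) (hw : w ≤ 10) (hev : Even w) :
    (levelOneDim (2 + (w : ℤ) - 12) : ℚ) =
      1 / 12 - (-1 : ℚ) ^ (w / 2) / 4 - (if w % 6 = 0 then (1 : ℚ) else -1 / 2) / 3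
        - ((levelOneDim (24 - (w : ℤ)) : ℚ) - (levelOneDim (24 + (w : ℤ) - 12) : ℚ)) / 2
        + (if w = 0 then (1 : ℚ) else 0) := by
  obtain ⟨m, rfl⟩ := hev
  have hm : m ≤ 5 := by omega
  interval_cases m <;> simp [levelOneDim] <;> norm_num

theorem s20_assembly (N : ℕ) [NeZero N] :
    (Module.finrank ℂ (CuspForm (CongruenceSubgroup.Gamma0 N) 2) : ℚ) =
      ModularCurve.genusFormula N := by
  classical
  obtain ⟨ι, hι, w, g, h⟩ := exists_free_basis N
  have hcard : (Fintype.card ι : ℚ) = ModularCurve.dedekindPsi N := by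
    rw [card_eq_of_free w g h]
    exact_mod_cast coset_card N
  have hw10 := weight_le_ten w g h
  have hev := weight_even w g h
  have hS : (∑ i, (-1 : ℚ) ^ (w i / 2)) = ModularCurve.nuTwo N := by
    rw [spectral_S w g h]
    exact_mod_cast coset_card_fixedBy_S N
  have hU : (∑ i, (if w i % 6 = 0 then (1 : ℚ) else -1 / 2)) = ModularCurve.nuThree N := by
    rw [spectral_ST w g h]
    exact_mod_cast coset_card_fixedBy_ST N
  have h0 : (∑ i, (if w i = 0 then (1 : ℚ) else 0)) = 1 := by
    have := card_weight_zero w g h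
    rw [Finset.sum_boole]
    exact_mod_cast this
  have hM24 := finrank_modularForm_of_free w g h 24
  have hS24 := finrank_cuspForm_of_free w g h 24
  have hq := finrank_modular_eq_cusp_add w g h hw10 24 (by norm_num) (by decide)
  rw [coset_card_orbits_T N] at hq
  have hS2 := finrank_cuspForm_of_free w g h 2
  have hcusp : (∑ i, ((levelOneDim (24 - (w i : ℤ)) : ℚ)
      - (levelOneDim (24 + (w i : ℤ) - 12) : ℚ))) = ModularCurve.cuspCount N := by
    rw [Finset.sum_sub_distrib]
    have e1 : ((Module.finrank ℂ (ModularForm (G0 N) ((24 : ℕ) : ℤ)) : ℕ) : ℚ)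
        = ∑ i, (levelOneDim (24 - (w i : ℤ)) : ℚ) := by
      have := hM24
      push_cast at this ⊢
      exact_mod_cast this
    have e2 : ((Module.finrank ℂ (CuspForm (G0 N) ((24 : ℕ) : ℤ)) : ℕ) : ℚ)
        = ∑ i, (levelOneDim (24 + (w i : ℤ) - 12) : ℚ) := by
      have := hS24
      push_cast at this ⊢
      exact_mod_cast this
    rw [← e1, ← e2, hq]
    push_cast
    ring
  have hfin : (Module.finrank ℂ (CuspForm (G0 N) 2) : ℚ)
      = ∑ i, (levelOneDim (2 + (w i : ℤ) - 12) : ℚ) := by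
    exact_mod_cast hS2
  show (Module.finrank ℂ (CuspForm (G0 N) 2) : ℚ) = ModularCurve.genusFormula N
  rw [hfin, Finset.sum_congr rfl (fun i _ => assembly_pointwise (w i) (hw10 i) (hev i))]
  simp only [Finset.sum_add_distrib, Finset.sum_sub_distrib, ← Finset.sum_div,
    Finset.sum_const, Finset.card_univ, nsmul_eq_mul]
  rw [Finset.sum_sub_distrib] at hcusp
  rw [hS, hU, hcusp, h0, hcard, ModularCurve.genusFormula]
  ring

end Fermat.Agent.S20
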