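import Fermat.Agent.S20.CosetBasic

/-!
# S20 / part (B1), (B2): fixed points of `S` and `S * T` on `SL(2, ℤ) ⧸ Γ₀(N)`  (OWNER: helper3)
-/

set_option autoImplicit false

namespace Fermat.Agent.S20

open Matrix Matrix.SpecialLinearGroup CongruenceSubgroup ModularGroup
open scoped MatrixGroups

variable (N : ℕ)

/-- If the fixed cosets of `h` are those with `N ∣ a² + t a c + c²`, then they are in bijection
with the roots of `x² + t x + 1` in `ZMod N`. -/
lemma coset_card_fixed_aux [NeZero N] (t : ℤ) (h : SL(2, ℤ))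
    (hfix : ∀ g : SL(2, ℤ), h • (g : SL(2, ℤ) ⧸ Gamma0 N) = g ↔
      (N : ℤ) ∣ g 0 0 ^ 2 + t * g 0 0 * g 1 0 + g 1 0 ^ 2) :
    Nat.card (MulAction.fixedBy (SL(2, ℤ) ⧸ Gamma0 N) h) =
      Nat.card {x : ZMod N // x ^ 2 + (t : ZMod N) * x + 1 = 0} := by
  classical
  symm
  let G : {x : ZMod N // x ^ 2 + (t : ZMod N) * x + 1 = 0} →
      MulAction.fixedBy (SL(2, ℤ) ⧸ Gamma0 N) h := fun x =>
    ⟨(cosetMat (x.1.cast : ℤ) : SL(2, ℤ) ⧸ Gamma0 N), by
      rw [MulAction.mem_fixedBy, hfix, cosetMat_zero_zero, cosetMat_one_zero,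
        ← ZMod.intCast_zmod_eq_zero_iff_dvd]
      push_cast
      simpa using x.2⟩
  apply Nat.card_congr (Equiv.ofBijective G ⟨?_, ?_⟩)
  · intro x y hxy
    have h1 : (cosetMat (x.1.cast : ℤ) : SL(2, ℤ) ⧸ Gamma0 N) = cosetMat (y.1.cast : ℤ) :=
      congrArg Subtype.val hxy
    rw [coset_eq_iff, cosetMat_zero_zero, cosetMat_one_zero, cosetMat_zero_zero,
      cosetMat_one_zero, ← ZMod.intCast_zmod_eq_zero_iff_dvd] at h1
    push_cast at h1
    apply Subtype.ext
    linear_combination h1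
  · rintro ⟨q, hq⟩
    induction q using QuotientGroup.induction_on with
    | H g =>
      rw [MulAction.mem_fixedBy, hfix, ← ZMod.intCast_zmod_eq_zero_iff_dvd] at hq
      push_cast at hq
      obtain ⟨u, v, huv⟩ := coset_isCoprime_col g
      have huv' : (u : ZMod N) * (g 0 0 : ℤ) + (v : ZMod N) * (g 1 0 : ℤ) = 1 := by
        have := congrArg (Int.cast : ℤ → ZMod N) huv
        push_cast at this
        exact this
      set A : ZMod N := ((g 0 0 : ℤ) : ZMod N) with hA
      set C : ZMod N := ((g 1 0 : ℤ) : ZMod N) with hC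
      set w : ZMod N := -(u : ZMod N) ^ 2 * t * A - (u : ZMod N) ^ 2 * C + 2 * u * v * A
        + (v : ZMod N) ^ 2 * C with hw
      have hwC : w * C = 1 := by
        linear_combination (-(u : ZMod N) ^ 2) * hq + ((u : ZMod N) * A + v * C + 1) * huv'
      have hx : (A * w) ^ 2 + (t : ZMod N) * (A * w) + 1 = 0 := by
        linear_combination w ^ 2 * hq + (-(t : ZMod N) * A * w - w * C - 1) * hwC
      refine ⟨⟨A * w, hx⟩, ?_⟩
      apply Subtype.ext
      show (cosetMat ((A * w).cast : ℤ) : SL(2, ℤ) ⧸ Gamma0 N) = g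
      rw [coset_eq_iff, cosetMat_zero_zero, cosetMat_one_zero,
        ← ZMod.intCast_zmod_eq_zero_iff_dvd]
      push_cast
      linear_combination A * hwC

/-- (B1) The number of cosets fixed by `S` is `nuTwo N`. -/
theorem coset_card_fixedBy_S [NeZero N] :
    Nat.card (MulAction.fixedBy (SL(2, ℤ) ⧸ Gamma0 N) S) = ModularCurve.nuTwo N := by
  rw [coset_card_fixed_aux N 0 S, ModularCurve.nuTwo]
  · apply Nat.card_congr
    apply Equiv.subtypeEquivRight
    intro x
    simp
  · intro g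
    rw [coset_smul_mk, coset_eq_iff, (coset_S_mul_col g).1, (coset_S_mul_col g).2]
    have e : -g 1 0 * g 1 0 - g 0 0 * g 0 0 =
        -(g 0 0 ^ 2 + 0 * g 0 0 * g 1 0 + g 1 0 ^ 2) := by ring
    rw [e, dvd_neg]

/-- (B2) The number of cosets fixed by `S * T` is `nuThree N`. -/
theorem coset_card_fixedBy_ST [NeZero N] :
    Nat.card (MulAction.fixedBy (SL(2, ℤ) ⧸ Gamma0 N) (S * T)) = ModularCurve.nuThree N := by
  rw [coset_card_fixed_aux N 1 (S * T), ModularCurve.nuThree]
  · apply Nat.card_congr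
    apply Equiv.subtypeEquivRight
    intro x
    simp
  · intro g
    rw [coset_smul_mk, coset_eq_iff, (coset_ST_mul_col g).1, (coset_ST_mul_col g).2]
    have e : -g 1 0 * g 1 0 - g 0 0 * (g 0 0 + g 1 0) =
        -(g 0 0 ^ 2 + 1 * g 0 0 * g 1 0 + g 1 0 ^ 2) := by ring
    rw [e, dvd_neg]

end Fermat.Agent.S20
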