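import Mathlib
import Fermat.Prelude.Def_ModularCurve_GenusNumerics

/-!
# S20 / part (B): cosets of `Γ₀(N)` in `SL(2, ℤ)` — basics  (OWNER: helper3)

`X = SL(2, ℤ) ⧸ Γ₀(N)` (left cosets, Mathlib's left action).  A coset `g Γ₀(N)` is determined by
the first column `(a, c)` of `g`, and `g₁ Γ₀(N) = g₂ Γ₀(N) ↔ N ∣ a₁ c₂ - a₂ c₁`.
-/

set_option autoImplicit false

namespace Fermat.Agent.S20

open Matrix Matrix.SpecialLinearGroup CongruenceSubgroup ModularGroup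
open scoped MatrixGroups

variable (N : ℕ)

/-- Equality of cosets in terms of first columns. -/
lemma coset_eq_iff (g₁ g₂ : SL(2, ℤ)) :
    (g₁ : SL(2, ℤ) ⧸ Gamma0 N) = g₂ ↔ (N : ℤ) ∣ g₁ 0 0 * g₂ 1 0 - g₂ 0 0 * g₁ 1 0 := by
  rw [QuotientGroup.eq, Gamma0_mem, ZMod.intCast_zmod_eq_zero_iff_dvd]
  have : (g₁⁻¹ * g₂) 1 0 = g₁ 0 0 * g₂ 1 0 - g₂ 0 0 * g₁ 1 0 := by
    simp [Matrix.mul_apply, Fin.sum_univ_two, adjugate_fin_two]
    ring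
  rw [this]

/-- Every coprime pair of integers is the first column of an element of `SL(2, ℤ)`. -/
lemma coset_exists_col {a c : ℤ} (h : IsCoprime a c) :
    ∃ g : SL(2, ℤ), g 0 0 = a ∧ g 1 0 = c := by
  obtain ⟨u, v, huv⟩ := h
  refine ⟨⟨!![a, -v; c, u], ?_⟩, rfl, rfl⟩
  rw [det_fin_two_of]
  linarith

lemma coset_isCoprime_col (g : SL(2, ℤ)) : IsCoprime (g 0 0) (g 1 0) :=
  isCoprime_col g 0

lemma coset_smul_mk (h g : SL(2, ℤ)) :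
    h • (g : SL(2, ℤ) ⧸ Gamma0 N) = ((h * g : SL(2, ℤ)) : SL(2, ℤ) ⧸ Gamma0 N) := rfl

lemma coset_S_mul_col (g : SL(2, ℤ)) : (S * g) 0 0 = -g 1 0 ∧ (S * g) 1 0 = g 0 0 := by
  constructor <;> simp [coe_S, Matrix.mul_apply, Fin.sum_univ_two]

lemma coset_ST_mul_col (g : SL(2, ℤ)) :
    (S * T * g) 0 0 = -g 1 0 ∧ (S * T * g) 1 0 = g 0 0 + g 1 0 := by
  constructor <;> simp [coe_S, coe_T, Matrix.mul_apply, Fin.sum_univ_two]

lemma coset_T_zpow_mul_col (k : ℤ) (g : SL(2, ℤ)) :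
    (T ^ k * g) 0 0 = g 0 0 + k * g 1 0 ∧ (T ^ k * g) 1 0 = g 1 0 := by
  constructor <;> simp [coe_T_zpow, Matrix.mul_apply, Fin.sum_univ_two]

/-- The matrix `[[x, -1], [1, 0]]`. -/
def cosetMat (x : ℤ) : SL(2, ℤ) := ⟨!![x, -1; 1, 0], by rw [det_fin_two_of]; ring⟩

@[simp] lemma cosetMat_zero_zero (x : ℤ) : (cosetMat x) 0 0 = x := rfl
@[simp] lemma cosetMat_one_zero (x : ℤ) : (cosetMat x) 1 0 = 1 := rfl

end Fermat.Agent.S20
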