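import Fermat.Agent.S20.Defs
import Fermat.Agent.S20.CosetBasic
import Fermat.Prelude.Thm_ModularForm_sturm_bound_Gamma0
import Fermat.Prelude.Thm_CongruenceSubgroup_one_mem_strictPeriods_Gamma0

/-!
# S20: basic API for translates and for passing between level one and level `N`
(OWNER: helper3; all proofs complete)

All statements are FROZEN (used as black boxes by the other files).  Extra lemmas are welcome
(prefix `basic_`).
-/

set_option autoImplicit false

namespace Fermat.Agent.S20

open UpperHalfPlane CongruenceSubgroup Filter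
open scoped MatrixGroups ModularForm Topology Manifold

variable {N : ℕ} {k : ℤ}

/-! ### Translates -/

section tr

variable {F : Type*} [FunLike F ℍ ℂ]

/-- The translate attached to the trivial coset is the form itself. -/
theorem tr_one [SlashInvariantFormClass F (G0 N) k] (f : F) :
    tr f ((1 : SL(2, ℤ)) : Q N) = f := by
  rw [tr_mk, inv_one, SlashAction.slash_one]

/-- Slash action on translates: `(f_q) ∣[k] γ = f_{γ⁻¹ q}`. -/
theorem tr_slash [SlashInvariantFormClass F (G0 N) k] (f : F) (q : Q N) (γ : SL(2, ℤ)) :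
    tr f q ∣[k] γ = tr f (γ⁻¹ • q) := by
  induction q using QuotientGroup.induction_on with
  | H g =>
    rw [MulAction.Quotient.smul_mk, tr_mk, tr_mk, ← SlashAction.slash_mul, smul_eq_mul,
      mul_inv_rev, inv_inv]

/-- Pointwise form of `tr_slash`: `f_q(γ z) = (cz+d)^k f_{γ⁻¹ q}(z)`. -/
theorem tr_smul_apply [SlashInvariantFormClass F (G0 N) k] (f : F) (q : Q N) (γ : SL(2, ℤ))
    (z : ℍ) : tr f q (γ • z) = denom γ z ^ k * tr f (γ⁻¹ • q) z := by
  rw [← tr_slash, ModularForm.SL_slash_apply, mul_comm, mul_assoc, ← zpow_add₀ (denom_ne_zero γ z)]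
  simp

/-- `T` acts by translation: `f_q(z + 1) = f_{T⁻¹ q}(z)`. -/
theorem tr_vadd_one [SlashInvariantFormClass F (G0 N) k] (f : F) (q : Q N) (z : ℍ) :
    tr f q ((1 : ℝ) +ᵥ z) = tr f (ModularGroup.T⁻¹ • q) z := by
  have h := tr_smul_apply f q ModularGroup.T z
  rw [UpperHalfPlane.modular_T_smul] at h
  rw [h]
  have hd : denom ModularGroup.T z = 1 := by
    simp [denom, ModularGroup.coe_T]
  rw [hd, one_zpow, one_mul]

theorem mdifferentiable_tr [ModularFormClass F (G0 N) k] (f : F) (q : Q N) :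
    MDifferentiable 𝓘(ℂ) 𝓘(ℂ) (tr f q) := by
  induction q using QuotientGroup.induction_on with
  | H g =>
    rw [tr_mk, ModularForm.SL_slash]
    exact (ModularFormClass.holo f).slash k _

theorem isBoundedAtImInfty_tr [NeZero N] [ModularFormClass F (G0 N) k] (f : F) (q : Q N) :
    IsBoundedAtImInfty (tr f q) := by
  induction q using QuotientGroup.induction_on with
  | H g =>
    rw [tr_mk]
    exact ModularFormClass.bdd_at_infty_slash f g⁻¹

theorem isZeroAtImInfty_tr [NeZero N] [CuspFormClass F (G0 N) k] (f : F) (q : Q N) :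
    IsZeroAtImInfty (tr f q) := by
  induction q using QuotientGroup.induction_on with
  | H g =>
    rw [tr_mk]
    exact CuspFormClass.zero_at_infty_slash f g⁻¹

/-- `T ^ N` acts trivially on the coset space. -/
theorem T_pow_smul (q : Q N) : (ModularGroup.T ^ N) • q = q := by
  induction q using QuotientGroup.induction_on with
  | H g =>
    have h := coset_T_zpow_mul_col (N : ℤ) g
    rw [zpow_natCast] at h
    rw [coset_smul_mk, coset_eq_iff, h.1, h.2]
    exact ⟨g 1 0 * g 1 0, by ring⟩

/-- Every translate is `N`-periodic. -/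
theorem tr_vadd_N [SlashInvariantFormClass F (G0 N) k] (f : F) (q : Q N) (z : ℍ) :
    tr f q ((N : ℝ) +ᵥ z) = tr f q z := by
  have h := tr_smul_apply f q (ModularGroup.T ^ N) z
  have h2 : (ModularGroup.T ^ N) • z = (N : ℝ) +ᵥ z := by
    have := UpperHalfPlane.modular_T_zpow_smul z (N : ℤ)
    rw [zpow_natCast] at this
    simpa using this
  have hd : denom (Matrix.SpecialLinearGroup.toGL ((Matrix.SpecialLinearGroup.map
      (Int.castRingHom ℝ)) (ModularGroup.T ^ N))) (z : ℂ) = 1 := by
    have e : (ModularGroup.T ^ N).1 = !![1, (N : ℤ); 0, 1] := by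
      rw [← zpow_natCast]; exact ModularGroup.coe_T_zpow N
    have e10 : (ModularGroup.T ^ N) 1 0 = 0 := by
      show (ModularGroup.T ^ N).1 1 0 = 0
      rw [e]; rfl
    have e11 : (ModularGroup.T ^ N) 1 1 = 1 := by
      show (ModularGroup.T ^ N).1 1 1 = 1
      rw [e]; rfl
    rw [ModularGroup.denom_apply, e10, e11]
    simp
  rw [h2, hd, one_zpow, one_mul] at h
  rw [h, ← inv_pow]
  congr 1
  have := T_pow_smul ((ModularGroup.T ^ N)⁻¹ • q)
  rw [smul_inv_smul] at this
  rw [inv_pow]
  exact this.symm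

end tr

/-! ### Constructing forms of level `N` -/

/-- A holomorphic `Γ₀(N)`-invariant function all of whose `SL₂(ℤ)`-translates are bounded at
`i∞` is a modular form. -/
theorem exists_modularForm_of_bounded [NeZero N] (φ : ℍ → ℂ)
    (hol : MDifferentiable 𝓘(ℂ) 𝓘(ℂ) φ)
    (inv : ∀ γ ∈ Gamma0 N, φ ∣[k] γ = φ)
    (bdd : ∀ γ : SL(2, ℤ), IsBoundedAtImInfty (φ ∣[k] γ)) :
    ∃ f : ModularForm (G0 N) k, ⇑f = φ := by
  refine ⟨{ toFun := φ, slash_action_eq' := ?_, holo' := hol, bdd_at_cusps' := ?_ }, rfl⟩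
  · rintro γ ⟨g, hg, rfl⟩
    exact inv g hg
  · intro c hc
    rw [Subgroup.IsArithmetic.isCusp_iff_isCusp_SL2Z] at hc
    rw [OnePoint.isBoundedAt_iff_forall_SL2Z hc]
    intro γ _
    exact bdd γ

/-- A holomorphic `Γ₀(N)`-invariant function all of whose `SL₂(ℤ)`-translates vanish at
`i∞` is a cusp form. -/
theorem exists_cuspForm_of_zero [NeZero N] (φ : ℍ → ℂ)
    (hol : MDifferentiable 𝓘(ℂ) 𝓘(ℂ) φ)
    (inv : ∀ γ ∈ Gamma0 N, φ ∣[k] γ = φ)
    (zero : ∀ γ : SL(2, ℤ), IsZeroAtImInfty (φ ∣[k] γ)) :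
    ∃ f : CuspForm (G0 N) k, ⇑f = φ := by
  refine ⟨{ toFun := φ, slash_action_eq' := ?_, holo' := hol, zero_at_cusps' := ?_ }, rfl⟩
  · rintro γ ⟨g, hg, rfl⟩
    exact inv g hg
  · intro c hc
    rw [Subgroup.IsArithmetic.isCusp_iff_isCusp_SL2Z] at hc
    rw [OnePoint.isZeroAt_iff_forall_SL2Z hc]
    intro γ _
    exact zero γ

/-- Invariance of a form of level `N` under `Γ₀(N)`, for the `SL₂(ℤ)`-slash action. -/
lemma basic_inv {F : Type*} [FunLike F ℍ ℂ] [SlashInvariantFormClass F (G0 N) k] (f : F)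
    (γ : SL(2, ℤ)) (hγ : γ ∈ Gamma0 N) : (f : ℍ → ℂ) ∣[k] γ = f := by
  rw [ModularForm.SL_slash]
  exact SlashInvariantFormClass.slash_action_eq f _ (mapGL_mem_G0 hγ)

/-- Invariance of a level-one form under `SL₂(ℤ)`. -/
lemma basic_inv_one {F : Type*} [FunLike F ℍ ℂ] [SlashInvariantFormClass F 𝒮ℒ k] (f : F)
    (γ : SL(2, ℤ)) : (f : ℍ → ℂ) ∣[k] γ = f := by
  rw [ModularForm.SL_slash]
  exact SlashInvariantFormClass.slash_action_eq f _ ⟨γ, rfl⟩

/-- A modular form all of whose translates vanish at `i∞` is a cusp form. -/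
theorem exists_cuspForm_of_tr_zero [NeZero N] (f : ModularForm (G0 N) k)
    (h : ∀ q : Q N, IsZeroAtImInfty (tr f q)) : ∃ s : CuspForm (G0 N) k, ⇑s = ⇑f := by
  refine exists_cuspForm_of_zero (⇑f) f.holo' (basic_inv f) fun γ => ?_
  have := h ((γ⁻¹ : SL(2, ℤ)) : Q N)
  rwa [tr_mk, inv_inv] at this

/-- A cusp form is a modular form. -/
theorem exists_modularForm_of_cuspForm [NeZero N] (s : CuspForm (G0 N) k) :
    ∃ f : ModularForm (G0 N) k, ⇑f = ⇑s := by
  exact ⟨ModularFormClass.modularForm s, rfl⟩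

/-- Restriction of a level-one form to `Γ₀(N)`. -/
theorem exists_res [NeZero N] (c : ModularForm 𝒮ℒ k) :
    ∃ f : ModularForm (G0 N) k, ⇑f = ⇑c := by
  refine exists_modularForm_of_bounded (⇑c) c.holo' (fun γ _ => basic_inv_one c γ) fun γ => ?_
  exact ModularFormClass.bdd_at_infty_slash c γ

/-- Product of a level-one form with a form of level `N`. -/
theorem exists_lmul [NeZero N] {k₁ k₂ : ℤ} (c : ModularForm 𝒮ℒ k₁) (g : ModularForm (G0 N) k₂)
    (hk : k₁ + k₂ = k) : ∃ f : ModularForm (G0 N) k, ∀ z, f z = c z * g z := by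
  subst hk
  obtain ⟨f, hf⟩ := exists_modularForm_of_bounded (k := k₁ + k₂) (N := N) (⇑c * ⇑g)
    (c.holo'.mul g.holo')
    (fun γ hγ => by rw [ModularForm.mul_slash_SL2, basic_inv_one c γ, basic_inv g γ hγ])
    (fun γ => by
      rw [ModularForm.mul_slash_SL2]
      exact (ModularFormClass.bdd_at_infty_slash c γ).mul
        (ModularFormClass.bdd_at_infty_slash g γ))
  exact ⟨f, fun z => by rw [hf]; rfl⟩

/-- Evaluation of a finite sum of modular forms. -/
lemma basic_sum_apply {Γ : Subgroup (GL (Fin 2) ℝ)} {ι : Type} (s : Finset ι)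
    (f : ι → ModularForm Γ k) (z : ℍ) : (∑ i ∈ s, f i) z = ∑ i ∈ s, f i z := by
  classical
  induction s using Finset.induction_on with
  | empty => simp
  | insert i t hi IH => rw [Finset.sum_insert hi, Finset.sum_insert hi, add_apply, IH]

/-- Finite sums `∑ cᵢ gᵢ` with level-one coefficients are modular forms of level `N`. -/
theorem exists_comb [NeZero N] {ι : Type} [Fintype ι] {w : ι → ℕ}
    (g : ∀ i, ModularForm (G0 N) (w i)) (c : ∀ i, ModularForm 𝒮ℒ (k - w i)) :
    ∃ f : ModularForm (G0 N) k, ∀ z, f z = ∑ i, c i z * g i z := by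
  choose F hF using fun i => exists_lmul (k := k) (c i) (g i) (by ring)
  exact ⟨∑ i, F i, fun z => by rw [basic_sum_apply]; exact Finset.sum_congr rfl fun i _ => hF i z⟩

/-- The translates of a level-one multiple: `(c g)_q = c · g_q`. -/
theorem tr_comb [NeZero N] {ι : Type} [Fintype ι] {w : ι → ℕ}
    (g : ∀ i, ModularForm (G0 N) (w i)) (c : ∀ i, ModularForm 𝒮ℒ (k - w i))
    (f : ModularForm (G0 N) k) (hf : ∀ z, f z = ∑ i, c i z * g i z) (q : Q N) (z : ℍ) :
    tr f q z = ∑ i, c i z * tr (g i) q z := by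
  induction q using QuotientGroup.induction_on with
  | H γ =>
    simp only [tr_mk]
    rw [ModularForm.SL_slash_apply, hf, Finset.sum_mul]
    refine Finset.sum_congr rfl fun i _ => ?_
    have h1 := congrFun (basic_inv_one (c i) γ⁻¹) z
    rw [ModularForm.SL_slash_apply] at h1
    rw [ModularForm.SL_slash_apply]
    conv_rhs => rw [← h1]
    have hd := denom_ne_zero (γ⁻¹ : SL(2, ℤ)) z
    have : (-k : ℤ) = -(k - w i) + -(w i : ℤ) := by ring
    rw [this, zpow_add₀ hd]
    ring

/-- `-1 ∈ Γ₀(N)`. -/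
lemma basic_neg_one_mem : (-1 : GL (Fin 2) ℝ) ∈ G0 N := by
  refine ⟨-1, ?_, ?_⟩
  · rw [SetLike.mem_coe, Gamma0_mem]
    simp
  · ext i j
    simp

/-! ### Vanishing and finiteness -/

theorem modularForm_odd_eq_zero (hk : Odd k) (f : ModularForm (G0 N) k) : f = 0 := by
  exact ModularForm.eq_zero_of_neg_one_mem basic_neg_one_mem hk f

theorem modularForm_neg_eq_zero [NeZero N] (hk : k < 0) (f : ModularForm (G0 N) k) : f = 0 := by
  exact ModularForm.isZero_of_neg_weight hk f

theorem modularForm_zero_const [NeZero N] (f : ModularForm (G0 N) 0) :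
    ∃ c : ℂ, ∀ z, f z = c := by
  obtain ⟨c, hc⟩ := ModularForm.eq_const_of_weight_zero f
  exact ⟨c, fun z => by rw [hc]; rfl⟩

theorem cuspForm_nonpos_eq_zero [NeZero N] (hk : k ≤ 0) (s : CuspForm (G0 N) k) : s = 0 := by
  rcases hk.lt_or_eq with hk | rfl
  · have := modularForm_neg_eq_zero hk (ModularFormClass.modularForm s)
    ext z
    have h2 := congrArg (fun F : ModularForm (G0 N) k => F z) this
    simpa using h2
  · obtain ⟨c, hc⟩ := modularForm_zero_const (ModularFormClass.modularForm s)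
    have hc' : ∀ z, s z = c := hc
    have hz : IsZeroAtImInfty (s : ℍ → ℂ) := CuspFormClass.zero_at_infty s
    have h0 : c = 0 := by
      have h1 : Tendsto (s : ℍ → ℂ) atImInfty (𝓝 c) := by
        rw [show (s : ℍ → ℂ) = fun _ => c from funext hc']
        exact tendsto_const_nhds
      exact tendsto_nhds_unique h1 hz
    ext z
    rw [hc' z, h0]
    rfl

/-- The truncated `q`-expansion map. -/
noncomputable def basic_trunc (N : ℕ) (k : ℤ) (B : ℕ) :
    ModularForm (G0 N) k →ₗ[ℂ] (Fin (B + 1) → ℂ) where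
  toFun f i := (qExpansion 1 f).coeff i
  map_add' f g := by
    funext i
    show (qExpansion 1 (⇑(f + g))).coeff i = _
    rw [show ⇑(f + g) = ⇑f + ⇑g from rfl,
      ModularForm.qExpansion_add one_pos (CongruenceSubgroup.one_mem_strictPeriods_Gamma0 N) f g,
      map_add]
    rfl
  map_smul' c f := by
    funext i
    show (qExpansion 1 (⇑(c • f))).coeff i = _
    rw [show ⇑(c • f) = c • ⇑f from rfl,
      ModularForm.qExpansion_smul one_pos (CongruenceSubgroup.one_mem_strictPeriods_Gamma0 N) c f]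
    simp

lemma basic_trunc_injective (N : ℕ) [NeZero N] (k : ℤ) :
    Function.Injective (basic_trunc N k ((k * (Gamma0 N).index).toNat / 12)) := by
  refine (injective_iff_map_eq_zero _).mpr fun f hf => ?_
  refine ModularForm.sturm_bound_Gamma0 N f fun n hn => ?_
  exact congrFun hf ⟨n, Nat.lt_succ_of_le hn⟩

/-- Finite-dimensionality (from the Sturm bound of the prelude). -/
theorem finiteDimensional_modularForm (N : ℕ) [NeZero N] (k : ℤ) :
    FiniteDimensional ℂ (ModularForm (G0 N) k) := by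
  exact FiniteDimensional.of_injective _ (basic_trunc_injective N k)

/-- The inclusion of cusp forms into modular forms. -/
noncomputable def basic_cuspIncl (N : ℕ) (k : ℤ) :
    CuspForm (G0 N) k →ₗ[ℂ] ModularForm (G0 N) k where
  toFun s := ModularFormClass.modularForm s
  map_add' _ _ := rfl
  map_smul' _ _ := rfl

lemma basic_cuspIncl_injective (N : ℕ) (k : ℤ) : Function.Injective (basic_cuspIncl N k) := by
  intro s t h
  ext z
  exact congrArg (fun F : ModularForm (G0 N) k => F z) h

theorem finiteDimensional_cuspForm (N : ℕ) [NeZero N] (k : ℤ) :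
    FiniteDimensional ℂ (CuspForm (G0 N) k) := by
  have := finiteDimensional_modularForm N k
  exact FiniteDimensional.of_injective _ (basic_cuspIncl_injective N k)

/-- Sturm-type dimension bound: `dim M_k(Γ₀(N)) ≤ k μ / 12 + 1`. -/
theorem finrank_modularForm_le (N : ℕ) [NeZero N] (k : ℕ) :
    Module.finrank ℂ (ModularForm (G0 N) k) ≤ k * Nat.card (Q N) / 12 + 1 := by
  have h := LinearMap.finrank_le_finrank_of_injective (basic_trunc_injective N (k : ℤ))
  rw [Module.finrank_fin_fun] at h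
  have e : (((k : ℤ) * ((Gamma0 N).index : ℤ)).toNat) = k * Nat.card (Q N) := by
    rw [Subgroup.index, ← Nat.cast_mul, Int.toNat_natCast]
  rwa [e] at h

end Fermat.Agent.S20
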