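import Mathlib
import Fermat.Prelude.Def_ModularCurve_GenusNumerics

/-!
# S20 (dimension formula for `S₂(Γ₀(N))`): basic definitions  (OWNER: helper1)

Route: `M(Γ₀(N)) = ⊕ₖ Mₖ(Γ₀(N))` is a free module of rank `μ = [SL₂(ℤ) : Γ₀(N)]` over
`ℂ[E₄, E₆]`; the weights of the free generators are pinned down by evaluating the matrix of
translates at `i`, at `ρ` and at `i∞`.

Everything is phrased at the level of functions, so that no graded-module API is needed.
-/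

set_option autoImplicit false

namespace Fermat.Agent.S20

open UpperHalfPlane CongruenceSubgroup
open scoped MatrixGroups ModularForm

/-- `Γ₀(N)` inside `GL₂(ℝ)`; this is what `(CongruenceSubgroup.Gamma0 N : Subgroup (GL _ ℝ))`
unfolds to, so `ModularForm (G0 N) k` is the type appearing in the frozen statement. -/
abbrev G0 (N : ℕ) : Subgroup (GL (Fin 2) ℝ) :=
  Subgroup.map (Matrix.SpecialLinearGroup.mapGL ℝ) (Gamma0 N)

/-- The coset space `SL₂(ℤ) / Γ₀(N)` (left cosets `γ Γ₀(N)`, Mathlib's left action). -/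
abbrev Q (N : ℕ) : Type := SL(2, ℤ) ⧸ Gamma0 N

noncomputable instance instFintypeQ (N : ℕ) [NeZero N] : Fintype (Q N) := Fintype.ofFinite _

noncomputable instance instDecidableEqQ (N : ℕ) : DecidableEq (Q N) := Classical.decEq _

lemma mapGL_mem_G0 {N : ℕ} {g : SL(2, ℤ)} (hg : g ∈ Gamma0 N) :
    Matrix.SpecialLinearGroup.mapGL ℝ g ∈ G0 N :=
  Subgroup.mem_map_of_mem _ hg

/-- The translate `f ∣[k] γ⁻¹` of a `Γ₀(N)`-invariant form attached to the coset `γ Γ₀(N)`. -/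
noncomputable def tr {N : ℕ} {k : ℤ} {F : Type*} [FunLike F ℍ ℂ]
    [SlashInvariantFormClass F (G0 N) k] (f : F) (q : Q N) : ℍ → ℂ :=
  Quotient.liftOn' q (fun γ : SL(2, ℤ) => (f : ℍ → ℂ) ∣[k] γ⁻¹) (by
    intro a b hab
    have hab' : a⁻¹ * b ∈ Gamma0 N := QuotientGroup.leftRel_apply.mp hab
    have hb : b⁻¹ = (a⁻¹ * b)⁻¹ * a⁻¹ := by group
    have hinv : (f : ℍ → ℂ) ∣[k] (a⁻¹ * b)⁻¹ = f := by
      rw [ModularForm.SL_slash]
      exact SlashInvariantFormClass.slash_action_eq f _ (mapGL_mem_G0 (inv_mem hab'))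
    show (f : ℍ → ℂ) ∣[k] a⁻¹ = (f : ℍ → ℂ) ∣[k] b⁻¹
    rw [hb, SlashAction.slash_mul, hinv])

lemma tr_mk {N : ℕ} {k : ℤ} {F : Type*} [FunLike F ℍ ℂ]
    [SlashInvariantFormClass F (G0 N) k] (f : F) (γ : SL(2, ℤ)) :
    tr f (γ : Q N) = (f : ℍ → ℂ) ∣[k] γ⁻¹ := rfl

/-- The matrix of translates `F(z) = (g_i ∣ γ_q⁻¹ (z))_{i,q}` of a family of modular forms. -/
noncomputable def Fmat {N : ℕ} {ι : Type} {w : ι → ℕ} (g : ∀ i, ModularForm (G0 N) (w i))
    (z : ℍ) : Matrix ι (Q N) ℂ :=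
  Matrix.of fun i q => tr (g i) q z

/-- The family `g` generates `M(Γ₀(N))` over the ring of level-one forms. -/
def Gen {N : ℕ} {ι : Type} [Fintype ι] (w : ι → ℕ) (g : ∀ i, ModularForm (G0 N) (w i)) : Prop :=
  ∀ (k : ℤ) (f : ModularForm (G0 N) k),
    ∃ c : ∀ i, ModularForm 𝒮ℒ (k - w i), ∀ z : ℍ, f z = ∑ i, c i z * g i z

/-- The family `g` is linearly independent over the ring of level-one forms
(homogeneous relations). -/
def Indep {N : ℕ} {ι : Type} [Fintype ι] (w : ι → ℕ) (g : ∀ i, ModularForm (G0 N) (w i)) :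
    Prop :=
  ∀ (k : ℤ) (c : ∀ i, ModularForm 𝒮ℒ (k - w i)),
    (∀ z : ℍ, ∑ i, c i z * g i z = 0) → ∀ i, c i = 0

/-- A free basis of `M(Γ₀(N))` over the ring of level-one forms. -/
def IsFreeBasis {N : ℕ} {ι : Type} [Fintype ι] (w : ι → ℕ)
    (g : ∀ i, ModularForm (G0 N) (w i)) : Prop :=
  Gen w g ∧ Indep w g

/-- `ρ = e^{2πi/3}`, the fixed point of `S * T = [[0, -1], [1, 1]]`. -/
noncomputable def rho : ℍ := ⟨⟨-1/2, Real.sqrt 3 / 2⟩, by
  show (0 : ℝ) < Real.sqrt 3 / 2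
  positivity⟩

end Fermat.Agent.S20
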