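import Fermat.Agent.S20.Basic

/-!
# S20 / part (A3): the abstract division lemma  (helper2)

If `φ` is a level-one form with only simple zeros on `ℍ` and a nonzero limit at `i∞`, then every
form `G` of level `N` vanishing on the zero set of `φ` is divisible by `φ`.
-/

set_option autoImplicit false

namespace Fermat.Agent.S20

open UpperHalfPlane ModularForm CongruenceSubgroup Filter
open scoped MatrixGroups ModularForm Topology Manifold

/-- The quotient `G / φ`, extended by `G' / φ'` at the zeros of `φ`. -/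
noncomputable def divFun (G φ : ℍ → ℂ) (z : ℍ) : ℂ :=
  if φ z = 0 then deriv (G ∘ ofComplex) z / deriv (φ ∘ ofComplex) z else G z / φ z

theorem div_mul_divFun (G φ : ℍ → ℂ) (hG : ∀ z, φ z = 0 → G z = 0) (z : ℍ) :
    G z = φ z * divFun G φ z := by
  unfold divFun
  split_ifs with h
  · rw [hG z h, h, zero_mul]
  · field_simp

theorem div_differentiableAt_divFun (G φ : ℍ → ℂ) (hGd : MDiff G) (hφd : MDiff φ)
    (hsimple : ∀ z : ℍ, φ z = 0 → deriv (φ ∘ ofComplex) z ≠ 0)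
    (hG : ∀ z, φ z = 0 → G z = 0) (z₀ : ℍ) :
    DifferentiableAt ℂ (divFun G φ ∘ ofComplex) z₀ := by
  have hGd' : DifferentiableOn ℂ (G ∘ ofComplex) {z | 0 < z.im} :=
    UpperHalfPlane.mdifferentiable_iff.mp hGd
  have hφd' : DifferentiableOn ℂ (φ ∘ ofComplex) {z | 0 < z.im} :=
    UpperHalfPlane.mdifferentiable_iff.mp hφd
  have hU : {z : ℂ | 0 < z.im} ∈ 𝓝 (z₀ : ℂ) := isOpen_upperHalfPlaneSet.mem_nhds z₀.im_pos
  have hG0 : DifferentiableAt ℂ (G ∘ ofComplex) z₀ := hGd'.differentiableAt hU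
  have hφ0 : DifferentiableAt ℂ (φ ∘ ofComplex) z₀ := hφd'.differentiableAt hU
  have hφz₀ : (φ ∘ ofComplex) z₀ = φ z₀ := comp_ofComplex φ z₀
  have hGz₀ : (G ∘ ofComplex) z₀ = G z₀ := comp_ofComplex G z₀
  by_cases h0 : φ z₀ = 0
  · -- a simple zero
    have hdG : DifferentiableAt ℂ (dslope (G ∘ ofComplex) z₀) z₀ :=
      ((Complex.differentiableOn_dslope hU).mpr hGd').differentiableAt hU
    have hdφ : DifferentiableAt ℂ (dslope (φ ∘ ofComplex) z₀) z₀ :=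
      ((Complex.differentiableOn_dslope hU).mpr hφd').differentiableAt hU
    have hne : dslope (φ ∘ ofComplex) z₀ z₀ ≠ 0 := by
      rw [dslope_same]; exact hsimple z₀ h0
    have hQ : DifferentiableAt ℂ
        (fun z => dslope (G ∘ ofComplex) z₀ z / dslope (φ ∘ ofComplex) z₀ z) z₀ :=
      hdG.div hdφ hne
    refine hQ.congr_of_eventuallyEq ?_
    have hev : ∀ᶠ z in 𝓝 (z₀ : ℂ), dslope (φ ∘ ofComplex) z₀ z ≠ 0 :=
      hdφ.continuousAt.eventually_ne hne
    filter_upwards [hev, hU] with z hz hzU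
    by_cases hzz : z = z₀
    · subst hzz
      simp only [Function.comp_apply, ofComplex_apply, divFun, if_pos h0, dslope_same]
    · have hφz : (φ ∘ ofComplex) z ≠ 0 := by
        intro h
        apply hz
        rw [dslope_of_ne _ hzz, slope_def_field, h, hφz₀, h0, sub_zero, zero_div]
      have hsub : z - z₀ ≠ 0 := sub_ne_zero.mpr hzz
      have h1 : divFun G φ (ofComplex z) = (G ∘ ofComplex) z / (φ ∘ ofComplex) z := by
        simp only [divFun, Function.comp_apply] at hφz ⊢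
        rw [if_neg hφz]
      rw [Function.comp_apply, h1, dslope_of_ne _ hzz, dslope_of_ne _ hzz, slope_def_field,
        slope_def_field, hφz₀, hGz₀, h0, hG z₀ h0, sub_zero, sub_zero]
      field_simp
  · -- not a zero
    have hev : ∀ᶠ z in 𝓝 (z₀ : ℂ), (φ ∘ ofComplex) z ≠ 0 :=
      hφ0.continuousAt.eventually_ne (by rw [hφz₀]; exact h0)
    have hQ : DifferentiableAt ℂ (fun z => (G ∘ ofComplex) z / (φ ∘ ofComplex) z) z₀ :=
      hG0.div hφ0 (by rw [hφz₀]; exact h0)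
    refine hQ.congr_of_eventuallyEq ?_
    filter_upwards [hev] with z hz
    simp only [divFun, Function.comp_apply] at hz ⊢
    rw [if_neg hz]

theorem div_mdifferentiable_divFun (G φ : ℍ → ℂ) (hGd : MDiff G) (hφd : MDiff φ)
    (hsimple : ∀ z : ℍ, φ z = 0 → deriv (φ ∘ ofComplex) z ≠ 0)
    (hG : ∀ z, φ z = 0 → G z = 0) : MDiff (divFun G φ) := fun z₀ =>
  UpperHalfPlane.mdifferentiableAt_iff.mpr (div_differentiableAt_divFun G φ hGd hφd hsimple hG z₀)

/-- Cancellation: a continuous function killed by a holomorphic function with simple zeros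
vanishes. -/
theorem div_cancel (φ : ℍ → ℂ) (hφd : MDiff φ)
    (hsimple : ∀ z : ℍ, φ z = 0 → deriv (φ ∘ ofComplex) z ≠ 0)
    (u : ℍ → ℂ) (hu : Continuous u) (h : ∀ z, φ z * u z = 0) (z₀ : ℍ) : u z₀ = 0 := by
  by_cases h0 : φ z₀ = 0
  · have hU : {z : ℂ | 0 < z.im} ∈ 𝓝 (z₀ : ℂ) := isOpen_upperHalfPlaneSet.mem_nhds z₀.im_pos
    have hφ0 : DifferentiableAt ℂ (φ ∘ ofComplex) z₀ :=
      (UpperHalfPlane.mdifferentiable_iff.mp hφd).differentiableAt hU
    have hφz₀ : (φ ∘ ofComplex) z₀ = φ z₀ := comp_ofComplex φ z₀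
    have hev : ∀ᶠ z in 𝓝[≠] (z₀ : ℂ), (φ ∘ ofComplex) z ≠ (φ ∘ ofComplex) z₀ :=
      hφ0.hasDerivAt.eventually_ne (hsimple z₀ h0)
    have hev' : ∀ᶠ z in 𝓝[≠] (z₀ : ℂ), (u ∘ ofComplex) z = 0 := by
      filter_upwards [hev] with z hz
      rw [hφz₀, h0] at hz
      rcases mul_eq_zero.mp (h (ofComplex z)) with h' | h'
      · exact absurd h' hz
      · exact h'
    have hcont : ContinuousAt (u ∘ ofComplex) (z₀ : ℂ) := by
      have h1 : ContinuousAt ofComplex (z₀ : ℂ) :=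
        (mdifferentiableAt_ofComplex z₀.im_pos).continuousAt
      exact ContinuousAt.comp hu.continuousAt h1
    have ht1 : Tendsto (u ∘ ofComplex) (𝓝[≠] (z₀ : ℂ)) (𝓝 ((u ∘ ofComplex) z₀)) :=
      hcont.tendsto.mono_left nhdsWithin_le_nhds
    have ht2 : Tendsto (u ∘ ofComplex) (𝓝[≠] (z₀ : ℂ)) (𝓝 0) :=
      (tendsto_const_nhds).congr' (by filter_upwards [hev'] with z hz using hz.symm)
    have := tendsto_nhds_unique ht1 ht2
    rwa [comp_ofComplex] at this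
  · rcases mul_eq_zero.mp (h z₀) with h' | h'
    · exact absurd h' h0
    · exact h'

/-- The product formula `φ · (H ∣ γ) = (φ H) ∣ γ` for a level-one invariant function `φ`. -/
theorem div_mul_slash_fun {K w : ℤ} (φ : ℍ → ℂ) (hφ : ∀ γ : SL(2, ℤ), φ ∣[w] γ = φ)
    (G H : ℍ → ℂ) (hH : ∀ z, G z = φ z * H z) (γ : SL(2, ℤ)) (z : ℍ) :
    φ z * (H ∣[K - w] γ) z = (G ∣[K] γ) z := by
  have hGfun : G = φ * H := funext fun z => by rw [hH z]; rfl
  have h1 : (φ * H) ∣[w + (K - w)] γ = φ ∣[w] γ * H ∣[K - w] γ :=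
    ModularForm.mul_slash_SL2 w (K - w) γ φ H
  rw [show w + (K - w) = K by ring, hφ γ, ← hGfun] at h1
  rw [h1]; rfl

theorem div_levelOne_slash {w : ℤ} (φ : ModularForm 𝒮ℒ w) (γ : SL(2, ℤ)) : (⇑φ) ∣[w] γ = ⇑φ := by
  rw [ModularForm.SL_slash]
  exact SlashInvariantFormClass.slash_action_eq φ _ ⟨γ, rfl⟩

/-- The product formula `φ · (H ∣ γ) = (φ H) ∣ γ` for a level-one form `φ`. -/
theorem div_mul_slash {K w : ℤ} (φ : ModularForm 𝒮ℒ w) (G H : ℍ → ℂ)
    (hH : ∀ z, G z = φ z * H z) (γ : SL(2, ℤ)) (z : ℍ) :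
    φ z * (H ∣[K - w] γ) z = (G ∣[K] γ) z :=
  div_mul_slash_fun (⇑φ) (div_levelOne_slash φ) G H hH γ z

variable {N : ℕ}

/-- Core of the division lemma: a holomorphic quotient `H = G / φ` whose translates are bounded at
`i∞` is a modular form of level `N`. -/
theorem div_core_fun [NeZero N] {K w : ℤ} (G : ModularForm (G0 N) K) (φ : ℍ → ℂ)
    (hφ : ∀ γ : SL(2, ℤ), φ ∣[w] γ = φ)
    (H : ℍ → ℂ) (hH : ∀ z, G z = φ z * H z) (hol : MDiff H)
    (hcancel : ∀ u : ℍ → ℂ, Continuous u → (∀ z, φ z * u z = 0) → ∀ z, u z = 0)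
    (hbdd : ∀ γ : SL(2, ℤ), IsBoundedAtImInfty (H ∣[K - w] γ)) :
    ∃ G' : ModularForm (G0 N) (K - w), ∀ z, G z = φ z * G' z := by
  have inv : ∀ γ ∈ Gamma0 N, H ∣[K - w] γ = H := by
    intro γ hγ
    have hGγ : (⇑G) ∣[K] γ = ⇑G := by
      rw [ModularForm.SL_slash]
      exact SlashInvariantFormClass.slash_action_eq G _ (mapGL_mem_G0 hγ)
    have hc1 : Continuous (H ∣[K - w] γ) := by
      rw [ModularForm.SL_slash]
      exact (hol.slash (K - w) _).continuous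
    have hc : Continuous (fun z => (H ∣[K - w] γ) z - H z) := hc1.sub hol.continuous
    have := hcancel _ hc (fun z => by
      rw [mul_sub, div_mul_slash_fun φ hφ (⇑G) H hH γ z, hGγ, hH z, sub_self])
    funext z
    exact sub_eq_zero.mp (this z)
  obtain ⟨G', hG'⟩ := exists_modularForm_of_bounded (N := N) (k := K - w) H hol inv hbdd
  exact ⟨G', fun z => by rw [hG']; exact hH z⟩

theorem div_core [NeZero N] {K w : ℤ} (G : ModularForm (G0 N) K) (φ : ModularForm 𝒮ℒ w)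
    (H : ℍ → ℂ) (hH : ∀ z, G z = φ z * H z) (hol : MDiff H)
    (hcancel : ∀ u : ℍ → ℂ, Continuous u → (∀ z, φ z * u z = 0) → ∀ z, u z = 0)
    (hbdd : ∀ γ : SL(2, ℤ), IsBoundedAtImInfty (H ∣[K - w] γ)) :
    ∃ G' : ModularForm (G0 N) (K - w), ∀ z, G z = φ z * G' z :=
  div_core_fun G (⇑φ) (div_levelOne_slash φ) H hH hol hcancel hbdd

/-- **Abstract division lemma.** -/
theorem div_abstract [NeZero N] {K w : ℤ} (G : ModularForm (G0 N) K) (φ : ModularForm 𝒮ℒ w)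
    (hsimple : ∀ z : ℍ, φ z = 0 → deriv (⇑φ ∘ ofComplex) z ≠ 0)
    (hinf : ∃ c : ℂ, c ≠ 0 ∧ Tendsto φ atImInfty (𝓝 c))
    (hG : ∀ z : ℍ, φ z = 0 → G z = 0) :
    ∃ G' : ModularForm (G0 N) (K - w), ∀ z, G z = φ z * G' z := by
  have hGd : MDiff (⇑G) := ModularFormClass.holo G
  have hφd : MDiff (⇑φ) := ModularFormClass.holo φ
  have hH := div_mul_divFun (⇑G) (⇑φ) hG
  refine div_core G φ (divFun ⇑G ⇑φ) hH
    (div_mdifferentiable_divFun _ _ hGd hφd hsimple hG)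
    (fun u hu h => div_cancel (⇑φ) hφd hsimple u hu h) ?_
  intro γ
  -- boundedness of the translates
  obtain ⟨c, hc, hφc⟩ := hinf
  have hGb : IsBoundedAtImInfty ((⇑G) ∣[K] γ) := by
    have := isBoundedAtImInfty_tr G ((γ⁻¹ : SL(2, ℤ)) : Q N)
    rwa [tr_mk, inv_inv] at this
  have hcpos : 0 < ‖c‖ / 2 := by positivity
  have hev : ∀ᶠ z in atImInfty, ‖c‖ / 2 ≤ ‖φ z‖ := by
    have h1 : Tendsto (fun z => ‖φ z‖) atImInfty (𝓝 ‖c‖) := hφc.norm
    exact h1.eventually (eventually_ge_nhds (by linarith))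
  have hO : (divFun ⇑G ⇑φ ∣[K - w] γ) =O[atImInfty] ((⇑G) ∣[K] γ) := by
    refine Asymptotics.IsBigO.of_bound (‖c‖ / 2)⁻¹ ?_
    filter_upwards [hev] with z hz
    have hφz : 0 < ‖φ z‖ := lt_of_lt_of_le hcpos hz
    have := div_mul_slash (K := K) φ (⇑G) (divFun ⇑G ⇑φ) hH γ z
    rw [← this, norm_mul]
    rw [inv_mul_eq_div, le_div_iff₀ hcpos]
    calc ‖(divFun ⇑G ⇑φ ∣[K - w] γ) z‖ * (‖c‖ / 2)
        ≤ ‖(divFun ⇑G ⇑φ ∣[K - w] γ) z‖ * ‖φ z‖ :=
          mul_le_mul_of_nonneg_left hz (norm_nonneg _)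
      _ = ‖φ z‖ * ‖(divFun ⇑G ⇑φ ∣[K - w] γ) z‖ := mul_comm _ _
  exact hO.trans hGb

end Fermat.Agent.S20
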