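import Fermat.Agent.S20.Defs
import Fermat.Agent.S20.RankinCohen

/-!
# S20 / part (A1): simple zeros via the Rankin–Cohen bracket  (OWNER: helper8; DONE)

`W := 2 E₄ D(E₆) - 3 E₆ D(E₄)` (`D = (2πi)⁻¹ d/dz`, Mathlib `Derivative.normalizedDerivOfComplex`)
is a cusp form of weight `12` and level one: modularity from
`Derivative.normalizedDerivOfComplex_slash` (the two inhomogeneous terms cancel), holomorphy from
`normalizedDerivOfComplex_mdifferentiable`, and `D f → 0` at `i∞` because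
`D f (z) = q · (cuspFunction 1 f)'(q)`.  Hence `W = c Δ`
(`CuspForm.exists_smul_discriminant_of_weight_eq_twelve`).  `W ≢ 0`: otherwise
`(E₄³/E₆²)' = 0` away from the zeros of `E₆`, so `E₄³ = c' E₆²`, impossible because `E₆(i) = 0`,
`E₄(i) ≠ 0` (or compare `q`-coefficients: `c = -1728`).  So `W` has no zero on `ℍ`.

Statements FROZEN; prefix extra names with `wr_`.
-/

set_option autoImplicit false

namespace Fermat.Agent.S20

open UpperHalfPlane ModularForm EisensteinSeries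
open scoped MatrixGroups ModularForm Derivative

/-- The Rankin–Cohen bracket of `E₄` and `E₆` has no zero on `ℍ`. -/
theorem rc_bracket_ne_zero (z : ℍ) :
    2 * E₄ z * D (⇑E₆) z - 3 * E₆ z * D (⇑E₄) z ≠ 0 := by
  rw [rc_bracket z]
  exact mul_ne_zero (by norm_num) (discriminant_ne_zero z)

/-- The zeros of `E₄` are simple. -/
theorem deriv_E4_ne_zero {z : ℍ} (h : E₄ z = 0) : deriv (⇑E₄ ∘ ofComplex) z ≠ 0 :=
  rc_deriv_E4_ne_zero h

/-- The zeros of `E₆` are simple. -/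
theorem deriv_E6_ne_zero {z : ℍ} (h : E₆ z = 0) : deriv (⇑E₆ ∘ ofComplex) z ≠ 0 :=
  rc_deriv_E6_ne_zero h

/-- The zeros of `a E₄³ + b E₆²` away from the zeros of `E₄ E₆` are simple. -/
theorem deriv_pencil_ne_zero {z : ℍ} (a b : ℂ) (hab : a ≠ 0 ∨ b ≠ 0)
    (h4 : E₄ z ≠ 0) (h6 : E₆ z ≠ 0) (h : a * E₄ z ^ 3 + b * E₆ z ^ 2 = 0) :
    deriv ((fun τ : ℍ => a * E₄ τ ^ 3 + b * E₆ τ ^ 2) ∘ ofComplex) z ≠ 0 := by
  have h43 : E₄ z ^ 3 ≠ 0 := pow_ne_zero 3 h4
  have h62 : E₆ z ^ 2 ≠ 0 := pow_ne_zero 2 h6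
  have ha : a ≠ 0 := by
    intro ha
    rw [ha, zero_mul, zero_add] at h
    rcases hab with hab | hab
    · exact hab ha
    · exact (mul_ne_zero hab h62) h
  have hb : b ≠ 0 := by
    intro hb
    rw [hb, zero_mul, add_zero] at h
    exact (mul_ne_zero ha h43) h
  exact (rc_deriv_ne_zero_iff _ z).mpr (rc_simple a b ha hb h)

end Fermat.Agent.S20
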