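import Fermat.Agent.S20.Basic
import Fermat.Agent.S20.LevelOne
import Fermat.Agent.S20.Wronskian
import Fermat.Agent.S20.JInj
import Fermat.Agent.S20.DivAux

/-!
# S20 / part (A3): zero sets and the division lemma  (OWNER: helper2)

* `Z(E₄) = SL₂(ℤ)·ρ`, `Z(E₆) = SL₂(ℤ)·i` (from `jinj_main`, `E4_rho`, `E6_I`);
* for `z₀` with `E₄(z₀)E₆(z₀) ≠ 0` put `φ = E₄(z₀)³ E₆² - E₆(z₀)² E₄³` (weight 12); by `jinj_main`
  its zero set is `SL₂(ℤ)·z₀`, and the zeros are simple (`deriv_pencil_ne_zero`);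
  for `z₀ ∈ Z(E₄)` take `φ = E₄`, for `z₀ ∈ Z(E₆)` take `φ = E₆`;
* DIVISION: if `G ∈ M_K(Γ₀(N))` vanishes on `SL₂(ℤ)·z₀` then `G/φ` extends to an element of
  `M_{K-w}(Γ₀(N))` (removable singularities at the simple zeros of `φ`; `φ → 1` or a nonzero
  constant at `i∞`, so boundedness at the cusps is inherited from `G`).

Statements FROZEN; prefix extra names with `div_`.
-/

set_option autoImplicit false

namespace Fermat.Agent.S20

open UpperHalfPlane ModularForm EisensteinSeries CongruenceSubgroup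
open scoped MatrixGroups ModularForm Manifold

/-- Transformation rule for level-one forms. -/
theorem div_levelOne_smul {w : ℤ} (φ : ModularForm 𝒮ℒ w) (γ : SL(2, ℤ)) (z : ℍ) :
    φ (γ • z) = denom γ z ^ w * φ z := by
  have hφ : (⇑φ) ∣[w] γ = ⇑φ := by
    rw [ModularForm.SL_slash]
    exact SlashInvariantFormClass.slash_action_eq φ _ ⟨γ, rfl⟩
  have h := congrFun hφ z
  rw [ModularForm.SL_slash_apply] at h
  have hd : denom γ z ≠ 0 := denom_ne_zero _ z
  rw [← h, mul_comm, mul_assoc, ← zpow_add₀ hd]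
  simp

theorem div_levelOne_smul_eq_zero_iff {w : ℤ} (φ : ModularForm 𝒮ℒ w) (γ : SL(2, ℤ)) (z : ℍ) :
    φ (γ • z) = 0 ↔ φ z = 0 := by
  rw [div_levelOne_smul]
  have hd : denom γ z ^ w ≠ 0 := zpow_ne_zero _ (denom_ne_zero _ z)
  simp [hd]

theorem zero_E4_iff (z : ℍ) : E₄ z = 0 ↔ ∃ γ : SL(2, ℤ), γ • rho = z := by
  constructor
  · intro h
    apply jinj_main
    rw [h, E4_rho]
    ring
  · rintro ⟨γ, rfl⟩
    rw [div_levelOne_smul_eq_zero_iff]
    exact E4_rho

theorem zero_E6_iff (z : ℍ) : E₆ z = 0 ↔ ∃ γ : SL(2, ℤ), γ • (I : ℍ) = z := by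
  constructor
  · intro h
    apply jinj_main
    rw [ModularForm.discriminant_eq_E₄_cube_sub_E₆_sq, ModularForm.discriminant_eq_E₄_cube_sub_E₆_sq,
      h, E6_I]
    ring
  · rintro ⟨γ, rfl⟩
    rw [div_levelOne_smul_eq_zero_iff]
    exact E6_I

/-- The Eisenstein series tend to `1` at `i∞`. -/
theorem div_tendsto_E {k : ℕ} (hk : 3 ≤ k) (hk2 : Even k) :
    Filter.Tendsto (E hk) atImInfty (nhds 1) := by
  have h := tendsto_valInf (E hk)
  have h1 : valInf (E hk) = 1 := by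
    rw [valInf, ← qExpansion_coeff_zero one_pos
      (ModularFormClass.analyticAt_cuspFunction_zero (E hk) one_pos one_mem_strictPeriods_SL)
      (SlashInvariantFormClass.periodic_comp_ofComplex (E hk) one_mem_strictPeriods_SL)]
    exact E_qExpansion_coeff_zero hk hk2
  rwa [h1] at h

/-- A form of level `N` all of whose translates vanish at `z₀` vanishes on the orbit of `z₀`. -/
theorem div_vanish_orbit {N : ℕ} {K : ℤ} (G : ModularForm (G0 N) K) (z₀ : ℍ)
    (h : ∀ q : Q N, tr G q z₀ = 0) (γ : SL(2, ℤ)) : G (γ • z₀) = 0 := by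
  have h1 := tr_smul_apply G ((1 : SL(2, ℤ)) : Q N) γ z₀
  rw [tr_one, h, mul_zero] at h1
  exact h1

/-- **Division lemma.** For every `z₀ ∈ ℍ` there is a level-one form `φ` vanishing at `z₀` which
divides every form of level `N` vanishing on the `SL₂(ℤ)`-orbit of `z₀`. -/
theorem division (N : ℕ) [NeZero N] (z₀ : ℍ) :
    ∃ (w : ℕ) (φ : ModularForm 𝒮ℒ w), φ z₀ = 0 ∧
      ∀ (K : ℤ) (G : ModularForm (G0 N) K), (∀ q : Q N, tr G q z₀ = 0) →
        ∃ G' : ModularForm (G0 N) (K - w), ∀ z, G z = φ z * G' z := by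
  by_cases h4 : E₄ z₀ = 0
  · -- `φ = E₄`
    refine ⟨4, E₄, h4, fun K G hG => ?_⟩
    refine div_abstract G E₄ (fun z hz => deriv_E4_ne_zero hz)
      ⟨1, one_ne_zero, div_tendsto_E _ ⟨2, rfl⟩⟩ ?_
    intro z hz
    obtain ⟨γ, rfl⟩ := (zero_E4_iff z).mp hz
    obtain ⟨γ₀, hγ₀⟩ := (zero_E4_iff z₀).mp h4
    have : γ • rho = (γ * γ₀⁻¹) • z₀ := by
      rw [← hγ₀, mul_smul, inv_smul_smul]
    rw [this]
    exact div_vanish_orbit G z₀ hG _
  by_cases h6 : E₆ z₀ = 0
  · -- `φ = E₆`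
    refine ⟨6, E₆, h6, fun K G hG => ?_⟩
    refine div_abstract G E₆ (fun z hz => deriv_E6_ne_zero hz)
      ⟨1, one_ne_zero, div_tendsto_E _ ⟨3, rfl⟩⟩ ?_
    intro z hz
    obtain ⟨γ, rfl⟩ := (zero_E6_iff z).mp hz
    obtain ⟨γ₀, hγ₀⟩ := (zero_E6_iff z₀).mp h6
    have : γ • (I : ℍ) = (γ * γ₀⁻¹) • z₀ := by
      rw [← hγ₀, mul_smul, inv_smul_smul]
    rw [this]
    exact div_vanish_orbit G z₀ hG _
  · -- generic case: `φ = E₄(z₀)³ E₆² - E₆(z₀)² E₄³`
    obtain ⟨h₁, hh₁⟩ := exists_monomial 3 0 ((12 : ℕ) : ℤ) (by norm_num)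
    obtain ⟨h₂, hh₂⟩ := exists_monomial 0 2 ((12 : ℕ) : ℤ) (by norm_num)
    set a : ℂ := -(E₆ z₀ ^ 2) with ha
    set b : ℂ := E₄ z₀ ^ 3 with hb
    let φ : ModularForm 𝒮ℒ ((12 : ℕ) : ℤ) := a • h₁ + b • h₂
    have hφ : ∀ z, φ z = a * E₄ z ^ 3 + b * E₆ z ^ 2 := by
      intro z
      show a • h₁ z + b • h₂ z = _
      rw [hh₁, hh₂]
      simp
    have hφfun : (⇑φ : ℍ → ℂ) = fun τ : ℍ => a * E₄ τ ^ 3 + b * E₆ τ ^ 2 := funext hφ
    have hφz₀ : φ z₀ = 0 := by
      rw [hφ, ha, hb]; ring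
    -- the zero set of `φ` is the orbit of `z₀`
    have hzero : ∀ z, φ z = 0 → ∃ γ : SL(2, ℤ), γ • z₀ = z := by
      intro z hz
      apply jinj_main
      rw [ModularForm.discriminant_eq_E₄_cube_sub_E₆_sq,
        ModularForm.discriminant_eq_E₄_cube_sub_E₆_sq]
      rw [hφ, ha, hb] at hz
      linear_combination (-1 / 1728 : ℂ) * hz
    have hDz₀ : E₄ z₀ ^ 3 - E₆ z₀ ^ 2 ≠ 0 := by
      have := ModularForm.discriminant_ne_zero z₀
      rw [ModularForm.discriminant_eq_E₄_cube_sub_E₆_sq] at this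
      intro h0
      exact this (by rw [h0, zero_div])
    refine ⟨12, φ, hφz₀, fun K G hG => ?_⟩
    refine div_abstract G φ ?_ ⟨a + b, ?_, ?_⟩ ?_
    · intro z hz
      obtain ⟨γ, rfl⟩ := hzero z hz
      rw [hφfun]
      apply deriv_pencil_ne_zero a b (Or.inr (pow_ne_zero _ h4))
      · rw [Ne, div_levelOne_smul_eq_zero_iff]; exact h4
      · rw [Ne, div_levelOne_smul_eq_zero_iff]; exact h6
      · rw [← hφ]; exact hz
    · rw [ha, hb]
      intro h0
      apply hDz₀
      linear_combination h0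
    · rw [hφfun]
      have t4 := div_tendsto_E (k := 4) (by norm_num) ⟨2, rfl⟩
      have t6 := div_tendsto_E (k := 6) (by norm_num) ⟨3, rfl⟩
      have := ((t4.pow 3).const_mul a).add ((t6.pow 2).const_mul b)
      simpa using this
    · intro z hz
      obtain ⟨γ, rfl⟩ := hzero z hz
      exact div_vanish_orbit G z₀ hG _

/-- **Division by `Δ`.** A form of level `N` all of whose translates are `O(Δ)` at `i∞` is
divisible by `Δ`. -/
theorem division_delta (N : ℕ) [NeZero N] (K : ℤ) (G : ModularForm (G0 N) K)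
    (h : ∀ q : Q N, IsBoundedAtImInfty (fun z => tr G q z / ModularForm.discriminant z)) :
    ∃ G' : ModularForm (G0 N) (K - 12), ∀ z, G z = ModularForm.discriminant z * G' z := by
  have hΔinv : ∀ γ : SL(2, ℤ), ModularForm.discriminant ∣[(12 : ℤ)] γ = ModularForm.discriminant := by
    intro γ
    rw [← CuspForm.coe_discriminant, ModularForm.SL_slash]
    exact SlashInvariantFormClass.slash_action_eq CuspForm.discriminant _ ⟨γ, rfl⟩
  have hΔd : MDifferentiable 𝓘(ℂ) 𝓘(ℂ) ModularForm.discriminant := by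
    rw [← CuspForm.coe_discriminant]
    exact ModularFormClass.holo CuspForm.discriminant
  have hGd : MDifferentiable 𝓘(ℂ) 𝓘(ℂ) (⇑G) := ModularFormClass.holo G
  have hne : ∀ z, ModularForm.discriminant z ≠ 0 := ModularForm.discriminant_ne_zero
  have hvac : ∀ z, ModularForm.discriminant z = 0 → G z = 0 := fun z hz => absurd hz (hne z)
  have hH := div_mul_divFun (⇑G) ModularForm.discriminant hvac
  have hHeq : divFun (⇑G) ModularForm.discriminant = fun z => G z / ModularForm.discriminant z := by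
    funext z
    simp only [divFun, if_neg (hne z)]
  refine div_core_fun G ModularForm.discriminant hΔinv (divFun ⇑G ModularForm.discriminant) hH
    (div_mdifferentiable_divFun _ _ hGd hΔd (fun z hz => absurd hz (hne z)) hvac)
    (fun u _ h z => (mul_eq_zero.mp (h z)).resolve_left (hne z)) ?_
  intro γ
  have h1 := h ((γ⁻¹ : SL(2, ℤ)) : Q N)
  rw [tr_mk, inv_inv] at h1
  have h2 : (divFun ⇑G ModularForm.discriminant) ∣[K - 12] γ =
      fun z => ((⇑G) ∣[K] γ) z / ModularForm.discriminant z := by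
    funext z
    have := div_mul_slash_fun (K := K) ModularForm.discriminant hΔinv (⇑G)
      (divFun ⇑G ModularForm.discriminant) hH γ z
    rw [← this]
    field_simp [hne z]
  rw [h2]
  exact h1

end Fermat.Agent.S20
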