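import Fermat.Agent.S20.CosetFix
import Fermat.Agent.S20.CosetCusp

/-!
# S20 / part (B): transfer to Mathlib's `𝒬 = 𝒮ℒ ⧸ Γ.subgroupOf 𝒮ℒ`  (OWNER: helper3)

Mathlib's `NormTrace` file works with `𝒬 := ℋ ⧸ 𝒢.subgroupOf ℋ` for subgroups `𝒢, ℋ` of
`GL(2, ℝ)`.  For `ℋ = 𝒮ℒ` (the image of `SL(2, ℤ)`) and `𝒢` the image of `Γ₀(N)` we transfer the
counts of `CosetFix.lean` and `CosetCusp.lean` along the equivariant bijection
`SL(2, ℤ) ⧸ Γ₀(N) ≃ 𝒬`.
-/

set_option autoImplicit false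

namespace Fermat.Agent.S20

section General

variable {G G' : Type*} [Group G] [Group G'] (φ : G →* G') (hφ : Function.Injective φ)
  (H : Subgroup G)

/-- The image of `g` in `φ.range`. -/
def cosetRangeMk (g : G) : φ.range := ⟨φ g, ⟨g, rfl⟩⟩

lemma cosetRangeMk_mul (g h : G) : cosetRangeMk φ (g * h) = cosetRangeMk φ g * cosetRangeMk φ h :=
  Subtype.ext (map_mul φ g h)

lemma cosetRangeMk_zpow (g : G) (k : ℤ) : cosetRangeMk φ (g ^ k) = cosetRangeMk φ g ^ k :=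
  Subtype.ext (by simp [cosetRangeMk, map_zpow])

lemma cosetRangeMk_surjective : Function.Surjective (cosetRangeMk φ) := by
  rintro ⟨_, g, rfl⟩
  exact ⟨g, rfl⟩

include hφ in
lemma cosetRangeMk_rel (a b : G) :
    a⁻¹ * b ∈ H ↔ (cosetRangeMk φ a)⁻¹ * cosetRangeMk φ b ∈ (H.map φ).subgroupOf φ.range := by
  rw [Subgroup.mem_subgroupOf, Subgroup.mem_map]
  constructor
  · intro h
    exact ⟨a⁻¹ * b, h, by simp [cosetRangeMk]⟩
  · rintro ⟨c, hc, hc'⟩
    have : φ c = φ (a⁻¹ * b) := by rw [hc']; simp [cosetRangeMk]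
    rwa [← hφ this]

/-- The bijection `G ⧸ H ≃ φ.range ⧸ (H.map φ).subgroupOf φ.range` for injective `φ`. -/
noncomputable def cosetTransfer : G ⧸ H ≃ φ.range ⧸ (H.map φ).subgroupOf φ.range :=
  Equiv.ofBijective
    (Quotient.map' (cosetRangeMk φ) (fun a b hab => by
      rw [QuotientGroup.leftRel_apply] at hab ⊢
      exact (cosetRangeMk_rel φ hφ H a b).1 hab))
    ⟨by
      intro x y hxy
      induction x using QuotientGroup.induction_on with
      | H a =>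
        induction y using QuotientGroup.induction_on with
        | H b =>
          have h1 : ((cosetRangeMk φ a : φ.range) : φ.range ⧸ (H.map φ).subgroupOf φ.range) =
              cosetRangeMk φ b := hxy
          rw [QuotientGroup.eq] at h1 ⊢
          exact (cosetRangeMk_rel φ hφ H a b).2 h1,
    by
      intro y
      induction y using QuotientGroup.induction_on with
      | H b =>
        obtain ⟨a, rfl⟩ := cosetRangeMk_surjective φ b
        exact ⟨(a : G ⧸ H), rfl⟩⟩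

lemma cosetTransfer_mk (g : G) :
    cosetTransfer φ hφ H (g : G ⧸ H) =
      ((cosetRangeMk φ g : φ.range) : φ.range ⧸ (H.map φ).subgroupOf φ.range) := rfl

lemma cosetTransfer_smul (g : G) (x : G ⧸ H) :
    cosetTransfer φ hφ H (g • x) = cosetRangeMk φ g • cosetTransfer φ hφ H x := by
  induction x using QuotientGroup.induction_on with
  | H a =>
    show cosetTransfer φ hφ H ((g * a : G) : G ⧸ H) = _
    rw [cosetTransfer_mk, cosetTransfer_mk, cosetRangeMk_mul]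
    rfl

include hφ in
lemma cosetTransfer_card :
    Nat.card (φ.range ⧸ (H.map φ).subgroupOf φ.range) = Nat.card (G ⧸ H) :=
  (Nat.card_congr (cosetTransfer φ hφ H)).symm

include hφ in
lemma cosetTransfer_card_fixedBy (g : G) :
    Nat.card (MulAction.fixedBy (φ.range ⧸ (H.map φ).subgroupOf φ.range) (cosetRangeMk φ g)) =
      Nat.card (MulAction.fixedBy (G ⧸ H) g) := by
  symm
  apply Nat.card_congr
  refine Equiv.subtypeEquiv (cosetTransfer φ hφ H) (fun x => ?_)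
  rw [MulAction.mem_fixedBy, MulAction.mem_fixedBy, ← cosetTransfer_smul,
    (cosetTransfer φ hφ H).injective.eq_iff]

include hφ in
lemma cosetTransfer_card_orbits (g : G) :
    Nat.card (MulAction.orbitRel.Quotient (Subgroup.zpowers (cosetRangeMk φ g))
        (φ.range ⧸ (H.map φ).subgroupOf φ.range)) =
      Nat.card (MulAction.orbitRel.Quotient (Subgroup.zpowers g) (G ⧸ H)) := by
  symm
  apply Nat.card_congr
  refine Quotient.congr (cosetTransfer φ hφ H) (fun a b => ?_)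
  rw [MulAction.orbitRel_apply, MulAction.orbitRel_apply, MulAction.mem_orbit_iff,
    MulAction.mem_orbit_iff]
  constructor
  · rintro ⟨⟨h, hh⟩, hk⟩
    obtain ⟨k, rfl⟩ := Subgroup.mem_zpowers_iff.1 hh
    refine ⟨⟨cosetRangeMk φ g ^ k, Subgroup.zpow_mem_zpowers _ k⟩, ?_⟩
    have hk' : g ^ k • b = a := hk
    show cosetRangeMk φ g ^ k • cosetTransfer φ hφ H b = cosetTransfer φ hφ H a
    rw [← cosetRangeMk_zpow, ← cosetTransfer_smul, hk']
  · rintro ⟨⟨h, hh⟩, hk⟩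
    obtain ⟨k, rfl⟩ := Subgroup.mem_zpowers_iff.1 hh
    refine ⟨⟨g ^ k, Subgroup.zpow_mem_zpowers _ k⟩, ?_⟩
    have hk' : cosetRangeMk φ g ^ k • cosetTransfer φ hφ H b = cosetTransfer φ hφ H a := hk
    show g ^ k • b = a
    apply (cosetTransfer φ hφ H).injective
    rw [cosetTransfer_smul, cosetRangeMk_zpow, hk']

end General

section Gamma0

open Matrix Matrix.SpecialLinearGroup CongruenceSubgroup ModularGroup
open scoped MatrixGroups

variable (N : ℕ)

/-- The element of `𝒮ℒ` attached to `g : SL(2, ℤ)`. -/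
noncomputable abbrev cosetSL (g : SL(2, ℤ)) : 𝒮ℒ := cosetRangeMk (mapGL ℝ) g

/-- `Γ₀(N)` as a subgroup of `𝒮ℒ ⊆ GL(2, ℝ)`. -/
noncomputable abbrev cosetGamma0 : Subgroup 𝒮ℒ :=
  (((Gamma0 N : Subgroup SL(2, ℤ)) : Subgroup (GL (Fin 2) ℝ))).subgroupOf 𝒮ℒ

/-- The equivariant bijection `SL(2, ℤ) ⧸ Γ₀(N) ≃ 𝒮ℒ ⧸ Γ₀(N)`. -/
noncomputable def cosetTransferGamma0 : SL(2, ℤ) ⧸ Gamma0 N ≃ 𝒮ℒ ⧸ cosetGamma0 N :=
  cosetTransfer (mapGL ℝ) mapGL_injective (Gamma0 N)

lemma cosetTransferGamma0_smul (g : SL(2, ℤ)) (x : SL(2, ℤ) ⧸ Gamma0 N) :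
    cosetTransferGamma0 N (g • x) = cosetSL g • cosetTransferGamma0 N x :=
  cosetTransfer_smul (mapGL ℝ) mapGL_injective (Gamma0 N) g x

lemma coset_card_eq : Nat.card (𝒮ℒ ⧸ cosetGamma0 N) = Nat.card (SL(2, ℤ) ⧸ Gamma0 N) :=
  cosetTransfer_card (mapGL ℝ) mapGL_injective (Gamma0 N)

/-- (B1) for `𝒬 = 𝒮ℒ ⧸ Γ₀(N)`. -/
theorem coset_card_fixedBy_S_GL [NeZero N] :
    Nat.card (MulAction.fixedBy (𝒮ℒ ⧸ cosetGamma0 N) (cosetSL S)) = ModularCurve.nuTwo N := by
  rw [← coset_card_fixedBy_S N]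
  exact cosetTransfer_card_fixedBy (mapGL ℝ) mapGL_injective (Gamma0 N) S

/-- (B2) for `𝒬 = 𝒮ℒ ⧸ Γ₀(N)`. -/
theorem coset_card_fixedBy_ST_GL [NeZero N] :
    Nat.card (MulAction.fixedBy (𝒮ℒ ⧸ cosetGamma0 N) (cosetSL (S * T))) =
      ModularCurve.nuThree N := by
  rw [← coset_card_fixedBy_ST N]
  exact cosetTransfer_card_fixedBy (mapGL ℝ) mapGL_injective (Gamma0 N) (S * T)

/-- (B3) for `𝒬 = 𝒮ℒ ⧸ Γ₀(N)`. -/
theorem coset_card_orbits_T_GL [NeZero N] :
    Nat.card (MulAction.orbitRel.Quotient (Subgroup.zpowers (cosetSL T)) (𝒮ℒ ⧸ cosetGamma0 N)) =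
      ModularCurve.cuspCount N := by
  rw [← coset_card_orbits_T N]
  exact cosetTransfer_card_orbits (mapGL ℝ) mapGL_injective (Gamma0 N) T

/-- `T ^ N` acts trivially on the cosets of `Γ₀(N)`. -/
lemma coset_T_pow_smul (x : SL(2, ℤ) ⧸ Gamma0 N) : (T ^ (N : ℤ)) • x = x := by
  induction x using QuotientGroup.induction_on with
  | H g =>
    rw [coset_smul_mk, coset_eq_iff, (coset_T_zpow_mul_col (N : ℤ) g).1,
      (coset_T_zpow_mul_col (N : ℤ) g).2]
    exact ⟨g 1 0 * g 1 0, by ring⟩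

lemma coset_T_pow_smul_GL (x : 𝒮ℒ ⧸ cosetGamma0 N) : (cosetSL T ^ (N : ℤ)) • x = x := by
  obtain ⟨y, rfl⟩ := (cosetTransferGamma0 N).surjective x
  rw [cosetSL, ← cosetRangeMk_zpow, ← cosetSL, ← cosetTransferGamma0_smul, coset_T_pow_smul]

end Gamma0

end Fermat.Agent.S20
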