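import Fermat.Agent.S20.RankLeAux
import Fermat.Agent.S20.CuspQuot

/-!
# S20 / part (E4), dimension of the space of cusp forms from a dual family  (OWNER: helper1)

Given a free basis `g` and a dual family of cusp forms `φ` (`∑_q (φ_i)_q (g_i')_q = δ_{ii'} Δ`),
the map `(a_i) ↦ ∑ a_i φ_i` is an isomorphism `∏_i M_{k + w_i - 12}(SL₂(ℤ)) ≃ S_k(Γ₀(N))`.
-/

set_option autoImplicit false

namespace Fermat.Agent.S20

open UpperHalfPlane ModularForm EisensteinSeries Filter CongruenceSubgroup
open scoped MatrixGroups ModularForm Topology Manifold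

section tools

variable {N : ℕ} [NeZero N]

lemma dual_dim_tr_congr {k k' : ℤ} (hk : k = k') {F F' : Type*} [FunLike F ℍ ℂ] [FunLike F' ℍ ℂ]
    [SlashInvariantFormClass F (G0 N) k] [SlashInvariantFormClass F' (G0 N) k']
    (f : F) (f' : F') (h : (f : ℍ → ℂ) = f') (q : Q N) : tr f q = tr f' q := by
  subst hk
  exact cq_tr_congr f f' h q

lemma dual_dim_tr_zero {k : ℤ} (q : Q N) (z : ℍ) : tr (0 : ModularForm (G0 N) k) q z = 0 := by
  have := cq_tr_smul (0 : ℂ) (0 : ModularForm (G0 N) k) q z
  rw [zero_smul, zero_mul] at this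
  exact this

/-- A holomorphic `SL₂(ℤ)`-invariant function which is bounded at `i∞` is a level-one form. -/
lemma dual_dim_levelOne {K : ℤ} (ψ : ℍ → ℂ) (hol : MDifferentiable 𝓘(ℂ) 𝓘(ℂ) ψ)
    (inv : ∀ γ : SL(2, ℤ), ψ ∣[K] γ = ψ) (bdd : IsBoundedAtImInfty ψ) :
    ∃ f : ModularForm 𝒮ℒ K, ⇑f = ψ := by
  refine ⟨{ toFun := ψ, slash_action_eq' := ?_, holo' := hol, bdd_at_cusps' := ?_ }, rfl⟩
  · rintro γ ⟨g, rfl⟩
    exact inv g
  · intro c hc
    rw [Subgroup.IsArithmetic.isCusp_iff_isCusp_SL2Z] at hc
    rw [OnePoint.isBoundedAt_iff_forall_SL2Z hc]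
    intro γ _
    rw [inv γ]
    exact bdd

/-- The pairing `∑_q s_q · g_q` of a cusp form with a modular form is `Δ` times a level-one
form. -/
lemma dual_dim_pairing {k : ℤ} {m : ℕ} (s : CuspForm (G0 N) k) (g : ModularForm (G0 N) m) :
    ∃ a : ModularForm 𝒮ℒ (k + m - 12),
      ∀ z, ∑ q : Q N, tr s q z * tr g q z = ModularForm.discriminant z * a z := by
  classical
  set ψ : ℍ → ℂ := fun z => ∑ q : Q N, tr s q z * tr g q z with hψ
  have hol : MDifferentiable 𝓘(ℂ) 𝓘(ℂ) ψ := by
    have : ψ = ∑ q : Q N, (tr s q * tr g q) := by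
      funext z
      simp [hψ, Finset.sum_apply]
    rw [this]
    refine MDifferentiable.sum fun q _ => ?_
    exact (mdifferentiable_tr s q).mul (mdifferentiable_tr g q)
  have inv : ∀ γ : SL(2, ℤ), ψ ∣[k + m] γ = ψ := by
    intro γ
    funext z
    rw [ModularForm.SL_slash_apply]
    simp only [hψ]
    have h1 : ∀ q : Q N, tr s q (γ • z) * tr g q (γ • z)
        = denom γ z ^ (k + m) * (tr s (γ⁻¹ • q) z * tr g (γ⁻¹ • q) z) := by
      intro q
      rw [tr_smul_apply, tr_smul_apply, zpow_add₀ (denom_ne_zero γ z)]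
      ring
    rw [Finset.sum_congr rfl fun q _ => h1 q, ← Finset.mul_sum]
    have h2 : ∑ q : Q N, tr s (γ⁻¹ • q) z * tr g (γ⁻¹ • q) z
        = ∑ q : Q N, tr s q z * tr g q z :=
      Equiv.sum_comp (MulAction.toPerm (γ⁻¹ : SL(2, ℤ))) fun q => tr s q z * tr g q z
    rw [h2, mul_comm, ← mul_assoc, ← zpow_add₀ (denom_ne_zero γ z)]
    simp
  have hzero : Tendsto ψ atImInfty (𝓝 0) := by
    have : Tendsto ψ atImInfty (𝓝 (∑ q : Q N, 0 * cf g q 0)) := by
      refine tendsto_finset_sum _ fun q _ => ?_
      exact (isZeroAtImInfty_tr s q).mul (cq_tendsto_cf g q)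
    simpa using this
  obtain ⟨Ψ, hΨ⟩ := dual_dim_levelOne ψ hol inv (hzero.isBigO_one ℝ)
  have hval : valInf Ψ = 0 := by
    have h1 := tendsto_valInf Ψ
    rw [hΨ] at h1
    exact tendsto_nhds_unique h1 hzero
  obtain ⟨a, ha⟩ := exists_eq_delta_mul Ψ hval
  refine ⟨a, fun z => ?_⟩
  rw [← ha z, hΨ]

end tools

variable {N : ℕ} [NeZero N] {ι : Type} [Fintype ι] [DecidableEq ι] (w : ι → ℕ)
  (g : ∀ i, ModularForm (G0 N) (w i))

theorem dual_dim_finrank (h : IsFreeBasis w g)
    (φ : ∀ i, CuspForm (G0 N) (12 - (w i : ℤ)))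
    (hφ : ∀ i i' z, ∑ q : Q N, tr (φ i) q z * tr (g i') q z =
        if i = i' then ModularForm.discriminant z else 0)
    (hw : ∀ i, w i ≤ 10) (k : ℤ) :
    Module.finrank ℂ (CuspForm (G0 N) k) = ∑ i, levelOneDim (k + w i - 12) := by
  classical
  -- the dual family as modular forms of natural-number weight
  set w' : ι → ℕ := fun i => 12 - w i with hw'
  have hcast : ∀ i, ((w' i : ℕ) : ℤ) = 12 - (w i : ℤ) := by
    intro i
    have := hw i
    simp only [hw']
    rw [Nat.cast_sub (by omega)]
    rfl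
  have hex : ∀ i, ∃ f : ModularForm (G0 N) (w' i), (f : ℍ → ℂ) = φ i := by
    intro i
    obtain ⟨f, hf⟩ := exists_modularForm_of_cuspForm (φ i)
    exact ⟨ModularForm.mcast (hcast i).symm f, hf⟩
  choose φ' hφ' using hex
  have htr : ∀ i q, tr (φ' i) q = tr (φ i) q := fun i q =>
    dual_dim_tr_congr (hcast i) (φ' i) (φ i) (hφ' i) q
  have hφ2 : ∀ i i' z, ∑ q : Q N, tr (φ' i) q z * tr (g i') q z =
      if i = i' then ModularForm.discriminant z else 0 := by
    intro i i' z
    rw [← hφ i i' z]
    refine Finset.sum_congr rfl fun q _ => ?_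
    rw [htr]
  -- independence of the dual family
  have hind : Indep w' φ' := by
    intro K c hc i'
    ext z
    have h0 : ∀ z', (0 : ModularForm (G0 N) K) z' = ∑ i, c i z' * φ' i z' := by
      intro z'
      rw [hc z']
      rfl
    have h1 : ∀ q : Q N, ∑ i, c i z * tr (φ' i) q z = 0 := by
      intro q
      rw [← tr_comb φ' c 0 h0 q z, dual_dim_tr_zero]
    have h2 : ∑ q : Q N, (∑ i, c i z * tr (φ' i) q z) * tr (g i') q z = 0 := by
      refine Finset.sum_eq_zero fun q _ => ?_
      rw [h1 q, zero_mul]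
    have h3 : ∑ q : Q N, (∑ i, c i z * tr (φ' i) q z) * tr (g i') q z
        = c i' z * ModularForm.discriminant z := by
      simp only [Finset.sum_mul]
      rw [Finset.sum_comm]
      have : ∀ i, ∑ q : Q N, c i z * tr (φ' i) q z * tr (g i') q z
          = c i z * (if i = i' then ModularForm.discriminant z else 0) := by
        intro i
        rw [← hφ2 i i' z, Finset.mul_sum]
        refine Finset.sum_congr rfl fun q _ => ?_
        ring
      rw [Finset.sum_congr rfl fun i _ => this i]
      simp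
    rw [h3] at h2
    rcases mul_eq_zero.mp h2 with h4 | h4
    · simpa using h4
    · exact absurd h4 (ModularForm.discriminant_ne_zero z)
  -- the two ranges agree
  have hrange : LinearMap.range (rle_comb w' φ' k) = LinearMap.range (basic_cuspIncl N k) := by
    ext f
    rw [LinearMap.mem_range, LinearMap.mem_range]
    constructor
    · rintro ⟨c, rfl⟩
      have hz : ∀ q : Q N, IsZeroAtImInfty (tr (rle_comb w' φ' k c) q) := by
        intro q
        have h2 : ∀ z, tr (rle_comb w' φ' k c) q z = ∑ i, c i z * tr (φ' i) q z :=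
          fun z => tr_comb φ' c _ (rle_comb_apply w' φ' k c) q z
        have h3 : Tendsto (fun z => ∑ i, c i z * tr (φ' i) q z) atImInfty
            (𝓝 (∑ i, valInf (c i) * 0)) := by
          refine tendsto_finset_sum _ fun i _ => ?_
          refine (tendsto_valInf (c i)).mul ?_
          rw [htr]
          exact isZeroAtImInfty_tr (φ i) q
        have h4 : (∑ i : ι, valInf (c i) * 0) = 0 := by simp
        rw [h4] at h3
        exact h3.congr fun z => (h2 z).symm
      obtain ⟨s, hs⟩ := exists_cuspForm_of_tr_zero _ hz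
      refine ⟨s, ?_⟩
      ext z
      exact congrFun hs z
    · rintro ⟨s, rfl⟩
      have hex : ∀ i, ∃ a : ModularForm 𝒮ℒ (k - w' i),
          ∀ z, ∑ q : Q N, tr s q z * tr (g i) q z = ModularForm.discriminant z * a z := by
        intro i
        obtain ⟨a, ha⟩ := dual_dim_pairing s (g i)
        have e : k + (w i : ℤ) - 12 = k - (w' i : ℤ) := by
          rw [hcast i]
          ring
        exact ⟨ModularForm.mcast e a, ha⟩
      choose a ha using hex
      refine ⟨a, ?_⟩
      ext z
      rw [rle_comb_apply]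
      show ∑ i, a i z * φ' i z = s z
      set D := ModularForm.discriminant z with hD
      have hD0 : D ≠ 0 := ModularForm.discriminant_ne_zero z
      let A : Matrix ι (Q N) ℂ := Matrix.of fun i q => D⁻¹ * tr (φ' i) q z
      let B : Matrix (Q N) ι ℂ := Matrix.of fun q i => tr (g i) q z
      have hAB : A * B = 1 := by
        ext i i'
        rw [Matrix.mul_apply, Matrix.one_apply]
        have : ∀ q, A i q * B q i' = D⁻¹ * (tr (φ' i) q z * tr (g i') q z) := by
          intro q
          simp only [A, B, Matrix.of_apply]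
          ring
        rw [Finset.sum_congr rfl fun q _ => this q, ← Finset.mul_sum, hφ2 i i' z]
        split_ifs
        · exact inv_mul_cancel₀ hD0
        · exact mul_zero _
      have hcard : Fintype.card ι = Fintype.card (Q N) := by
        rw [card_eq_of_free w g h, Nat.card_eq_fintype_card]
      have hBA : B * A = 1 := (Matrix.mul_eq_one_comm_of_equiv (Fintype.equivOfCardEq hcard)).mp hAB
      have h1 : ∀ i, a i z = D⁻¹ * ∑ q : Q N, tr s q z * tr (g i) q z := by
        intro i
        rw [ha i z, ← mul_assoc, inv_mul_cancel₀ hD0, one_mul]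
      have h2 : ∀ i, φ' i z = tr (φ' i) ((1 : SL(2, ℤ)) : Q N) z := by
        intro i
        rw [tr_one]
      have h3 : ∑ i, a i z * φ' i z
          = ∑ q : Q N, tr s q z * (B * A) q ((1 : SL(2, ℤ)) : Q N) := by
        simp only [Matrix.mul_apply, Finset.mul_sum]
        rw [Finset.sum_comm]
        refine Finset.sum_congr rfl fun i _ => ?_
        rw [h1 i, h2 i, Finset.mul_sum, Finset.sum_mul]
        refine Finset.sum_congr rfl fun q _ => ?_
        simp only [A, B, Matrix.of_apply]
        ring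
      rw [h3, hBA]
      simp only [Matrix.one_apply, mul_ite, mul_one, mul_zero]
      rw [Finset.sum_ite_eq' Finset.univ, if_pos (Finset.mem_univ _), tr_one]
  -- conclusion
  have e1 : Module.finrank ℂ (CuspForm (G0 N) k)
      = Module.finrank ℂ (LinearMap.range (basic_cuspIncl N k)) :=
    (LinearMap.finrank_range_of_inj (basic_cuspIncl_injective N k)).symm
  have e2 : Module.finrank ℂ (LinearMap.range (rle_comb w' φ' k))
      = Module.finrank ℂ (∀ i, ModularForm 𝒮ℒ (k - w' i)) :=
    LinearMap.finrank_range_of_inj (rle_comb_injective w' φ' hind k)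
  rw [e1, ← hrange, e2, rle_finrank_pi]
  refine Finset.sum_congr rfl fun i _ => ?_
  congr 1
  rw [hcast i]
  ring

end Fermat.Agent.S20
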