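import Mathlib

/-!
# S20 / Infinity, part 0: finite Fourier analysis for a permutation of finite order
(OWNER: helper1)

`α` a finite type, `σ : Equiv.Perm α` with `σ ^ N = 1`, `ζ = e^{2πi/N}`.  The `n`-th component of
`u : α → ℂ` is `fcomp σ N n u = (1/N) ∑_{m<N} ζ^{-nm} u ∘ σ^m` (`n : ℤ`); it is a `ζ^n`-eigenvector
of `u ↦ u ∘ σ`, and `u = ∑_{n<N} fcomp σ N n u`.
-/

set_option autoImplicit false

namespace Fermat.Agent.S20

open Finset

/-- `ζ_N = e^{2πi/N}`. -/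
noncomputable def zetaN (N : ℕ) : ℂ := Complex.exp (2 * Real.pi * Complex.I / N)

lemma zetaN_ne_zero (N : ℕ) : zetaN N ≠ 0 := Complex.exp_ne_zero _

lemma zetaN_isPrimitiveRoot {N : ℕ} (hN : N ≠ 0) : IsPrimitiveRoot (zetaN N) N :=
  Complex.isPrimitiveRoot_exp N hN

lemma zetaN_pow_N (N : ℕ) [NeZero N] : zetaN N ^ N = 1 :=
  (zetaN_isPrimitiveRoot (NeZero.ne N)).pow_eq_one

lemma zetaN_zpow_N_mul (N : ℕ) [NeZero N] (d : ℤ) : zetaN N ^ ((N : ℤ) * d) = 1 := by
  rw [zpow_mul, zpow_natCast, zetaN_pow_N, one_zpow]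

lemma norm_zetaN (N : ℕ) : ‖zetaN N‖ = 1 := by
  rw [zetaN, Complex.norm_exp]
  simp

lemma norm_zetaN_zpow (N : ℕ) (d : ℤ) : ‖zetaN N ^ d‖ = 1 := by
  rw [norm_zpow, norm_zetaN, one_zpow]

lemma zetaN_zpow_eq_one_iff {N : ℕ} [NeZero N] (d : ℤ) : zetaN N ^ d = 1 ↔ (N : ℤ) ∣ d :=
  (zetaN_isPrimitiveRoot (NeZero.ne N)).zpow_eq_one_iff_dvd d

/-- Orthogonality of characters of `ℤ/N`. -/
lemma sum_zetaN_zpow (N : ℕ) [NeZero N] (d : ℤ) :
    ∑ m ∈ range N, zetaN N ^ (d * m) = if (N : ℤ) ∣ d then (N : ℂ) else 0 := by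
  split_ifs with h
  · have : ∀ m ∈ range N, zetaN N ^ (d * m) = 1 := by
      intro m _
      obtain ⟨e, rfl⟩ := h
      rw [mul_assoc, zetaN_zpow_N_mul]
    rw [sum_congr rfl this]
    simp
  · have h1 : zetaN N ^ d ≠ 1 := fun h' => h ((zetaN_zpow_eq_one_iff d).mp h')
    have h2 : ∀ m ∈ range N, zetaN N ^ (d * m) = (zetaN N ^ d) ^ m := by
      intro m _
      rw [zpow_mul, zpow_natCast]
    rw [sum_congr rfl h2, geom_sum_eq h1]
    have : (zetaN N ^ d) ^ N = 1 := by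
      rw [← zpow_natCast, ← zpow_mul, mul_comm, zetaN_zpow_N_mul]
    rw [this, sub_self, zero_div]

end Fermat.Agent.S20

namespace Fermat.Agent.S20

open Finset

section fcomp

variable {α : Type*} [Fintype α] (σ : Equiv.Perm α) (N : ℕ)

/-- The `n`-th Fourier component of `u` with respect to `σ`. -/
noncomputable def fcomp (n : ℤ) (u : α → ℂ) (a : α) : ℂ :=
  (N : ℂ)⁻¹ * ∑ m ∈ range N, zetaN N ^ (-(n * m)) * u ((σ ^ m) a)

variable {σ N}

lemma fcomp_add (n : ℤ) (u v : α → ℂ) (a : α) :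
    fcomp σ N n (u + v) a = fcomp σ N n u a + fcomp σ N n v a := by
  simp only [fcomp, Pi.add_apply, mul_add, sum_add_distrib]

lemma fcomp_smul (n : ℤ) (c : ℂ) (u : α → ℂ) (a : α) :
    fcomp σ N n (c • u) a = c * fcomp σ N n u a := by
  simp only [fcomp, Pi.smul_apply, smul_eq_mul, mul_sum]
  refine sum_congr rfl fun m _ => ?_
  ring

lemma fcomp_zero (n : ℤ) (a : α) : fcomp σ N n (0 : α → ℂ) a = 0 := by
  simp [fcomp]

lemma fcomp_sum {ι : Type*} (s : Finset ι) (n : ℤ) (u : ι → α → ℂ) (a : α) :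
    fcomp σ N n (∑ i ∈ s, u i) a = ∑ i ∈ s, fcomp σ N n (u i) a := by
  classical
  induction s using Finset.induction_on with
  | empty => simp [fcomp_zero]
  | insert i s hi ih => rw [sum_insert hi, sum_insert hi, fcomp_add, ih]

variable [NeZero N]

/-- `fcomp n u` is a `ζ^n`-eigenvector of `u ↦ u ∘ σ`. -/
lemma fcomp_apply_perm (hσ : σ ^ N = 1) (n : ℤ) (u : α → ℂ) (a : α) :
    fcomp σ N n u (σ a) = zetaN N ^ n * fcomp σ N n u a := by
  simp only [fcomp]
  rw [mul_left_comm]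
  congr 1
  rw [mul_sum]
  set f : ℕ → ℂ := fun m => zetaN N ^ (-(n * (m : ℤ))) * u ((σ ^ m) a) with hf
  have key : ∀ m : ℕ, zetaN N ^ (-(n * m)) * u ((σ ^ m) (σ a)) = zetaN N ^ n * f (m + 1) := by
    intro m
    simp only [hf]
    rw [← mul_assoc, ← zpow_add₀ (zetaN_ne_zero N)]
    have e1 : n + -(n * ((m + 1 : ℕ) : ℤ)) = -(n * m) := by push_cast; ring
    have e2 : (σ ^ (m + 1)) a = (σ ^ m) (σ a) := by
      rw [pow_succ, Equiv.Perm.mul_apply]
    rw [e1, e2]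
  have hfN : f N = f 0 := by
    simp only [hf, hσ]
    have : zetaN N ^ (-(n * (N : ℤ))) = 1 := by
      rw [show -(n * (N : ℤ)) = (N : ℤ) * (-n) by ring, zetaN_zpow_N_mul]
    rw [this]
    simp
  have hshift : ∑ m ∈ range N, f (m + 1) = ∑ m ∈ range N, f m := by
    have h1 := sum_range_succ' f N
    have h2 := sum_range_succ f N
    rw [h1] at h2
    rw [hfN] at h2
    exact add_right_cancel h2
  calc ∑ m ∈ range N, zetaN N ^ (-(n * m)) * u ((σ ^ m) (σ a))
      = ∑ m ∈ range N, zetaN N ^ n * f (m + 1) := sum_congr rfl fun m _ => key m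
    _ = zetaN N ^ n * ∑ m ∈ range N, f (m + 1) := by rw [mul_sum]
    _ = zetaN N ^ n * ∑ m ∈ range N, f m := by rw [hshift]
    _ = ∑ m ∈ range N, zetaN N ^ n * (zetaN N ^ (-(n * m)) * u ((σ ^ m) a)) := by
        rw [mul_sum]

/-- Iterated form of the eigenvector property of a function. -/
lemma eigen_pow {u : α → ℂ} {n : ℤ} (hu : ∀ a, u (σ a) = zetaN N ^ n * u a) (m : ℕ) (a : α) :
    u ((σ ^ m) a) = zetaN N ^ (n * m) * u a := by
  induction m with
  | zero => simp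
  | succ m ih =>
    rw [pow_succ', Equiv.Perm.mul_apply, hu, ih, ← mul_assoc, ← zpow_add₀ (zetaN_ne_zero N)]
    congr 2
    push_cast; ring

/-- The components of an eigenvector. -/
lemma fcomp_of_eigen {u : α → ℂ} {n' : ℤ} (hu : ∀ a, u (σ a) = zetaN N ^ n' * u a) (n : ℤ)
    (a : α) : fcomp σ N n u a = if (N : ℤ) ∣ n' - n then u a else 0 := by
  have hN : (N : ℂ) ≠ 0 := Nat.cast_ne_zero.mpr (NeZero.ne N)
  simp only [fcomp]
  have : ∀ m ∈ range N, zetaN N ^ (-(n * m)) * u ((σ ^ m) a)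
      = zetaN N ^ ((n' - n) * m) * u a := by
    intro m _
    rw [eigen_pow hu, ← mul_assoc, ← zpow_add₀ (zetaN_ne_zero N)]
    congr 2
    ring
  rw [sum_congr rfl this, ← sum_mul, sum_zetaN_zpow]
  split_ifs with h
  · field_simp
  · simp

/-- Decomposition into components (with a sign `ε = ±1` for the indexing). -/
lemma sum_fcomp (ε : ℤ) (hε : ε = 1 ∨ ε = -1) (u : α → ℂ) (a : α) :
    ∑ n ∈ range N, fcomp σ N (ε * n) u a = u a := by
  have hN : (N : ℂ) ≠ 0 := Nat.cast_ne_zero.mpr (NeZero.ne N)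
  simp only [fcomp]
  rw [← mul_sum, sum_comm]
  have : ∀ m ∈ range N, ∑ n ∈ range N, zetaN N ^ (-(ε * n * m)) * u ((σ ^ m) a)
      = if m = 0 then (N : ℂ) * u a else 0 := by
    intro m hm
    rw [← sum_mul]
    have h1 : ∀ n ∈ range N, zetaN N ^ (-(ε * n * m)) = zetaN N ^ ((-(ε * m)) * n) := by
      intro n _
      congr 1
      ring
    rw [sum_congr rfl h1, sum_zetaN_zpow]
    have hm' : m < N := mem_range.mp hm
    by_cases h0 : m = 0
    · subst h0
      simp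
    · rw [if_neg h0, if_neg, zero_mul]
      intro hdvd
      have hdvd' : (N : ℤ) ∣ (m : ℤ) := by
        rcases hε with rfl | rfl
        · simpa using hdvd
        · simpa using hdvd
      have := Int.le_of_dvd (by exact_mod_cast Nat.pos_of_ne_zero h0) hdvd'
      omega
  rw [sum_congr rfl this, sum_ite_eq' (range N) 0]
  rw [if_pos (mem_range.mpr (Nat.pos_of_ne_zero (NeZero.ne N)))]
  field_simp

/-- Eigenvectors with different eigenvalues are orthogonal for the pairing `∑ r c`. -/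
lemma pairing_orth (hσ : σ ^ N = 1) {r c : α → ℂ} {n n' : ℤ}
    (hr : ∀ a, r (σ a) = zetaN N ^ n * r a) (hc : ∀ a, c (σ a) = zetaN N ^ (-n') * c a)
    (hnn : ¬ (N : ℤ) ∣ n - n') : ∑ a, r a * c a = 0 := by
  have h1 : ∑ a, r a * c a = ∑ a, r (σ a) * c (σ a) := (Equiv.sum_comp σ _).symm
  have h2 : ∑ a, r (σ a) * c (σ a) = zetaN N ^ (n - n') * ∑ a, r a * c a := by
    rw [mul_sum]
    refine sum_congr rfl fun a _ => ?_
    rw [hr, hc, sub_eq_add_neg, zpow_add₀ (zetaN_ne_zero N)]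
    ring
  have h3 : zetaN N ^ (n - n') ≠ 1 := fun h => hnn ((zetaN_zpow_eq_one_iff _).mp h)
  have h4 : (1 - zetaN N ^ (n - n')) * ∑ a, r a * c a = 0 := by
    rw [sub_mul, one_mul, ← h2, ← h1, sub_self]
  rcases mul_eq_zero.mp h4 with h | h
  · exact absurd (sub_eq_zero.mp h).symm h3
  · exact h

/-- Components do not increase the sup norm. -/
lemma norm_fcomp_le (n : ℤ) (u : α → ℂ) (M : ℝ) (hM : ∀ a, ‖u a‖ ≤ M) (a : α) :
    ‖fcomp σ N n u a‖ ≤ M := by
  have hN : (0 : ℝ) < N := Nat.cast_pos.mpr (Nat.pos_of_ne_zero (NeZero.ne N))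
  simp only [fcomp]
  rw [norm_mul, norm_inv, Complex.norm_natCast]
  rw [inv_mul_le_iff₀ hN]
  calc ‖∑ m ∈ range N, zetaN N ^ (-(n * m)) * u ((σ ^ m) a)‖
      ≤ ∑ m ∈ range N, ‖zetaN N ^ (-(n * m)) * u ((σ ^ m) a)‖ := norm_sum_le _ _
    _ ≤ ∑ m ∈ range N, M := by
        refine sum_le_sum fun m _ => ?_
        rw [norm_mul, norm_zetaN_zpow, one_mul]
        exact hM _
    _ = N * M := by simp

end fcomp

end Fermat.Agent.S20

namespace Fermat.Agent.S20

open Finset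

section twist

variable {α : Type*} [Fintype α] {σ : Equiv.Perm α} {N : ℕ} [NeZero N]

lemma not_dvd_sub_of_lt {N : ℕ} {n n' : ℕ} (hn : n < N) (hn' : n' < N) (h : n ≠ n') :
    ¬ (N : ℤ) ∣ (n : ℤ) - n' := by
  intro hd
  have h1 : |(n : ℤ) - n'| < N := by
    rw [abs_lt]; constructor <;> omega
  have h2 := Int.eq_zero_of_abs_lt_dvd hd h1
  omega

/-- The twisted row `b = ∑ e'_n R_n`. -/
noncomputable def twistRow (σ : Equiv.Perm α) (N : ℕ) (e' : ℕ → ℂ) (r : α → ℂ) (a : α) : ℂ :=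
  ∑ n ∈ range N, e' n * fcomp σ N n r a

/-- The twisted column `y = ∑ e_n X_n`. -/
noncomputable def twistCol (σ : Equiv.Perm α) (N : ℕ) (e : ℕ → ℂ) (x : α → ℂ) (a : α) : ℂ :=
  ∑ n ∈ range N, e n * fcomp σ N (-(n : ℤ)) x a

lemma pairing_comp (hσ : σ ^ N = 1) (r x : α → ℂ) {n n' : ℕ} (hn : n < N) (hn' : n' < N)
    (h : n ≠ n') : ∑ a, fcomp σ N n r a * fcomp σ N (-(n' : ℤ)) x a = 0 :=
  pairing_orth hσ (fun a => fcomp_apply_perm hσ n r a)
    (fun a => fcomp_apply_perm hσ (-(n' : ℤ)) x a) (not_dvd_sub_of_lt hn hn' h)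

/-- (G1) the pairing is unchanged by twisting rows by `e'` and columns by `e`. -/
lemma pairing_twist (hσ : σ ^ N = 1) (e e' : ℕ → ℂ) (hee : ∀ n < N, e n * e' n = 1)
    (r x : α → ℂ) :
    ∑ a, twistRow σ N e' r a * twistCol σ N e x a = ∑ a, r a * x a := by
  have hdiag : ∀ (c d : ℕ → ℂ),
      ∑ a, (∑ n ∈ range N, c n * fcomp σ N n r a) *
        (∑ n' ∈ range N, d n' * fcomp σ N (-(n' : ℤ)) x a)
      = ∑ n ∈ range N, c n * d n * ∑ a, fcomp σ N n r a * fcomp σ N (-(n : ℤ)) x a := by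
    intro c d
    simp_rw [sum_mul_sum]
    rw [sum_comm]
    refine sum_congr rfl fun n hn => ?_
    rw [sum_comm]
    rw [sum_eq_single n]
    · rw [mul_sum]
      refine sum_congr rfl fun a _ => ?_
      ring
    · intro n' hn' hne
      have := pairing_comp hσ r x (mem_range.mp hn) (mem_range.mp hn') (Ne.symm hne)
      calc ∑ a, c n * fcomp σ N n r a * (d n' * fcomp σ N (-(n' : ℤ)) x a)
          = c n * d n' * ∑ a, fcomp σ N n r a * fcomp σ N (-(n' : ℤ)) x a := by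
            rw [mul_sum]; refine sum_congr rfl fun a _ => ?_; ring
        _ = 0 := by rw [this, mul_zero]
    · intro h; exact absurd hn h
  have h1 := hdiag e' e
  have h2 := hdiag (fun _ => 1) (fun _ => 1)
  simp only [one_mul] at h2
  have hr : ∀ a, ∑ n ∈ range N, fcomp σ N n r a = r a := fun a => by
    have := sum_fcomp (σ := σ) (N := N) 1 (Or.inl rfl) r a
    simpa using this
  have hx : ∀ a, ∑ n ∈ range N, fcomp σ N (-(n : ℤ)) x a = x a := fun a => by
    have := sum_fcomp (σ := σ) (N := N) (-1) (Or.inr rfl) x a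
    simpa using this
  simp only [hr, hx] at h2
  unfold twistRow twistCol
  rw [h1, h2]
  refine sum_congr rfl fun n hn => ?_
  rw [mul_comm (e' n), hee n (mem_range.mp hn), one_mul]

/-- Components of the twisted column. -/
lemma fcomp_twistCol (hσ : σ ^ N = 1) (e : ℕ → ℂ) (x : α → ℂ) {n : ℕ} (hn : n < N) (a : α) :
    fcomp σ N (-(n : ℤ)) (twistCol σ N e x) a = e n * fcomp σ N (-(n : ℤ)) x a := by
  have h1 : twistCol σ N e x = ∑ n' ∈ range N, e n' • fcomp σ N (-(n' : ℤ)) x := by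
    funext a
    simp [twistCol, Finset.sum_apply]
  rw [h1, fcomp_sum]
  rw [sum_eq_single n]
  · rw [fcomp_smul]
    congr 1
    rw [fcomp_of_eigen (fun a => fcomp_apply_perm hσ (-(n : ℤ)) x a)]
    simp
  · intro n' hn' hne
    rw [fcomp_smul, fcomp_of_eigen (fun a => fcomp_apply_perm hσ (-(n' : ℤ)) x a)]
    rw [if_neg, mul_zero]
    have := not_dvd_sub_of_lt hn (mem_range.mp hn') (Ne.symm hne)
    intro hd
    apply this
    have e1 : (n : ℤ) - n' = -(n' : ℤ) - -(n : ℤ) := by ring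
    rw [e1]; exact hd
  · intro h; exact absurd (mem_range.mpr hn) h

/-- (G2) recovering `x` from the twisted column. -/
lemma eq_sum_fcomp_twistCol (hσ : σ ^ N = 1) (e e' : ℕ → ℂ) (hee : ∀ n < N, e n * e' n = 1)
    (x : α → ℂ) (a : α) :
    x a = ∑ n ∈ range N, e' n * fcomp σ N (-(n : ℤ)) (twistCol σ N e x) a := by
  have hx : ∑ n ∈ range N, fcomp σ N (-(n : ℤ)) x a = x a := by
    have := sum_fcomp (σ := σ) (N := N) (-1) (Or.inr rfl) x a
    simpa using this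
  rw [← hx]
  refine sum_congr rfl fun n hn => ?_
  rw [fcomp_twistCol hσ e x (mem_range.mp hn), ← mul_assoc, mul_comm (e' n),
    hee n (mem_range.mp hn), one_mul]

/-- (G2') the resulting bound. -/
lemma norm_le_of_twistCol (hσ : σ ^ N = 1) (e e' : ℕ → ℂ) (hee : ∀ n < N, e n * e' n = 1)
    (x : α → ℂ) (M : ℝ) (hM : ∀ a, ‖twistCol σ N e x a‖ ≤ M) (a : α) :
    ‖x a‖ ≤ (∑ n ∈ range N, ‖e' n‖) * M := by
  rw [eq_sum_fcomp_twistCol hσ e e' hee x a, sum_mul]
  refine (norm_sum_le _ _).trans (sum_le_sum fun n _ => ?_)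
  rw [norm_mul]
  exact mul_le_mul_of_nonneg_left (norm_fcomp_le _ _ M hM a) (norm_nonneg _)

end twist

end Fermat.Agent.S20
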