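import Mathlib
import Fermat.Agent.S20.InfFourier

/-!
# S20 / part (∞), analytic input: folding the `q_N`-expansion  (OWNER: helper1)

For an `N`-periodic holomorphic function `f` on `ℍ` which is bounded at `i∞`, and `n < N`,
`q_N^{-n} · (1/N) ∑_{m<N} ζ^{-nm} f(z + m) → a_n(f)` as `Im z → ∞`.
-/

set_option autoImplicit false

namespace Fermat.Agent.S20

open UpperHalfPlane Filter Function Finset
open scoped Topology Manifold

/-- Taylor quotient: `(F(w) - ∑_{k<n} c_k w^k) / w^n → c_n` as `w → 0`, `w ≠ 0`. -/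
lemma inf_taylor_tendsto {F : ℂ → ℂ} {c : ℕ → ℂ}
    (hF : HasFPowerSeriesAt F (FormalMultilinearSeries.ofScalars ℂ c) 0) (n : ℕ) :
    Tendsto (fun w => (F w - ∑ k ∈ range n, c k * w ^ k) / w ^ n) (𝓝[≠] 0) (𝓝 (c n)) := by
  have h := hF.isBigO_sub_partialSum_pow (n + 1)
  obtain ⟨C, hC⟩ := h.bound
  have h1 : (fun w => (F w - ∑ k ∈ range n, c k * w ^ k) / w ^ n - c n)
      =O[𝓝[≠] 0] (fun w : ℂ => ‖w‖) := by
    refine Asymptotics.IsBigO.of_bound C ?_
    have hC' := hC.filter_mono (nhdsWithin_le_nhds (s := {0}ᶜ))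
    filter_upwards [hC', self_mem_nhdsWithin] with w hw hw0
    have hw0' : w ≠ 0 := hw0
    have hwn : w ^ n ≠ 0 := pow_ne_zero _ hw0'
    have e1 : (F w - ∑ k ∈ range n, c k * w ^ k) / w ^ n - c n
        = (F (0 + w) - (FormalMultilinearSeries.ofScalars ℂ c).partialSum (n + 1) w) / w ^ n := by
      rw [FormalMultilinearSeries.partialSum, sum_range_succ]
      simp only [FormalMultilinearSeries.ofScalars_apply_eq, smul_eq_mul, zero_add]
      field_simp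
      ring
    rw [e1, norm_div, norm_pow, norm_norm]
    rw [div_le_iff₀ (pow_pos (norm_pos_iff.mpr hw0') n)]
    calc ‖F (0 + w) - (FormalMultilinearSeries.ofScalars ℂ c).partialSum (n + 1) w‖
        ≤ C * ‖‖w‖ ^ (n + 1)‖ := hw
      _ = C * ‖w‖ * ‖w‖ ^ n := by
        rw [norm_pow, norm_norm]; ring
  have h2 : Tendsto (fun w => (F w - ∑ k ∈ range n, c k * w ^ k) / w ^ n - c n) (𝓝[≠] 0)
      (𝓝 0) :=
    h1.trans_tendsto (tendsto_norm_zero.mono_left nhdsWithin_le_nhds)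
  exact tendsto_sub_nhds_zero_iff.mp h2

/-- The polynomial part is killed by the twisted average. -/
lemma inf_sum_poly_twist {N : ℕ} [NeZero N] {n : ℕ} (hn : n < N) (c : ℕ → ℂ) (w : ℂ) :
    ∑ m ∈ range N, zetaN N ^ (-((n : ℤ) * m)) * ∑ k ∈ range n, c k * (zetaN N ^ m * w) ^ k
      = 0 := by
  simp only [mul_sum]
  rw [sum_comm]
  refine sum_eq_zero fun k hk => ?_
  have hk' : k < n := mem_range.mp hk
  have h1 : ∀ m ∈ range N, zetaN N ^ (-((n : ℤ) * m)) * (c k * (zetaN N ^ m * w) ^ k)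
      = (c k * w ^ k) * zetaN N ^ (((k : ℤ) - n) * m) := by
    intro m _
    have : zetaN N ^ (((k : ℤ) - n) * m) = zetaN N ^ (-((n : ℤ) * m)) * (zetaN N ^ m) ^ k := by
      rw [← zpow_natCast (zetaN N) m, ← zpow_natCast (zetaN N ^ (m : ℤ)) k, ← zpow_mul,
        ← zpow_add₀ (zetaN_ne_zero N)]
      congr 1
      ring
    rw [this, mul_pow]
    ring
  rw [sum_congr rfl h1, ← mul_sum, sum_zetaN_zpow, if_neg, mul_zero]
  have := not_dvd_sub_of_lt (hk'.trans hn) hn hk'.ne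
  exact this

/-- `ζ^m q_N(z) → 0` within the punctured neighbourhood of `0` as `Im z → ∞`. -/
lemma inf_tendsto_zeta_mul_qParam {N : ℕ} [NeZero N] (m : ℕ) :
    Tendsto (fun z : ℍ => zetaN N ^ m * Function.Periodic.qParam (N : ℝ) (z : ℂ)) atImInfty
      (𝓝[≠] 0) := by
  have hN : (0 : ℝ) < N := Nat.cast_pos.mpr (Nat.pos_of_ne_zero (NeZero.ne N))
  refine tendsto_nhdsWithin_of_tendsto_nhds_of_eventually_within _ ?_
    (.of_forall fun z => mul_ne_zero (pow_ne_zero _ (zetaN_ne_zero N))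
      (Function.Periodic.qParam_ne_zero _))
  simpa using (qParam_tendsto_atImInfty hN).const_mul (zetaN N ^ m)

lemma inf_qParam_vadd {N : ℕ} [NeZero N] (m : ℕ) (z : ℍ) :
    Function.Periodic.qParam (N : ℝ) (((m : ℝ) +ᵥ z : ℍ) : ℂ)
      = zetaN N ^ m * Function.Periodic.qParam (N : ℝ) (z : ℂ) := by
  have hN : (N : ℂ) ≠ 0 := Nat.cast_ne_zero.mpr (NeZero.ne N)
  rw [zetaN, ← Complex.exp_nat_mul]
  simp only [Function.Periodic.qParam]
  rw [← Complex.exp_add]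
  congr 1
  rw [UpperHalfPlane.coe_vadd]
  push_cast
  field_simp

lemma inf_periodic_of_vadd {N : ℕ} (f : ℍ → ℂ) (hper : ∀ z : ℍ, f ((N : ℝ) +ᵥ z) = f z) :
    Function.Periodic (f ∘ ofComplex) (N : ℝ) := by
  intro w
  by_cases! hw : 0 < w.im
  · have : 0 < (w + (N : ℝ)).im := by simp [hw]
    simp only [comp_apply, ofComplex_apply_of_im_pos this, ofComplex_apply_of_im_pos hw]
    rw [← hper ⟨w, hw⟩]
    congr 1
    ext
    simp [add_comm]
  · have : (w + (N : ℝ)).im ≤ 0 := by simpa using hw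
    simp only [comp_apply]
    rw [ofComplex_apply_of_im_nonpos this, ofComplex_apply_of_im_nonpos hw]

/-- **Folding.** For `n < N`, `q_N^{-n} · (1/N) ∑_{m<N} ζ^{-nm} f(z + m) → a_n(f)`. -/
theorem inf_fold_tendsto {N : ℕ} [NeZero N] (f : ℍ → ℂ)
    (hper : ∀ z : ℍ, f ((N : ℝ) +ᵥ z) = f z) (hhol : MDifferentiable 𝓘(ℂ) 𝓘(ℂ) f)
    (hbdd : IsBoundedAtImInfty f) {n : ℕ} (hn : n < N) :
    Tendsto (fun z : ℍ => ((Function.Periodic.qParam (N : ℝ) (z : ℂ))⁻¹) ^ n *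
        ((N : ℂ)⁻¹ * ∑ m ∈ range N, zetaN N ^ (-((n : ℤ) * m)) * f ((m : ℝ) +ᵥ z)))
      atImInfty (𝓝 ((qExpansion (N : ℝ) f).coeff n)) := by
  have hN : (0 : ℝ) < N := Nat.cast_pos.mpr (Nat.pos_of_ne_zero (NeZero.ne N))
  have hNC : (N : ℂ) ≠ 0 := Nat.cast_ne_zero.mpr (NeZero.ne N)
  have hP := inf_periodic_of_vadd f hper
  set G := cuspFunction (N : ℝ) f with hG
  set c : ℕ → ℂ := fun k => (qExpansion (N : ℝ) f).coeff k with hc
  have hF : HasFPowerSeriesAt G (FormalMultilinearSeries.ofScalars ℂ c) 0 :=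
    (hasFPowerSeriesOnBall_cuspFunction hN (analyticAt_cuspFunction_zero hN hP hhol hbdd)
      (fun τ => hasSum_qExpansion hN hP hhol hbdd τ)).hasFPowerSeriesAt
  set D : ℂ → ℂ := fun w => (G w - ∑ k ∈ range n, c k * w ^ k) / w ^ n with hD
  have hlim : Tendsto (fun z : ℍ => (N : ℂ)⁻¹ * ∑ m ∈ range N,
      D (zetaN N ^ m * Function.Periodic.qParam (N : ℝ) (z : ℂ))) atImInfty (𝓝 (c n)) := by
    have h1 : ∀ m ∈ range N, Tendsto (fun z : ℍ =>
        D (zetaN N ^ m * Function.Periodic.qParam (N : ℝ) (z : ℂ))) atImInfty (𝓝 (c n)) :=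
      fun m _ => (inf_taylor_tendsto hF n).comp (inf_tendsto_zeta_mul_qParam m)
    have h2 := (tendsto_finset_sum (range N) h1).const_mul ((N : ℂ)⁻¹)
    have h3 : (N : ℂ)⁻¹ * ∑ _m ∈ range N, c n = c n := by
      rw [sum_const, card_range, nsmul_eq_mul, ← mul_assoc, inv_mul_cancel₀ hNC, one_mul]
    rw [h3] at h2
    exact h2
  refine hlim.congr fun z => ?_
  set w := Function.Periodic.qParam (N : ℝ) (z : ℂ) with hw
  have hw0 : w ≠ 0 := Function.Periodic.qParam_ne_zero _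
  have hf : ∀ m : ℕ, f ((m : ℝ) +ᵥ z) = G (zetaN N ^ m * w) := by
    intro m
    rw [hG, ← inf_qParam_vadd m z, eq_cuspFunction _ hN.ne' hP]
  have hDm : ∀ m ∈ range N, D (zetaN N ^ m * w)
      = (w⁻¹) ^ n * (zetaN N ^ (-((n : ℤ) * m)) * f ((m : ℝ) +ᵥ z))
        - (w⁻¹) ^ n * (zetaN N ^ (-((n : ℤ) * m)) *
            ∑ k ∈ range n, c k * (zetaN N ^ m * w) ^ k) := by
    intro m _
    have hz : zetaN N ^ (-((n : ℤ) * m)) = ((zetaN N ^ m) ^ n)⁻¹ := by
      rw [zpow_neg, ← zpow_natCast (zetaN N) m, ← zpow_natCast (zetaN N ^ (m : ℤ)) n, ← zpow_mul]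
      congr 2
      ring
    rw [hD, hf m, hz]
    simp only
    rw [mul_pow, inv_pow]
    have h1 : (zetaN N ^ m) ^ n ≠ 0 := pow_ne_zero _ (pow_ne_zero _ (zetaN_ne_zero N))
    have h2 : w ^ n ≠ 0 := pow_ne_zero _ hw0
    field_simp
  rw [sum_congr rfl hDm, sum_sub_distrib, ← mul_sum, ← mul_sum, inf_sum_poly_twist hn, mul_zero,
    sub_zero]
  ring

end Fermat.Agent.S20
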