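import Fermat.Agent.S20.LeadInv
import Fermat.Agent.S20.FreeExists
import Fermat.Agent.S20.InfAnalytic

/-!
# S20 / part (∞), linear algebra: the leading matrix `L`  (OWNER: helper1)

`σ q = T⁻¹ q`, `L i q = ∑_{n<N} cf (g i) q n`.  For a free basis `L` is a square invertible
matrix (`leadInv` + finite Fourier analysis + `card_eq_of_free`).
-/

set_option autoImplicit false

namespace Fermat.Agent.S20

open UpperHalfPlane ModularForm EisensteinSeries Filter Finset
open scoped MatrixGroups ModularForm Topology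

section sigma

variable (N : ℕ)

/-- The permutation `q ↦ T⁻¹ q` of the coset space. -/
noncomputable def infSigma : Equiv.Perm (Q N) :=
  MulAction.toPerm (ModularGroup.T⁻¹ : SL(2, ℤ))

variable {N}

lemma infSigma_apply (q : Q N) : infSigma N q = (ModularGroup.T⁻¹ : SL(2, ℤ)) • q := rfl

lemma infSigma_pow_apply (m : ℕ) (q : Q N) :
    (infSigma N ^ m) q = ((ModularGroup.T⁻¹ : SL(2, ℤ)) ^ m) • q := by
  induction m generalizing q with
  | zero => simp
  | succ m ih => rw [pow_succ, Equiv.Perm.mul_apply, ih, infSigma_apply, pow_succ, mul_smul]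

lemma infSigma_pow_N : infSigma N ^ N = 1 := by
  ext q
  rw [infSigma_pow_apply, inv_pow, inv_smul_eq_iff, Equiv.Perm.one_apply, T_pow_smul]

lemma inf_tr_sigma_pow {k : ℤ} (f : ModularForm (G0 N) k) (m : ℕ) (q : Q N) (z : ℍ) :
    tr f ((infSigma N ^ m) q) z = tr f q ((m : ℝ) +ᵥ z) := by
  induction m generalizing z with
  | zero => simp
  | succ m ih =>
    rw [pow_succ', Equiv.Perm.mul_apply, infSigma_apply, ← tr_vadd_one, ih, vadd_vadd]
    push_cast
    rfl

lemma inf_cf_sigma [NeZero N] {k : ℤ} (f : ModularForm (G0 N) k) (q : Q N) (n : ℕ) :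
    cf f (infSigma N q) n = zetaN N ^ (n : ℤ) * cf f q n := by
  rw [infSigma_apply, cf_T_inv_smul]
  congr 1
  rw [zetaN, zpow_natCast, ← Complex.exp_nat_mul]
  congr 1
  ring

end sigma

variable {N : ℕ} [NeZero N] {ι : Type} [Fintype ι] {w : ι → ℕ}
  (g : ∀ i, ModularForm (G0 N) (w i))

/-- The leading matrix at `i∞`. -/
noncomputable def infL (i : ι) (q : Q N) : ℂ := ∑ n ∈ range N, cf (g i) q n

/-- The `ζ^n`-component of the `i`-th row of `L` is `(cf (g i) q n)_q`. -/
lemma inf_fcomp_L (i : ι) {n : ℕ} (hn : n < N) (q : Q N) :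
    fcomp (infSigma N) N n (fun q' => infL g i q') q = cf (g i) q n := by
  have h1 : (fun q' => infL g i q') = ∑ n' ∈ range N, fun q' => cf (g i) q' n' := by
    funext q'
    simp [infL, Finset.sum_apply]
  rw [h1, fcomp_sum]
  rw [sum_eq_single n]
  · rw [fcomp_of_eigen (n' := (n : ℤ)) (fun a => inf_cf_sigma (g i) a n), if_pos (by simp)]
  · intro n' hn' hne
    rw [fcomp_of_eigen (n' := (n' : ℤ)) (fun a => inf_cf_sigma (g i) a n'), if_neg]
    exact not_dvd_sub_of_lt (mem_range.mp hn') hn hne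
  · intro h
    exact absurd (mem_range.mpr hn) h

lemma inf_fcomp_comb (v : ι → ℂ) {n : ℕ} (hn : n < N) (q : Q N) :
    fcomp (infSigma N) N n (fun q' => ∑ i, v i * infL g i q') q = ∑ i, v i * cf (g i) q n := by
  have h1 : (fun q' => ∑ i, v i * infL g i q') = ∑ i, v i • fun q' => infL g i q' := by
    funext q'
    simp [Finset.sum_apply]
  rw [h1, fcomp_sum]
  refine sum_congr rfl fun i _ => ?_
  rw [fcomp_smul, inf_fcomp_L g i hn]

variable (w)

/-- Left kernel of `L` is trivial. -/
lemma inf_leftKer (h : IsFreeBasis w g) (v : ι → ℂ)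
    (hv : ∀ q : Q N, ∑ i, v i * infL g i q = 0) : v = 0 := by
  refine leadInv w g h v fun q n hn => ?_
  rw [← inf_fcomp_comb g v hn q]
  have : (fun q' => ∑ i, v i * infL g i q') = (0 : Q N → ℂ) := funext hv
  rw [this, fcomp_zero]

/-- Every vector is a combination of the rows of `L`. -/
lemma inf_rows_span (h : IsFreeBasis w g) (u : Q N → ℂ) :
    ∃ v : ι → ℂ, ∀ q, ∑ i, v i * infL g i q = u q := by
  classical
  let Φ : (ι → ℂ) →ₗ[ℂ] (Q N → ℂ) :=
    { toFun := fun v q => ∑ i, v i * infL g i q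
      map_add' := by
        intro a b
        funext q
        simp [add_mul, sum_add_distrib]
      map_smul' := by
        intro c a
        funext q
        simp [mul_sum, mul_assoc] }
  have hinj : Function.Injective Φ := by
    rw [← LinearMap.ker_eq_bot, LinearMap.ker_eq_bot']
    intro v hv
    exact inf_leftKer w g h v fun q => congrFun hv q
  have hdim : Module.finrank ℂ (ι → ℂ) = Module.finrank ℂ (Q N → ℂ) := by
    rw [Module.finrank_fintype_fun_eq_card, Module.finrank_fintype_fun_eq_card,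
      card_eq_of_free w g h, Nat.card_eq_fintype_card]
  have hsurj : Function.Surjective Φ :=
    (LinearMap.injective_iff_surjective_of_finrank_eq_finrank hdim).mp hinj
  obtain ⟨v, hv⟩ := hsurj u
  exact ⟨v, fun q => congrFun hv q⟩

/-- Right kernel of `L` is trivial. -/
lemma inf_rightKer (h : IsFreeBasis w g) (y : Q N → ℂ)
    (hy : ∀ i, ∑ q, infL g i q * y q = 0) : y = 0 := by
  classical
  funext q₀
  obtain ⟨v, hv⟩ := inf_rows_span w g h (Pi.single q₀ 1)
  have h1 : ∑ q, (Pi.single q₀ (1 : ℂ) : Q N → ℂ) q * y q = y q₀ := by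
    rw [sum_eq_single q₀]
    · simp
    · intro b _ hb
      simp [Pi.single_apply, hb]
    · intro hq
      exact absurd (mem_univ q₀) hq
  rw [Pi.zero_apply, ← h1]
  have h2 : ∀ q, (Pi.single q₀ (1 : ℂ) : Q N → ℂ) q * y q = ∑ i, v i * (infL g i q * y q) := by
    intro q
    rw [← hv q, sum_mul]
    refine sum_congr rfl fun i _ => ?_
    ring
  rw [sum_congr rfl fun q _ => h2 q, sum_comm]
  refine sum_eq_zero fun i _ => ?_
  rw [← mul_sum, hy i, mul_zero]

/-- Quantitative injectivity of `L`. -/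
lemma inf_antilipschitz (h : IsFreeBasis w g) :
    ∃ K : ℝ, 0 < K ∧ ∀ (y : Q N → ℂ) (R : ℝ), 0 ≤ R →
      (∀ i, ‖∑ q, infL g i q * y q‖ ≤ R) → ∀ q, ‖y q‖ ≤ K * R := by
  classical
  let Λ : (Q N → ℂ) →ₗ[ℂ] (ι → ℂ) :=
    { toFun := fun y i => ∑ q, infL g i q * y q
      map_add' := by
        intro a b
        funext i
        simp [mul_add, sum_add_distrib]
      map_smul' := by
        intro c a
        funext i
        simp only [Pi.smul_apply, smul_eq_mul, RingHom.id_apply, mul_sum]
        refine sum_congr rfl fun q _ => ?_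
        ring }
  have hker : LinearMap.ker Λ = ⊥ := by
    rw [LinearMap.ker_eq_bot']
    intro y hy
    exact inf_rightKer w g h y fun i => congrFun hy i
  obtain ⟨K, hK0, hK⟩ := Λ.exists_antilipschitzWith hker
  refine ⟨K, by exact_mod_cast hK0, fun y R hR hy q => ?_⟩
  have h1 : ‖y‖ ≤ K * ‖Λ y‖ := hK.le_mul_norm (map_zero Λ) y
  have h2 : ‖Λ y‖ ≤ R := (pi_norm_le_iff_of_nonneg hR).mpr hy
  calc ‖y q‖ ≤ ‖y‖ := norm_le_pi_norm y q
    _ ≤ K * ‖Λ y‖ := h1
    _ ≤ K * R := mul_le_mul_of_nonneg_left h2 (by positivity)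

end Fermat.Agent.S20
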