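import Fermat.Agent.S20.LeadInv
import Fermat.Agent.S20.FreeExists
import Fermat.Agent.S20.InfLinear

/-!
# S20 / part (∞): behaviour of the matrix of translates at `i∞`  (OWNER: see `s20_modules`)

NOTATION.  `V = (Q N → ℂ)`, `P` = the operator `(P u)(q) = u(T⁻¹ q)` (so `F(z+1) = F(z) P` on row
vectors, by `tr_vadd_one`), `P^N = 1` (`T_pow_smul`), `ζ = e^{2πi/N}`,
`π_n = (1/N) ∑_{m<N} ζ^{-nm} P^m` (projector onto the `ζ^n`-eigenspace `V_n`),
`E(z) = ∑_{n<N} e^{2πinz/N} π_n`, `E(z)⁻¹ = ∑_{n<N} e^{-2πinz/N} π_n`.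
For each generator, `B_{iq}(z) := (F(z) E(z)⁻¹)_{iq} = ∑_{m<N} κ(z+m) F_{iq}(z+m)` with
`κ(z) = (1/N) ∑_{n<N} e^{-2πinz/N}`; in terms of `tr (g i) q = ∑_n a_n q_N^n` this is
`∑_n a_n q^{⌊n/N⌋}`, so `B(z) → L := (∑_{n<N} cf (g i) q n)_{iq}` as `Im z → ∞`, and
`B(z) - L = O(e^{-2π Im z})`.  The row `L_i` has `V_n`-component `(cf (g i) q n)_q`
(`cf_T_inv_smul`), so by `leadInv` and the independence of the eigenspaces the square matrix `L`
(`card_eq_of_free`) is invertible.

* DECAY: `F(z)⁻¹ = E(z)⁻¹ B(z)⁻¹`, `‖E(z)⁻¹‖ ≤ C e^{2π (N-1)/N · Im z}`, `Δ = O(e^{-2π Im z})`.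
* CONSTANT TERMS: `E(z) → π_0` and the constant-term vector of `∑ h_i g_i` is `v L π_0`, where
  `v_i = valInf h_i`; `L` invertible ⇒ `v ↦ v L π_0` is onto `V_0 = {T-invariant vectors}`.
  In coordinates `(v L π_0)_q = ∑_i v_i cf (g i) q 0`.

Statements FROZEN; prefix extra names with `inf_`.
-/

set_option autoImplicit false

namespace Fermat.Agent.S20

open UpperHalfPlane ModularForm EisensteinSeries Filter
open scoped MatrixGroups ModularForm Topology

section aux

variable {N : ℕ} [NeZero N] {ι : Type} [Fintype ι] {w : ι → ℕ}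
  (g : ∀ i, ModularForm (G0 N) (w i))

/-- The twisted matrix `B(z) = F(z) E(z)⁻¹`. -/
noncomputable def infB (z : ℍ) (i : ι) (q : Q N) : ℂ :=
  twistRow (infSigma N) N (fun n => ((Function.Periodic.qParam (N : ℝ) (z : ℂ))⁻¹) ^ n)
    (fun q' => tr (g i) q' z) q

lemma inf_tendsto_B (i : ι) (q : Q N) :
    Tendsto (fun z => infB g z i q) atImInfty (𝓝 (infL g i q)) := by
  unfold infB infL twistRow
  refine tendsto_finset_sum _ fun n hn => ?_
  have hn' : n < N := Finset.mem_range.mp hn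
  have := inf_fold_tendsto (tr (g i) q) (fun z => tr_vadd_N (g i) q z)
    (mdifferentiable_tr (g i) q) (isBoundedAtImInfty_tr (g i) q) hn'
  refine this.congr fun z => ?_
  congr 1
  unfold fcomp
  congr 1
  refine Finset.sum_congr rfl fun m _ => ?_
  show _ = _ * tr (g i) ((infSigma N ^ m) q) z
  rw [inf_tr_sigma_pow]

lemma inf_pairing (z : ℍ) (i : ι) (x : Q N → ℂ) :
    ∑ q, infB g z i q *
        twistCol (infSigma N) N (fun n => (Function.Periodic.qParam (N : ℝ) (z : ℂ)) ^ n) x q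
      = ∑ q, tr (g i) q z * x q := by
  unfold infB
  refine pairing_twist infSigma_pow_N _ _ (fun n _ => ?_) _ _
  rw [← mul_pow, mul_inv_cancel₀ (Function.Periodic.qParam_ne_zero _), one_pow]

end aux

variable {N : ℕ} [NeZero N] {ι : Type} [Fintype ι] [DecidableEq ι] (w : ι → ℕ)
  (g : ∀ i, ModularForm (G0 N) (w i))

/-- **Decay.** For a free basis, the solution `x(z)` of `F(z) x(z) = Δ(z) e_{i₀}` tends to `0`
at `i∞` (i.e. `Δ · F⁻¹ → 0`). -/
theorem decay (h : IsFreeBasis w g) (i₀ : ι) (x : ℍ → Q N → ℂ)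
    (hx : ∀ z i, ∑ q, tr (g i) q z * x z q = if i = i₀ then ModularForm.discriminant z else 0) :
    ∀ q, Tendsto (fun z => x z q) atImInfty (𝓝 0) := by
  classical
  intro q₀
  have hNpos : 0 < N := Nat.pos_of_ne_zero (NeZero.ne N)
  have hN : (0 : ℝ) < N := Nat.cast_pos.mpr hNpos
  obtain ⟨K, hK0, hK⟩ := inf_antilipschitz w g h
  -- the cardinality of the coset space
  set c : ℝ := (Fintype.card (Q N) : ℝ) with hc
  have hc0 : 0 < c := by
    have : 0 < Fintype.card (Q N) := Fintype.card_pos_iff.mpr ⟨((1 : SL(2, ℤ)) : Q N)⟩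
    rw [hc]
    exact_mod_cast this
  set ε : ℝ := 1 / (2 * K * c) with hε
  have hε0 : 0 < ε := by positivity
  -- eventually all entries of `B(z) - L` are small
  have hB : ∀ᶠ z in atImInfty, ∀ i q, ‖infB g z i q - infL g i q‖ ≤ ε := by
    rw [eventually_all]
    intro i
    rw [eventually_all]
    intro q
    have := (inf_tendsto_B g i q)
    rw [Metric.tendsto_nhds] at this
    filter_upwards [this ε hε0] with z hz
    rw [← dist_eq_norm]
    exact hz.le
  -- decay of `Δ`
  have hΔ : (CuspForm.discriminant : ℍ → ℂ) =O[atImInfty]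
      fun τ => Real.exp (-2 * Real.pi * τ.im / 1) :=
    CuspFormClass.exp_decay_atImInfty CuspForm.discriminant one_pos one_mem_strictPeriods_SL
  obtain ⟨C, hC⟩ := hΔ.bound
  have hr : Tendsto (fun z : ℍ => ‖Function.Periodic.qParam (N : ℝ) (z : ℂ)‖) atImInfty
      (𝓝 0) := by
    simpa using (qParam_tendsto_atImInfty hN).norm
  have hlim : Tendsto (fun z : ℍ =>
      (N : ℝ) * (2 * K) * |C| * ‖Function.Periodic.qParam (N : ℝ) (z : ℂ)‖) atImInfty (𝓝 0) := by
    simpa using hr.const_mul ((N : ℝ) * (2 * K) * |C|)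
  refine squeeze_zero_norm' ?_ hlim
  filter_upwards [hB, hC] with z hBz hCz
  set r : ℝ := ‖Function.Periodic.qParam (N : ℝ) (z : ℂ)‖ with hrdef
  have hr0 : 0 < r := norm_pos_iff.mpr (Function.Periodic.qParam_ne_zero _)
  have hr1 : r < 1 := Function.Periodic.norm_qParam_lt_one hN z.im_pos
  -- bound for `Δ`
  have hΔz : ‖ModularForm.discriminant z‖ ≤ |C| * r ^ N := by
    have h1 : ‖ModularForm.discriminant z‖ ≤ C * ‖Real.exp (-2 * Real.pi * z.im / 1)‖ := hCz
    have h2 : Real.exp (-2 * Real.pi * z.im / 1) = r ^ N := by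
      rw [hrdef, Function.Periodic.norm_qParam, ← Real.exp_nat_mul]
      congr 1
      rw [UpperHalfPlane.coe_im]
      field_simp
    rw [Real.norm_of_nonneg (Real.exp_pos _).le, h2] at h1
    exact h1.trans (mul_le_mul_of_nonneg_right (le_abs_self C) (pow_pos hr0 N).le)
  -- the twisted column
  set y : Q N → ℂ :=
    twistCol (infSigma N) N (fun n => (Function.Periodic.qParam (N : ℝ) (z : ℂ)) ^ n) (x z)
    with hy
  have hpair : ∀ i, ∑ q, infB g z i q * y q
      = if i = i₀ then ModularForm.discriminant z else 0 := by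
    intro i
    rw [hy, inf_pairing g z i (x z), hx z i]
  set D : ℝ := ‖ModularForm.discriminant z‖ with hD
  have hD0 : 0 ≤ D := norm_nonneg _
  have hY0 : 0 ≤ ‖y‖ := norm_nonneg _
  have hrow : ∀ i, ‖∑ q, infL g i q * y q‖ ≤ D + c * ε * ‖y‖ := by
    intro i
    have e1 : ∑ q, infL g i q * y q
        = ∑ q, infB g z i q * y q - ∑ q, (infB g z i q - infL g i q) * y q := by
      rw [← Finset.sum_sub_distrib]
      refine Finset.sum_congr rfl fun q _ => ?_
      ring
    rw [e1]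
    refine (norm_sub_le _ _).trans (add_le_add ?_ ?_)
    · rw [hpair i]
      split_ifs
      · exact le_rfl
      · simpa using hD0
    · refine (norm_sum_le _ _).trans ?_
      have : ∀ q ∈ (Finset.univ : Finset (Q N)), ‖(infB g z i q - infL g i q) * y q‖
          ≤ ε * ‖y‖ := by
        intro q _
        rw [norm_mul]
        exact mul_le_mul (hBz i q) (norm_le_pi_norm y q) (norm_nonneg _) hε0.le
      refine (Finset.sum_le_sum this).trans ?_
      rw [Finset.sum_const, Finset.card_univ, nsmul_eq_mul, hc]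
      exact le_of_eq (by ring)
  have hKy := hK y (D + c * ε * ‖y‖) (by positivity) hrow
  have hynorm : ‖y‖ ≤ K * (D + c * ε * ‖y‖) :=
    (pi_norm_le_iff_of_nonneg (by positivity)).mpr hKy
  have hKcε : K * (c * ε) = 1 / 2 := by
    rw [hε]
    field_simp
  have hy2 : ‖y‖ ≤ 2 * K * D := by
    have : K * (D + c * ε * ‖y‖) = K * D + (1 / 2) * ‖y‖ := by
      rw [mul_add, ← hKcε]
      ring
    rw [this] at hynorm
    linarith
  -- back to `x`
  have hxq := norm_le_of_twistCol (σ := infSigma N) (N := N) infSigma_pow_N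
    (fun n => (Function.Periodic.qParam (N : ℝ) (z : ℂ)) ^ n)
    (fun n => ((Function.Periodic.qParam (N : ℝ) (z : ℂ))⁻¹) ^ n)
    (fun n _ => by
      rw [← mul_pow, mul_inv_cancel₀ (Function.Periodic.qParam_ne_zero _), one_pow])
    (x z) (2 * K * D) (fun a => (norm_le_pi_norm y a).trans hy2) q₀
  have hsum : ∑ n ∈ Finset.range N, ‖((Function.Periodic.qParam (N : ℝ) (z : ℂ))⁻¹) ^ n‖
      ≤ N * (r⁻¹) ^ (N - 1) := by
    have : ∀ n ∈ Finset.range N, ‖((Function.Periodic.qParam (N : ℝ) (z : ℂ))⁻¹) ^ n‖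
        ≤ (r⁻¹) ^ (N - 1) := by
      intro n hn
      rw [norm_pow, norm_inv]
      refine pow_le_pow_right₀ ?_ ?_
      · exact (one_le_inv₀ hr0).mpr hr1.le
      · have := Finset.mem_range.mp hn
        omega
    refine (Finset.sum_le_sum this).trans ?_
    rw [Finset.sum_const, Finset.card_range, nsmul_eq_mul]
  have hrN : (r⁻¹) ^ (N - 1) * r ^ N = r := by
    have : r ^ N = r ^ (N - 1) * r := by
      rw [← pow_succ]
      congr 1
      omega
    rw [this, ← mul_assoc, ← mul_pow, inv_mul_cancel₀ hr0.ne', one_pow, one_mul]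
  calc ‖x z q₀‖
      ≤ (∑ n ∈ Finset.range N, ‖((Function.Periodic.qParam (N : ℝ) (z : ℂ))⁻¹) ^ n‖)
          * (2 * K * D) := hxq
    _ ≤ (N * (r⁻¹) ^ (N - 1)) * (2 * K * (|C| * r ^ N)) := by
        refine mul_le_mul hsum ?_ (by positivity) (by positivity)
        exact mul_le_mul_of_nonneg_left hΔz (by positivity)
    _ = (N : ℝ) * (2 * K) * |C| * ((r⁻¹) ^ (N - 1) * r ^ N) := by ring
    _ = (N : ℝ) * (2 * K) * |C| * r := by rw [hrN]

/-- **Constant terms.** For a free basis, every `T`-invariant vector is the vector of constant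
terms of a combination of the generators. -/
theorem constTerm_surj (h : IsFreeBasis w g) (u : Q N → ℂ)
    (hu : ∀ q, u (ModularGroup.T • q) = u q) :
    ∃ v : ι → ℂ, ∀ q, ∑ i, v i * cf (g i) q 0 = u q := by
  have hNpos : 0 < N := Nat.pos_of_ne_zero (NeZero.ne N)
  obtain ⟨v, hv⟩ := inf_rows_span w g h u
  refine ⟨v, fun q => ?_⟩
  have h1 := inf_fcomp_comb g v hNpos q
  have h2 : (fun q' => ∑ i, v i * infL g i q') = u := funext hv
  rw [h2] at h1
  have hu' : ∀ a, u (infSigma N a) = zetaN N ^ ((0 : ℕ) : ℤ) * u a := by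
    intro a
    rw [infSigma_apply]
    have := hu (ModularGroup.T⁻¹ • a)
    rw [smul_inv_smul] at this
    simp [← this]
  rw [fcomp_of_eigen hu', if_pos (by simp)] at h1
  exact h1.symm

end Fermat.Agent.S20
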