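import Fermat.Agent.S20.Basic
import Fermat.Agent.S20.LevelOne

/-!
# S20 / part (D∞): `q_N`-expansions of translates  (helper2)

Analytic preliminaries for `LeadInv.lean`: every translate `tr f q` has an expansion in
`q_N = e^{2πiz/N}`, with tail estimate `tr f q - ∑_{n<N} a_n q_N^n = O(e^{-2π Im z})`.
-/

set_option autoImplicit false

namespace Fermat.Agent.S20

open UpperHalfPlane ModularForm Filter Function Asymptotics
open scoped MatrixGroups ModularForm Topology Manifold Real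

local notation "𝕢" => Periodic.qParam

variable {N : ℕ} [NeZero N] {k : ℤ}

theorem linv_N_pos : (0 : ℝ) < (N : ℝ) := Nat.cast_pos.mpr (NeZero.pos N)

omit [NeZero N] in
/-- The translates are `N`-periodic, as functions on `ℂ`. -/
theorem linv_periodic (f : ModularForm (G0 N) k) (q : Q N) :
    Periodic (tr f q ∘ ofComplex) ((N : ℝ) : ℂ) := by
  intro w
  by_cases hw : 0 < w.im
  · have hw' : 0 < (w + ((N : ℝ) : ℂ)).im := by simpa using hw
    simp only [comp_apply, ofComplex_apply_of_im_pos hw', ofComplex_apply_of_im_pos hw]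
    have := tr_vadd_N f q ⟨w, hw⟩
    convert this using 2
    ext
    simp [add_comm]
  · have hw0 : w.im ≤ 0 := not_lt.mp hw
    have hw' : (w + ((N : ℝ) : ℂ)).im ≤ 0 := by simpa using hw0
    rw [comp_apply, comp_apply, ofComplex_apply_eq_of_im_nonpos hw' hw0]

theorem linv_analyticAt (f : ModularForm (G0 N) k) (q : Q N) :
    AnalyticAt ℂ (cuspFunction (N : ℝ) (tr f q)) 0 :=
  analyticAt_cuspFunction_zero linv_N_pos (linv_periodic f q) (mdifferentiable_tr f q)
    (isBoundedAtImInfty_tr f q)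

/-- The `q_N`-expansion of a translate. -/
theorem linv_hasSum (f : ModularForm (G0 N) k) (q : Q N) (τ : ℍ) :
    HasSum (fun m : ℕ => (qExpansion (N : ℝ) (tr f q)).coeff m • 𝕢 (N : ℝ) τ ^ m) (tr f q τ) :=
  hasSum_qExpansion linv_N_pos (linv_periodic f q) (mdifferentiable_tr f q)
    (isBoundedAtImInfty_tr f q) τ

theorem linv_norm_qParam_pow (τ : ℍ) :
    ‖𝕢 (N : ℝ) (τ : ℂ)‖ ^ N = Real.exp (-2 * π * τ.im) := by
  have h1 : ‖𝕢 (N : ℝ) (τ : ℂ)‖ = Real.exp (-2 * π * τ.im / N) := by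
    rw [Periodic.norm_qParam, coe_im]
  have hN : (N : ℝ) ≠ 0 := (linv_N_pos (N := N)).ne'
  rw [h1, ← Real.exp_nat_mul]
  congr 1
  field_simp

/-- The power series of the cusp function of a translate. -/
theorem linv_hasFPowerSeriesAt (f : ModularForm (G0 N) k) (q : Q N) :
    HasFPowerSeriesAt (cuspFunction (N : ℝ) (tr f q))
      (FormalMultilinearSeries.ofScalars ℂ fun m => (qExpansion (N : ℝ) (tr f q)).coeff m) 0 :=
  (hasFPowerSeriesOnBall_cuspFunction linv_N_pos (linv_analyticAt f q)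
    (linv_hasSum f q)).hasFPowerSeriesAt

/-- Uniqueness of the coefficients of the `q_N`-expansion of a translate. -/
theorem linv_coeff_unique (f : ModularForm (G0 N) k) (q : Q N) (c : ℕ → ℂ)
    (hc : ∀ τ : ℍ, HasSum (fun m : ℕ => c m • 𝕢 (N : ℝ) τ ^ m) (tr f q τ)) (m : ℕ) :
    c m = (qExpansion (N : ℝ) (tr f q)).coeff m := by
  have h1 : HasFPowerSeriesAt (cuspFunction (N : ℝ) (tr f q))
      (FormalMultilinearSeries.ofScalars ℂ c) 0 :=
    (hasFPowerSeriesOnBall_cuspFunction linv_N_pos (linv_analyticAt f q) hc).hasFPowerSeriesAt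
  have h2 := linv_hasFPowerSeriesAt f q
  have := congrArg (fun p : FormalMultilinearSeries ℂ ℂ ℂ => p.coeff m)
    (h1.eq_formalMultilinearSeries h2)
  simpa [FormalMultilinearSeries.coeff_ofScalars] using this

/-- Tail estimate for the `q_N`-expansion of a translate. -/
theorem linv_tail (f : ModularForm (G0 N) k) (q : Q N) :
    (fun τ : ℍ => tr f q τ -
        ∑ n ∈ Finset.range N, (qExpansion (N : ℝ) (tr f q)).coeff n * 𝕢 (N : ℝ) τ ^ n)
      =O[atImInfty] fun τ : ℍ => Real.exp (-2 * π * τ.im) := by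
  have hps := linv_hasFPowerSeriesAt f q
  have hO : (fun y : ℂ => cuspFunction (N : ℝ) (tr f q) (0 + y) -
      (FormalMultilinearSeries.ofScalars ℂ
        fun m => (qExpansion (N : ℝ) (tr f q)).coeff m).partialSum N y)
      =O[𝓝 0] fun y => ‖y‖ ^ N := hps.isBigO_sub_partialSum_pow N
  have hq : Tendsto (fun τ : ℍ => 𝕢 (N : ℝ) (τ : ℂ)) atImInfty (𝓝 0) :=
    qParam_tendsto_atImInfty linv_N_pos
  have hO' : (fun τ : ℍ => cuspFunction (N : ℝ) (tr f q) (0 + 𝕢 (N : ℝ) (τ : ℂ)) -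
      (FormalMultilinearSeries.ofScalars ℂ
        fun m => (qExpansion (N : ℝ) (tr f q)).coeff m).partialSum N (𝕢 (N : ℝ) (τ : ℂ)))
      =O[atImInfty] fun τ : ℍ => ‖𝕢 (N : ℝ) (τ : ℂ)‖ ^ N := hO.comp_tendsto hq
  have e1 : ∀ τ : ℍ, cuspFunction (N : ℝ) (tr f q) (0 + 𝕢 (N : ℝ) (τ : ℂ)) -
      (FormalMultilinearSeries.ofScalars ℂ
        fun m => (qExpansion (N : ℝ) (tr f q)).coeff m).partialSum N (𝕢 (N : ℝ) (τ : ℂ)) =
      tr f q τ -
        ∑ n ∈ Finset.range N, (qExpansion (N : ℝ) (tr f q)).coeff n * 𝕢 (N : ℝ) τ ^ n := by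
    intro τ
    rw [zero_add, eq_cuspFunction τ linv_N_pos.ne' (linv_periodic f q)]
    congr 1
    rw [FormalMultilinearSeries.partialSum]
    refine Finset.sum_congr rfl fun n _ => ?_
    rw [FormalMultilinearSeries.ofScalars_apply_eq, smul_eq_mul]
  have e2 : ∀ τ : ℍ, ‖𝕢 (N : ℝ) (τ : ℂ)‖ ^ N = Real.exp (-2 * π * τ.im) :=
    fun τ => linv_norm_qParam_pow τ
  exact hO'.congr e1 e2

/-- Level-one forms are `valInf + O(e^{-2π Im z})`. -/
theorem linv_levelOne_decay {k : ℤ} (c : ModularForm 𝒮ℒ k) :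
    (fun τ : ℍ => c τ - valInf c) =O[atImInfty] fun τ : ℍ => Real.exp (-2 * π * τ.im) := by
  have := exp_decay_sub_atImInfty (f := ⇑c) (h := 1) one_pos
    (SlashInvariantFormClass.periodic_comp_ofComplex c one_mem_strictPeriods_SL)
    (ModularFormClass.holo c) (ModularFormClass.bdd_at_infty c)
  simpa [valInf] using this

end Fermat.Agent.S20
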