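import Fermat.Agent.S20.Div
import Fermat.Agent.S20.FreeDim
import Fermat.Agent.S20.LeadInvAux

/-!
# S20 / part (D∞): the leading matrix at `i∞` is invertible  (OWNER: helper2)

Every translate `tr f q` is `N`-periodic (`tr_vadd_N`), holomorphic and bounded at `i∞`, so it has
a `q`-expansion in `q_N = e^{2πiz/N}`; `cf f q n` is its `n`-th coefficient.

Δ-TRICK.  Assume `∑_i v_i cf (g i) q n = 0` for all `q` and all `n < N`.  Pick level-one `h_i` of
weight `K - w_i` with `valInf (h_i) = v_i` (`exists_form_valInf`, `K` even, `K ≥ max w_i + 4`) and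
put `G = ∑ h_i g_i` (`exists_comb`).  The period-`N` expansion of `h_i` is `v_i + O(q_N^N)`, so the
coefficients of index `< N` of `tr G q = ∑ h_i · tr (g i) q` are `∑ v_i cf (g i) q n = 0`; hence
`tr G q = O(q_N^N) = O(e^{-2π Im z}) = O(Δ)` (`exp_isBigO_discriminant`), `G = Δ G'`
(`division_delta`), `G' = ∑ h_i' g_i` (`Gen`), `h_i = Δ h_i'` (`Indep`), `v_i = valInf h_i = 0`.

Statements FROZEN; prefix extra names with `linv_`.
-/

set_option autoImplicit false

namespace Fermat.Agent.S20

open UpperHalfPlane ModularForm EisensteinSeries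
open scoped MatrixGroups ModularForm

/-- The `n`-th coefficient of the expansion of the translate `tr f q` in `q_N = e^{2πiz/N}`. -/
noncomputable def cf {N : ℕ} {k : ℤ} (f : ModularForm (G0 N) k) (q : Q N) (n : ℕ) : ℂ :=
  (qExpansion (N : ℝ) (tr f q)).coeff n

/-- `T`-equivariance of the coefficients: `cf f (T⁻¹ q) n = ζ_N^n · cf f q n`. -/
theorem cf_T_inv_smul {N : ℕ} [NeZero N] {k : ℤ} (f : ModularForm (G0 N) k) (q : Q N) (n : ℕ) :
    cf f (ModularGroup.T⁻¹ • q) n =
      Complex.exp (2 * Real.pi * Complex.I * n / N) * cf f q n := by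
  refine (linv_coeff_unique f (ModularGroup.T⁻¹ • q)
    (fun m => Complex.exp (2 * Real.pi * Complex.I * m / N) * cf f q m) ?_ n).symm
  intro τ
  have h1 := linv_hasSum f q ((1 : ℝ) +ᵥ τ)
  rw [tr_vadd_one] at h1
  convert h1 using 1
  funext m
  have hN : (N : ℂ) ≠ 0 := Nat.cast_ne_zero.mpr (NeZero.ne N)
  have hq : Function.Periodic.qParam (N : ℝ) (((1 : ℝ) +ᵥ τ : ℍ) : ℂ) =
      Complex.exp (2 * Real.pi * Complex.I / N) * Function.Periodic.qParam (N : ℝ) (τ : ℂ) := by
    simp only [Function.Periodic.qParam, ← Complex.exp_add, UpperHalfPlane.coe_vadd]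
    congr 1
    push_cast
    field_simp
  rw [hq, mul_pow, ← Complex.exp_nat_mul, cf, smul_eq_mul, smul_eq_mul]
  have : (m : ℂ) * (2 * Real.pi * Complex.I / N) = 2 * Real.pi * Complex.I * m / N := by ring
  rw [this]
  ring

/-- `Δ` as a modular form of level one. -/
noncomputable def linvDelta : ModularForm 𝒮ℒ 12 := ModularFormClass.modularForm CuspForm.discriminant

theorem linvDelta_apply (z : ℍ) : linvDelta z = ModularForm.discriminant z := rfl

/-- The value at `i∞` of a level-one form is determined by any limit. -/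
theorem linv_valInf_eq {k : ℤ} (c : ModularForm 𝒮ℒ k) {a : ℂ}
    (h : Filter.Tendsto c atImInfty (nhds a)) : valInf c = a :=
  tendsto_nhds_unique (tendsto_valInf c) h

/-- The key estimate of the `Δ`-trick. -/
theorem linv_isBigO {N : ℕ} [NeZero N] {ι : Type} [Fintype ι] (w : ι → ℕ)
    (g : ∀ i, ModularForm (G0 N) (w i)) (v : ι → ℂ)
    (hv : ∀ q : Q N, ∀ n < N, ∑ i, v i * cf (g i) q n = 0)
    (K : ℤ) (e : ∀ i, ModularForm 𝒮ℒ (K - w i)) (he : ∀ i, valInf (e i) = 1) (q : Q N) :
    (fun τ : ℍ => ∑ i, (v i * e i τ) * tr (g i) q τ)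
      =O[atImInfty] fun τ : ℍ => Real.exp (-2 * Real.pi * τ.im) := by
  have key : ∀ τ : ℍ, ∑ i, (v i * e i τ) * tr (g i) q τ =
      ∑ i, (v i * (tr (g i) q τ - ∑ n ∈ Finset.range N,
          (qExpansion (N : ℝ) (tr (g i) q)).coeff n * Function.Periodic.qParam (N : ℝ) τ ^ n)
        + v i * ((e i τ - valInf (e i)) * tr (g i) q τ)) := by
    intro τ
    have h0 : ∑ i, v i * ∑ n ∈ Finset.range N,
        (qExpansion (N : ℝ) (tr (g i) q)).coeff n * Function.Periodic.qParam (N : ℝ) τ ^ n = 0 := by
      simp_rw [Finset.mul_sum]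
      rw [Finset.sum_comm]
      refine Finset.sum_eq_zero fun n hn => ?_
      have := hv q n (Finset.mem_range.mp hn)
      simp only [cf] at this
      calc ∑ i, v i * ((qExpansion (N : ℝ) (tr (g i) q)).coeff n *
            Function.Periodic.qParam (N : ℝ) τ ^ n)
          = (∑ i, v i * (qExpansion (N : ℝ) (tr (g i) q)).coeff n) *
            Function.Periodic.qParam (N : ℝ) τ ^ n := by
            rw [Finset.sum_mul]
            refine Finset.sum_congr rfl fun i _ => by ring
        _ = 0 := by rw [this, zero_mul]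
    have h1 : ∑ i, (v i * (tr (g i) q τ - ∑ n ∈ Finset.range N,
          (qExpansion (N : ℝ) (tr (g i) q)).coeff n * Function.Periodic.qParam (N : ℝ) τ ^ n)
        + v i * ((e i τ - valInf (e i)) * tr (g i) q τ)) =
        ∑ i, (v i * e i τ) * tr (g i) q τ - ∑ i, v i * ∑ n ∈ Finset.range N,
        (qExpansion (N : ℝ) (tr (g i) q)).coeff n * Function.Periodic.qParam (N : ℝ) τ ^ n := by
      rw [← Finset.sum_sub_distrib]
      refine Finset.sum_congr rfl fun i _ => ?_
      rw [he i]
      ring
    rw [h1, h0, sub_zero]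
  let A : ι → ℍ → ℂ := fun i τ => v i * (tr (g i) q τ - ∑ n ∈ Finset.range N,
          (qExpansion (N : ℝ) (tr (g i) q)).coeff n * Function.Periodic.qParam (N : ℝ) τ ^ n)
        + v i * ((e i τ - valInf (e i)) * tr (g i) q τ)
  have hA : ∀ i, A i =O[atImInfty] fun τ : ℍ => Real.exp (-2 * Real.pi * τ.im) := by
    intro i
    have hA1 : (fun τ : ℍ => v i * (tr (g i) q τ - ∑ n ∈ Finset.range N,
          (qExpansion (N : ℝ) (tr (g i) q)).coeff n * Function.Periodic.qParam (N : ℝ) τ ^ n))
        =O[atImInfty] fun τ : ℍ => Real.exp (-2 * Real.pi * τ.im) :=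
      (linv_tail (g i) q).const_mul_left (v i)
    have hA2 : (fun τ : ℍ => v i * ((e i τ - valInf (e i)) * tr (g i) q τ))
        =O[atImInfty] fun τ : ℍ => Real.exp (-2 * Real.pi * τ.im) := by
      refine Asymptotics.IsBigO.const_mul_left ?_ (v i)
      have h1 := linv_levelOne_decay (e i)
      have h2 : (tr (g i) q) =O[atImInfty] (1 : ℍ → ℝ) := isBoundedAtImInfty_tr (g i) q
      have := h1.mul h2
      simpa using this
    exact hA1.add hA2
  have hO : (∑ i, A i)
      =O[atImInfty] fun τ : ℍ => Real.exp (-2 * Real.pi * τ.im) :=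
    Asymptotics.IsBigO.sum (fun i _ => hA i)
  refine hO.congr_left (fun τ => ?_)
  rw [Finset.sum_apply]
  exact (key τ).symm

/-- **Leading matrix.** For a free basis, the vectors of coefficients of index `< N` of the
generators are linearly independent. -/
theorem leadInv {N : ℕ} [NeZero N] {ι : Type} [Fintype ι] (w : ι → ℕ)
    (g : ∀ i, ModularForm (G0 N) (w i)) (h : IsFreeBasis w g) (v : ι → ℂ)
    (hv : ∀ q : Q N, ∀ n < N, ∑ i, v i * cf (g i) q n = 0) : v = 0 := by
  classical
  have hev : ∀ i, Even (w i) := weight_even w g h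
  obtain ⟨hgen, hind⟩ := h
  -- choose the weight `K`
  set K : ℕ := 2 * (∑ i, w i) + 4 with hK
  have hwK : ∀ i, w i + 4 ≤ K := fun i => by
    have : w i ≤ ∑ j, w j :=
      Finset.single_le_sum (f := w) (fun _ _ => Nat.zero_le _) (Finset.mem_univ i)
    omega
  -- level-one forms `e i` of weight `K - w i` with value `1` at `i∞`
  have hex : ∀ i, ∃ e : ModularForm 𝒮ℒ ((K : ℤ) - w i), valInf e = 1 := by
    intro i
    have hKw : Even (K - w i) := by
      have h1 : Even K := by rw [hK]; exact ⟨∑ i, w i + 2, by ring⟩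
      exact (Nat.even_sub (by have := hwK i; omega)).mpr ⟨fun _ => hev i, fun _ => h1⟩
    obtain ⟨e, he⟩ := exists_form_valInf (K - w i) hKw (by have := hwK i; omega)
    have hcast : ((K - w i : ℕ) : ℤ) = (K : ℤ) - w i := by
      have := hwK i
      push_cast [Nat.cast_sub (show w i ≤ K by omega)]
      ring
    exact ⟨ModularForm.mcast hcast e, he⟩
  choose e he using hex
  let c : ∀ i, ModularForm 𝒮ℒ ((K : ℤ) - w i) := fun i => v i • e i
  have hc : ∀ i z, c i z = v i * e i z := fun i z => rfl
  obtain ⟨G, hG⟩ := exists_comb (k := (K : ℤ)) g c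
  -- all translates of `G` are `O(Δ)`
  have hbdd : ∀ q : Q N,
      IsBoundedAtImInfty (fun z => tr G q z / ModularForm.discriminant z) := by
    intro q
    have h1 : (fun τ : ℍ => tr G q τ) =O[atImInfty]
        fun τ : ℍ => Real.exp (-2 * Real.pi * τ.im) := by
      refine (linv_isBigO w g v hv (K : ℤ) e he q).congr_left fun τ => ?_
      rw [tr_comb g c G hG q τ]
      rfl
    have h2 := h1.trans exp_isBigO_discriminant
    obtain ⟨C, hC⟩ := h2.bound
    refine Asymptotics.IsBigO.of_bound C ?_
    filter_upwards [hC] with τ hτ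
    have hΔ : 0 < ‖ModularForm.discriminant τ‖ :=
      norm_pos_iff.mpr (ModularForm.discriminant_ne_zero τ)
    rw [norm_div, div_le_iff₀ hΔ]
    simpa using hτ
  obtain ⟨G', hG'⟩ := division_delta N (K : ℤ) G hbdd
  obtain ⟨c', hc'⟩ := hgen ((K : ℤ) - 12) G'
  -- the relation `∑ (c i - Δ c' i) g i = 0`
  let d : ∀ i, ModularForm 𝒮ℒ ((K : ℤ) - w i) := fun i =>
    c i - ModularForm.mcast (by ring) (linvDelta.mul (c' i))
  have hd : ∀ i z, d i z = c i z - ModularForm.discriminant z * c' i z := fun i z => rfl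
  have hrel : ∀ z : ℍ, ∑ i, d i z * g i z = 0 := by
    intro z
    have h1 : ∑ i, d i z * g i z =
        ∑ i, c i z * g i z - ModularForm.discriminant z * ∑ i, c' i z * g i z := by
      rw [Finset.mul_sum, ← Finset.sum_sub_distrib]
      refine Finset.sum_congr rfl fun i _ => ?_
      rw [hd]; ring
    rw [h1, ← hG, ← hc', ← hG', sub_self]
  have hd0 := hind (K : ℤ) d hrel
  funext i
  have hci : ∀ z, c i z = ModularForm.discriminant z * c' i z := by
    intro z
    have := congrArg (fun F : ModularForm 𝒮ℒ ((K : ℤ) - w i) => F z) (hd0 i)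
    simp only [hd] at this
    exact sub_eq_zero.mp this
  have t1 : Filter.Tendsto (c i) atImInfty (nhds (v i)) := by
    have := (tendsto_valInf (e i)).const_mul (v i)
    rw [he i, mul_one] at this
    exact this.congr fun z => (hc i z).symm
  have t2 : Filter.Tendsto (c i) atImInfty (nhds 0) := by
    have hΔ : Filter.Tendsto ModularForm.discriminant atImInfty (nhds 0) :=
      ModularForm.discriminant_isZeroAtImInfty
    have := hΔ.mul (tendsto_valInf (c' i))
    rw [zero_mul] at this
    exact this.congr fun z => (hci z).symm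
  exact tendsto_nhds_unique t1 t2

end Fermat.Agent.S20
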