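import Fermat.Agent.S20.Regular

/-!
# S20 / part (C2): graded Nakayama  (OWNER: see `s20_modules`)

`InI f` says that `f ∈ E₄ M + E₆ M`.  A finite family `g` is
* `Minimal` if in each weight the classes of the `g_i` of that weight are linearly independent
  modulo `E₄ M + E₆ M`;
* `Spanning` if in each weight they span `M_k` modulo `E₄ M + E₆ M`.

`Minimal ⇒ Indep` (induction on the weight of a relation, using `regular_seq` and
`exists_E4_E6_decomp`), `Spanning ⇒ Gen` (induction on the weight, negative weights are zero).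

Statements FROZEN; prefix extra names with `nak_`.
-/

set_option autoImplicit false

namespace Fermat.Agent.S20

open UpperHalfPlane ModularForm EisensteinSeries
open scoped MatrixGroups ModularForm

/-- `f ∈ E₄ M_{k-4}(Γ₀(N)) + E₆ M_{k-6}(Γ₀(N))`. -/
def InI {N : ℕ} {k : ℤ} (f : ModularForm (G0 N) k) : Prop :=
  ∃ (a : ModularForm (G0 N) (k - 4)) (b : ModularForm (G0 N) (k - 6)),
    ∀ z, f z = E₄ z * a z + E₆ z * b z

/-- In each weight `k`, the `g_i` of weight `k` are linearly independent modulo `E₄ M + E₆ M`. -/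
def Minimal {N : ℕ} {ι : Type} [Fintype ι] (w : ι → ℕ) (g : ∀ i, ModularForm (G0 N) (w i)) :
    Prop :=
  ∀ (k : ℕ) (c : ι → ℂ) (f : ModularForm (G0 N) k),
    (∀ z, f z = ∑ i, (if w i = k then c i else 0) * g i z) → InI f → ∀ i, w i = k → c i = 0

/-- In each weight `k`, the `g_i` of weight `k` span `M_k` modulo `E₄ M + E₆ M`. -/
def Spanning {N : ℕ} {ι : Type} [Fintype ι] (w : ι → ℕ) (g : ∀ i, ModularForm (G0 N) (w i)) :
    Prop :=
  ∀ (k : ℕ) (f : ModularForm (G0 N) k),
    ∃ (c : ι → ℂ) (f' : ModularForm (G0 N) k), InI f' ∧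
      ∀ z, f z = f' z + ∑ i, (if w i = k then c i else 0) * g i z

/-! ### Function-level bookkeeping (avoids casts between weights) -/

/-- `φ` is (the function underlying) a level-one modular form of weight `k`. -/
def nak_L1 (k : ℤ) (φ : ℍ → ℂ) : Prop := ∃ c : ModularForm 𝒮ℒ k, ⇑c = φ

/-- `φ` is (the function underlying) a modular form of weight `k` and level `Γ₀(N)`. -/
def nak_LN (N : ℕ) (k : ℤ) (φ : ℍ → ℂ) : Prop := ∃ f : ModularForm (G0 N) k, ⇑f = φ

theorem nak_L1_cast {k k' : ℤ} (h : k = k') {φ : ℍ → ℂ} (hφ : nak_L1 k φ) : nak_L1 k' φ :=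
  h ▸ hφ

theorem nak_LN_cast {N : ℕ} {k k' : ℤ} (h : k = k') {φ : ℍ → ℂ} (hφ : nak_LN N k φ) :
    nak_LN N k' φ :=
  h ▸ hφ

theorem nak_L1_zero (k : ℤ) : nak_L1 k (fun _ => 0) := ⟨0, rfl⟩

theorem nak_LN_zero (N : ℕ) (k : ℤ) : nak_LN N k (fun _ => 0) := ⟨0, rfl⟩

theorem nak_L1_const (γ : ℂ) : nak_L1 0 (fun _ => γ) := ⟨ModularForm.const γ, rfl⟩

theorem nak_L1_add {k : ℤ} {φ ψ : ℍ → ℂ} (hφ : nak_L1 k φ) (hψ : nak_L1 k ψ) :
    nak_L1 k (fun z => φ z + ψ z) := by
  obtain ⟨c, rfl⟩ := hφ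
  obtain ⟨d, rfl⟩ := hψ
  exact ⟨c + d, rfl⟩

theorem nak_LN_sub {N : ℕ} {k : ℤ} {φ ψ : ℍ → ℂ} (hφ : nak_LN N k φ) (hψ : nak_LN N k ψ) :
    nak_LN N k (fun z => φ z - ψ z) := by
  obtain ⟨c, rfl⟩ := hφ
  obtain ⟨d, rfl⟩ := hψ
  exact ⟨c - d, rfl⟩

theorem nak_LN_neg {N : ℕ} {k : ℤ} {φ : ℍ → ℂ} (hφ : nak_LN N k φ) :
    nak_LN N k (fun z => - φ z) := by
  obtain ⟨c, rfl⟩ := hφ
  exact ⟨-c, rfl⟩

theorem nak_L1_E4_mul {k : ℤ} {φ : ℍ → ℂ} (hφ : nak_L1 (k - 4) φ) :
    nak_L1 k (fun z => E₄ z * φ z) := by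
  obtain ⟨c, rfl⟩ := hφ
  exact ⟨ModularForm.mcast (by ring) (E₄.mul c), rfl⟩

theorem nak_L1_E6_mul {k : ℤ} {φ : ℍ → ℂ} (hφ : nak_L1 (k - 6) φ) :
    nak_L1 k (fun z => E₆ z * φ z) := by
  obtain ⟨c, rfl⟩ := hφ
  exact ⟨ModularForm.mcast (by ring) (E₆.mul c), rfl⟩

theorem nak_L1_neg_weight {k : ℤ} (hk : k < 0) {φ : ℍ → ℂ} (hφ : nak_L1 k φ) (z : ℍ) :
    φ z = 0 := by
  obtain ⟨c, rfl⟩ := hφ
  rw [ModularFormClass.levelOne_neg_weight_eq_zero hk c]
  rfl

/-- Level-one forms: constant term plus an element of `(E₄, E₆)`. -/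
theorem nak_L1_decomp {m : ℤ} {φ : ℍ → ℂ} (h : nak_L1 m φ) :
    ∃ (γ : ℂ) (a b : ℍ → ℂ), nak_L1 (m - 4) a ∧ nak_L1 (m - 6) b ∧
      ∀ z, φ z = (if m = 0 then γ else 0) + E₄ z * a z + E₆ z * b z := by
  obtain ⟨c, rfl⟩ := h
  by_cases hm : m = 0
  · subst hm
    obtain ⟨γ, hγ⟩ := ModularFormClass.levelOne_weight_zero_const c
    exact ⟨γ, fun _ => 0, fun _ => 0, nak_L1_zero _, nak_L1_zero _, fun z => by simp [hγ]⟩
  · obtain ⟨a, b, hab⟩ := exists_E4_E6_decomp m hm c
    exact ⟨0, a, b, ⟨a, rfl⟩, ⟨b, rfl⟩, fun z => by simp [hm, hab z]⟩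

/-- Combinations with level-one coefficients, at the level of functions. -/
theorem nak_LN_comb {N : ℕ} [NeZero N] {ι : Type} [Fintype ι] (w : ι → ℕ)
    (g : ∀ i, ModularForm (G0 N) (w i)) (k : ℤ) (c : ι → ℍ → ℂ)
    (hc : ∀ i, nak_L1 (k - w i) (c i)) : nak_LN N k (fun z => ∑ i, c i z * g i z) := by
  choose c' hc' using hc
  obtain ⟨f, hf⟩ := exists_comb (k := k) g c'
  refine ⟨f, funext fun z => ?_⟩
  rw [hf z]
  exact Finset.sum_congr rfl fun i _ => by rw [hc' i]

/-- `E₄` is a nonzerodivisor on `M(Γ₀(N))` (via `regular_seq` and induction on the weight). -/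
theorem nak_E4_cancel_aux {N : ℕ} [NeZero N] (n : ℕ) :
    ∀ k : ℤ, k < n → ∀ F : ModularForm (G0 N) k, (∀ z, E₄ z * F z = 0) → ∀ z, F z = 0 := by
  induction n with
  | zero =>
    intro k hk F _ z
    rw [modularForm_neg_eq_zero (by simpa using hk) F]
    rfl
  | succ n ih =>
    intro k hk F hF z
    obtain ⟨C, hC1, hC2⟩ := regular_seq N (k + 4) (ModularForm.mcast (by ring) F) 0
      (by intro z; simp [ModularForm.mcast_apply, hF z])
    have hC0 : ∀ z, C z = 0 := by
      refine ih (k + 4 - 10) (by push_cast at hk; omega) C (fun z => ?_)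
      have := hC2 z
      simpa using this.symm
    have := hC1 z
    simpa [ModularForm.mcast_apply, hC0 z] using this

theorem nak_E4_cancel {N : ℕ} [NeZero N] {k : ℤ} {F : ℍ → ℂ} (hF : nak_LN N k F)
    (h : ∀ z, E₄ z * F z = 0) (z : ℍ) : F z = 0 := by
  obtain ⟨f, rfl⟩ := hF
  exact nak_E4_cancel_aux (k.toNat + 1) k (by push_cast; omega) f h z

/-- Key step: a combination `∑ cᵢ gᵢ` of a `Minimal` family lying in `E₄ M` has all its
coefficients divisible by `E₄`. -/
theorem nak_div_aux {N : ℕ} [NeZero N] {ι : Type} [Fintype ι] (w : ι → ℕ)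
    (g : ∀ i, ModularForm (G0 N) (w i)) (h : Minimal w g) (n : ℕ) :
    ∀ k : ℤ, k < n → ∀ c : ι → ℍ → ℂ, (∀ i, nak_L1 (k - w i) (c i)) →
      ∀ D : ℍ → ℂ, nak_LN N (k - 4) D → (∀ z, ∑ i, c i z * g i z = E₄ z * D z) →
      ∀ i, ∃ a : ℍ → ℂ, nak_L1 (k - 4 - w i) a ∧ ∀ z, c i z = E₄ z * a z := by
  induction n with
  | zero =>
    intro k hk c hc D _ _ i
    refine ⟨fun _ => 0, nak_L1_zero _, fun z => ?_⟩
    rw [nak_L1_neg_weight (by push_cast at hk; omega) (hc i) z]
    simp
  | succ n ih =>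
    intro k hk c hc D hD hrel
    choose γ a b ha hb hab using fun i => nak_L1_decomp (hc i)
    -- the modular forms `A = ∑ aᵢ gᵢ`, `B = ∑ bᵢ gᵢ`
    have hA : nak_LN N (k - 4) (fun z => ∑ i, a i z * g i z) :=
      nak_LN_comb w g (k - 4) a (fun i => nak_L1_cast (by ring) (ha i))
    have hB : nak_LN N (k - 6) (fun z => ∑ i, b i z * g i z) :=
      nak_LN_comb w g (k - 6) b (fun i => nak_L1_cast (by ring) (hb i))
    -- expand the relation
    have hexp : ∀ z, (∑ i, (if k - w i = 0 then γ i else 0) * g i z)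
        + E₄ z * (∑ i, a i z * g i z) + E₆ z * (∑ i, b i z * g i z) = E₄ z * D z := by
      intro z
      rw [← hrel z, Finset.mul_sum, Finset.mul_sum, ← Finset.sum_add_distrib,
        ← Finset.sum_add_distrib]
      refine Finset.sum_congr rfl fun i _ => ?_
      rw [hab i z]
      ring
    -- the constant terms vanish
    have hγ : ∀ i, (if k - (w i : ℤ) = 0 then γ i else 0) = 0 := by
      intro i
      by_cases hi : k - (w i : ℤ) = 0
      · rw [if_pos hi]
        have hk0 : k = ((w i : ℕ) : ℤ) := by omega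
        -- the form `f = ∑_{wⱼ = k} γⱼ gⱼ`
        have hf : nak_LN N ((w i : ℕ) : ℤ)
            (fun z => ∑ j, (if w j = w i then γ j else 0) * g j z) := by
          refine nak_LN_comb w g _ (fun j _ => if w j = w i then γ j else 0) (fun j => ?_)
          by_cases hj : w j = w i
          · simp only [hj, if_true]
            exact nak_L1_cast (by simp) (nak_L1_const (γ j))
          · simp only [hj, if_false]
            exact nak_L1_zero _
        obtain ⟨f, hf⟩ := hf
        obtain ⟨A', hA'⟩ := nak_LN_cast (by rw [hk0]) (nak_LN_sub hD hA)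
        obtain ⟨B', hB'⟩ := nak_LN_cast (by rw [hk0]) (nak_LN_neg hB)
        refine h (w i) γ f (fun z => by rw [hf]) ⟨A', B', fun z => ?_⟩ i rfl
        rw [hf, hA', hB']
        have := hexp z
        have hcongr : (∑ j, (if k - (w j : ℤ) = 0 then γ j else 0) * g j z)
            = ∑ j, (if w j = w i then γ j else 0) * g j z := by
          refine Finset.sum_congr rfl fun j _ => ?_
          have : (k - (w j : ℤ) = 0) ↔ (w j = w i) := by
            rw [hk0]
            constructor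
            · intro h'; omega
            · intro h'; rw [h']; ring
          simp only [this]
        rw [hcongr] at this
        linear_combination this
      · rw [if_neg hi]
    have hab' : ∀ i z, c i z = E₄ z * a i z + E₆ z * b i z := by
      intro i z
      rw [hab i z, hγ i, zero_add]
    -- apply the regular sequence property
    obtain ⟨A', hA'⟩ := nak_LN_sub hA hD
    obtain ⟨B', hB'⟩ := hB
    have hreg : ∀ z, E₄ z * A' z + E₆ z * B' z = 0 := by
      intro z
      rw [hA', hB']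
      have := hexp z
      simp only [hγ, zero_mul, Finset.sum_const_zero, zero_add] at this
      linear_combination this
    obtain ⟨C, hC1, hC2⟩ := regular_seq N k A' B' hreg
    -- induction hypothesis in weight `k - 6`
    have hih := ih (k - 6) (by push_cast at hk; omega) b
      (fun i => nak_L1_cast (by ring) (hb i)) (fun z => - C z)
      (nak_LN_cast (by ring) (nak_LN_neg ⟨C, rfl⟩))
      (fun z => by
        have := hC2 z
        rw [hB'] at this
        beta_reduce at this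
        rw [this]
        ring)
    intro i
    obtain ⟨b', hb', hbb'⟩ := hih i
    refine ⟨fun z => a i z + E₆ z * b' z,
      nak_L1_add (nak_L1_cast (by ring) (ha i)) (nak_L1_E6_mul (nak_L1_cast (by ring) hb')),
      fun z => ?_⟩
    rw [hab' i z, hbb' z]
    ring

theorem nak_indep_aux {N : ℕ} [NeZero N] {ι : Type} [Fintype ι] (w : ι → ℕ)
    (g : ∀ i, ModularForm (G0 N) (w i)) (h : Minimal w g) (n : ℕ) :
    ∀ k : ℤ, k < n → ∀ c : ι → ℍ → ℂ, (∀ i, nak_L1 (k - w i) (c i)) →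
      (∀ z, ∑ i, c i z * g i z = 0) → ∀ i z, c i z = 0 := by
  induction n with
  | zero =>
    intro k hk c hc _ i z
    exact nak_L1_neg_weight (by push_cast at hk; omega) (hc i) z
  | succ n ih =>
    intro k hk c hc hrel
    have hdiv := nak_div_aux w g h (n + 1) k hk c hc (fun _ => 0) (nak_LN_zero N _)
      (fun z => by rw [hrel z]; simp)
    choose a ha haa using hdiv
    have hF : nak_LN N (k - 4) (fun z => ∑ i, a i z * g i z) :=
      nak_LN_comb w g (k - 4) a ha
    have hF0 : ∀ z, ∑ i, a i z * g i z = 0 := by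
      refine nak_E4_cancel hF (fun z => ?_)
      rw [← hrel z, Finset.mul_sum]
      refine Finset.sum_congr rfl fun i _ => ?_
      rw [haa i z]
      ring
    have ha0 := ih (k - 4) (by push_cast at hk; omega) a ha hF0
    intro i z
    rw [haa i z, ha0 i z, mul_zero]

theorem nak_gen_aux {N : ℕ} [NeZero N] {ι : Type} [Fintype ι] (w : ι → ℕ)
    (g : ∀ i, ModularForm (G0 N) (w i)) (h : Spanning w g) (n : ℕ) :
    ∀ k : ℤ, k < n → ∀ f : ℍ → ℂ, nak_LN N k f →
      ∃ c : ι → ℍ → ℂ, (∀ i, nak_L1 (k - w i) (c i)) ∧ ∀ z, f z = ∑ i, c i z * g i z := by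
  induction n with
  | zero =>
    intro k hk f hf
    obtain ⟨f, rfl⟩ := hf
    refine ⟨fun _ _ => 0, fun i => nak_L1_zero _, fun z => ?_⟩
    rw [modularForm_neg_eq_zero (by simpa using hk) f]
    simp
  | succ n ih =>
    intro k hk f hf
    by_cases hk0 : k < 0
    · obtain ⟨f, rfl⟩ := hf
      refine ⟨fun _ _ => 0, fun i => nak_L1_zero _, fun z => ?_⟩
      rw [modularForm_neg_eq_zero hk0 f]
      simp
    · obtain ⟨m, rfl⟩ : ∃ m : ℕ, k = (m : ℤ) := ⟨k.toNat, by omega⟩
      obtain ⟨f, rfl⟩ := hf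
      obtain ⟨γ, f', ⟨a, b, hab⟩, hff'⟩ := h m f
      obtain ⟨α, hα, hαa⟩ := ih ((m : ℤ) - 4) (by push_cast at hk; omega) a ⟨a, rfl⟩
      obtain ⟨β, hβ, hβb⟩ := ih ((m : ℤ) - 6) (by push_cast at hk; omega) b ⟨b, rfl⟩
      refine ⟨fun i z => (if w i = m then γ i else 0) + (E₄ z * α i z + E₆ z * β i z),
        fun i => ?_, fun z => ?_⟩
      · refine nak_L1_add ?_ (nak_L1_add (nak_L1_E4_mul (nak_L1_cast (by ring) (hα i)))
          (nak_L1_E6_mul (nak_L1_cast (by ring) (hβ i))))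
        by_cases hi : w i = m
        · simp only [hi, if_true]
          exact nak_L1_cast (by simp) (nak_L1_const (γ i))
        · simp only [hi, if_false]
          exact nak_L1_zero _
      · rw [hff' z, hab z, hαa z, hβb z, Finset.mul_sum, Finset.mul_sum,
          ← Finset.sum_add_distrib, add_comm, ← Finset.sum_add_distrib]
        refine Finset.sum_congr rfl fun i _ => ?_
        ring

theorem indep_of_minimal {N : ℕ} [NeZero N] {ι : Type} [Fintype ι] (w : ι → ℕ)
    (g : ∀ i, ModularForm (G0 N) (w i)) (h : Minimal w g) : Indep w g := by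
  intro k c hrel i
  refine DFunLike.ext _ _ fun z => ?_
  exact nak_indep_aux w g h (k.toNat + 1) k (by push_cast; omega) (fun i => ⇑(c i))
    (fun i => ⟨c i, rfl⟩) hrel i z

theorem gen_of_spanning {N : ℕ} [NeZero N] {ι : Type} [Fintype ι] (w : ι → ℕ)
    (g : ∀ i, ModularForm (G0 N) (w i)) (h : Spanning w g) : Gen w g := by
  intro k f
  obtain ⟨c, hc, hf⟩ := nak_gen_aux w g h (k.toNat + 1) k (by push_cast; omega) f ⟨f, rfl⟩
  choose c' hc' using hc
  exact ⟨c', fun z => by rw [hf z]; exact Finset.sum_congr rfl fun i _ => by rw [hc' i]⟩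

end Fermat.Agent.S20
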