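import Fermat.Agent.S20.Basic

/-!
# S20 / part (C4), linear algebra: a separating family forces `μ ≤ #ι`  (OWNER: helper1)
-/

set_option autoImplicit false

namespace Fermat.Agent.S20

open UpperHalfPlane ModularForm
open scoped MatrixGroups ModularForm

/-- If some family of `μ` forms of level `N` has an invertible matrix of translates at a point,
then every generating family has at least `μ` elements. -/
theorem rge_card_of_separating {N : ℕ} [NeZero N] {ι : Type} [Fintype ι] (w : ι → ℕ)
    (g : ∀ i, ModularForm (G0 N) (w i)) (h : Gen w g)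
    (K : ℕ) (f : Q N → ModularForm (G0 N) K) (z₀ : ℍ)
    (hsep : ∀ v : Q N → ℂ, (∀ q : Q N, ∑ a : Q N, v a * tr (f a) q z₀ = 0) → v = 0) :
    Nat.card (Q N) ≤ Fintype.card ι := by
  classical
  by_contra hlt
  rw [not_le, Nat.card_eq_fintype_card] at hlt
  -- coefficients of `f a` with respect to the generators
  choose c hc using fun a => h (K : ℤ) (f a)
  let Φ : (Q N → ℂ) →ₗ[ℂ] (ι → ℂ) :=
    { toFun := fun v i => ∑ a, v a * c a i z₀
      map_add' := by
        intro u v
        funext i
        simp [add_mul, Finset.sum_add_distrib]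
      map_smul' := by
        intro r v
        funext i
        simp [Finset.mul_sum, mul_assoc] }
  have hker : LinearMap.ker Φ ≠ ⊥ := by
    apply LinearMap.ker_ne_bot_of_finrank_lt
    rw [Module.finrank_fintype_fun_eq_card, Module.finrank_fintype_fun_eq_card]
    exact hlt
  obtain ⟨v, hv, hv0⟩ := (Submodule.ne_bot_iff _).mp hker
  apply hv0
  apply hsep v
  intro q
  have hΦ : ∀ i, ∑ a, v a * c a i z₀ = 0 := fun i => congrFun (LinearMap.mem_ker.mp hv) i
  have h1 : ∀ a, tr (f a) q z₀ = ∑ i, c a i z₀ * tr (g i) q z₀ :=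
    fun a => tr_comb g (c a) (f a) (hc a) q z₀
  simp only [h1, Finset.mul_sum]
  rw [Finset.sum_comm]
  refine Finset.sum_eq_zero fun i _ => ?_
  have : ∀ a, v a * (c a i z₀ * tr (g i) q z₀) = (v a * c a i z₀) * tr (g i) q z₀ :=
    fun a => by ring
  rw [Finset.sum_congr rfl fun a _ => this a, ← Finset.sum_mul, hΦ i, zero_mul]

end Fermat.Agent.S20
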