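import Fermat.Agent.S20.Basic
import Fermat.Agent.S20.LevelOne

/-!
# S20 / part (C1): `E₄, E₆` is a regular sequence on `M(Γ₀(N))`  (OWNER: see `s20_modules`)

If `E₄ A + E₆ B = 0` then `C := B / (-E₄) = A / E₆` is holomorphic on `ℍ` (at each point one of
`E₄, E₆` is nonzero: `E4_E6_not_both_zero`), `Γ₀(N)`-invariant of weight `k - 10`, and bounded at
the cusps because `E₄ → 1` at `i∞` and `E₄` is `SL₂(ℤ)`-invariant.

Statement FROZEN; prefix extra names with `reg_`.
-/

set_option autoImplicit false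

namespace Fermat.Agent.S20

open UpperHalfPlane ModularForm EisensteinSeries
open scoped MatrixGroups ModularForm

/-- `E₄ → 1` at `i∞`. -/
theorem reg_tendsto_E4 : Filter.Tendsto (fun z : ℍ => E₄ z) atImInfty (nhds 1) := by
  have hanal := ModularFormClass.analyticAt_cuspFunction_zero E₄ one_pos one_mem_strictPeriods_SL
  have hper := SlashInvariantFormClass.periodic_comp_ofComplex E₄ one_mem_strictPeriods_SL
  have h0 : cuspFunction 1 E₄ 0 = 1 := by
    rw [cuspFunction_apply_zero one_pos hanal hper, ← qExpansion_coeff_zero one_pos hanal hper]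
    exact E_qExpansion_coeff_zero _ ⟨2, rfl⟩
  have := (hanal.continuousAt.tendsto.comp (qParam_tendsto_atImInfty one_pos)).congr
    (fun τ ↦ SlashInvariantFormClass.eq_cuspFunction E₄ τ one_mem_strictPeriods_SL one_ne_zero)
  rwa [h0] at this

/-- Level-one forms are invariant under the slash action of `SL₂(ℤ)`. -/
theorem reg_slash_levelOne {k : ℤ} (f : ModularForm 𝒮ℒ k) (γ : SL(2, ℤ)) :
    (⇑f : ℍ → ℂ) ∣[k] γ = ⇑f :=
  f.slash_action_eq' _ ⟨γ, rfl⟩

theorem regular_seq (N : ℕ) [NeZero N] (k : ℤ) (A : ModularForm (G0 N) (k - 4))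
    (B : ModularForm (G0 N) (k - 6)) (h : ∀ z, E₄ z * A z + E₆ z * B z = 0) :
    ∃ C : ModularForm (G0 N) (k - 10), (∀ z, A z = E₆ z * C z) ∧ (∀ z, B z = - (E₄ z * C z)) := by
  classical
  -- the quotient
  set φ : ℍ → ℂ := fun z => if E₆ z = 0 then - B z / E₄ z else A z / E₆ z with hφ
  have spec : ∀ z, A z = E₆ z * φ z ∧ B z = -(E₄ z * φ z) := by
    intro z
    by_cases h6 : E₆ z = 0
    · have h4 : E₄ z ≠ 0 := (E4_E6_not_both_zero z).resolve_right (not_not.2 h6)
      have hz := h z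
      rw [h6, zero_mul, add_zero] at hz
      have hA : A z = 0 := (mul_eq_zero.1 hz).resolve_left h4
      simp only [hφ, h6, if_true]
      constructor
      · rw [hA]; simp
      · field_simp
    · simp only [hφ, h6, if_false]
      constructor
      · field_simp
      · have hz := h z
        have : E₆ z * B z = E₆ z * (-(E₄ z * (A z / E₆ z))) := by
          field_simp
          linear_combination hz
        exact mul_left_cancel₀ h6 this
  have uniq : ∀ ψ : ℍ → ℂ, (∀ z, A z = E₆ z * ψ z) → (∀ z, B z = -(E₄ z * ψ z)) → ψ = φ := by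
    intro ψ h1 h2
    funext z
    rcases E4_E6_not_both_zero z with h4 | h6
    · have := h2 z
      rw [(spec z).2] at this
      exact (mul_left_cancel₀ h4 (neg_injective this)).symm
    · have := h1 z
      rw [(spec z).1] at this
      exact (mul_left_cancel₀ h6 this).symm
  have hfunA : (⇑A : ℍ → ℂ) = ⇑E₆ * φ := funext fun z => (spec z).1
  have hfunB : (⇑B : ℍ → ℂ) = -(⇑E₄ * φ) := funext fun z => (spec z).2
  -- slash of the two relations
  have slashA : ∀ γ : SL(2, ℤ), (⇑A : ℍ → ℂ) ∣[k - 4] γ = ⇑E₆ * (φ ∣[k - 10] γ) := by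
    intro γ
    have := ModularForm.mul_slash_SL2 6 (k - 10) γ ⇑E₆ φ
    rw [show (6 : ℤ) + (k - 10) = k - 4 by ring, ← hfunA, reg_slash_levelOne E₆ γ] at this
    exact this
  have slashB : ∀ γ : SL(2, ℤ), (⇑B : ℍ → ℂ) ∣[k - 6] γ = -(⇑E₄ * (φ ∣[k - 10] γ)) := by
    intro γ
    have := ModularForm.mul_slash_SL2 4 (k - 10) γ ⇑E₄ φ
    rw [show (4 : ℤ) + (k - 10) = k - 6 by ring, reg_slash_levelOne E₄ γ] at this
    rw [hfunB, SlashAction.neg_slash, this]
  -- holomorphy
  have hol : MDifferentiable (modelWithCornersSelf ℂ ℂ) (modelWithCornersSelf ℂ ℂ) φ := by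
    intro z₀
    rcases E4_E6_not_both_zero z₀ with h4 | h6
    · have hev : φ =ᶠ[nhds z₀] ((-⇑B) / ⇑E₄) := by
        have : ∀ᶠ z in nhds z₀, E₄ z ≠ 0 :=
          (E₄.holo'.continuous.continuousAt).eventually_ne h4
        filter_upwards [this] with z hz
        simp only [Pi.div_apply, Pi.neg_apply]
        rw [(spec z).2]
        field_simp
      refine MDifferentiableAt.congr_of_eventuallyEq ?_ hev
      exact ((B.holo' z₀).neg).div (E₄.holo' z₀) h4
    · have hev : φ =ᶠ[nhds z₀] (⇑A / ⇑E₆) := by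
        have : ∀ᶠ z in nhds z₀, E₆ z ≠ 0 :=
          (E₆.holo'.continuous.continuousAt).eventually_ne h6
        filter_upwards [this] with z hz
        simp only [Pi.div_apply]
        rw [(spec z).1]
        field_simp
      refine MDifferentiableAt.congr_of_eventuallyEq ?_ hev
      exact (A.holo' z₀).div (E₆.holo' z₀) h6
  -- invariance
  have inv : ∀ γ ∈ CongruenceSubgroup.Gamma0 N, φ ∣[k - 10] γ = φ := by
    intro γ hγ
    have hA : (⇑A : ℍ → ℂ) ∣[k - 4] γ = ⇑A := by
      rw [ModularForm.SL_slash]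
      exact SlashInvariantFormClass.slash_action_eq A _ (mapGL_mem_G0 hγ)
    have hB : (⇑B : ℍ → ℂ) ∣[k - 6] γ = ⇑B := by
      rw [ModularForm.SL_slash]
      exact SlashInvariantFormClass.slash_action_eq B _ (mapGL_mem_G0 hγ)
    apply uniq
    · intro z
      have := congrFun (slashA γ) z
      rwa [hA] at this
    · intro z
      have := congrFun (slashB γ) z
      rwa [hB] at this
  -- boundedness
  have bdd : ∀ γ : SL(2, ℤ), IsBoundedAtImInfty (φ ∣[k - 10] γ) := by
    intro γ
    have hB : IsBoundedAtImInfty ((⇑B : ℍ → ℂ) ∣[k - 6] γ) := by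
      have := isBoundedAtImInfty_tr B ((γ⁻¹ : SL(2, ℤ)) : Q N)
      rwa [tr_mk, inv_inv] at this
    have hE : ∀ᶠ z in atImInfty, (1 / 2 : ℝ) ≤ ‖E₄ z‖ := by
      have h1 : Filter.Tendsto (fun z : ℍ => ‖E₄ z‖) atImInfty (nhds ‖(1 : ℂ)‖) :=
        reg_tendsto_E4.norm
      rw [norm_one] at h1
      exact h1.eventually_const_le (by norm_num)
    have hO : (φ ∣[k - 10] γ) =O[atImInfty] ((⇑B : ℍ → ℂ) ∣[k - 6] γ) := by
      refine Asymptotics.IsBigO.of_bound 2 ?_
      filter_upwards [hE] with z hz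
      have hz' := congrFun (slashB γ) z
      simp only [Pi.neg_apply, Pi.mul_apply] at hz'
      rw [hz', norm_neg, norm_mul]
      have : 0 ≤ ‖(φ ∣[k - 10] γ) z‖ := norm_nonneg _
      nlinarith
    exact hO.trans hB
  obtain ⟨C, hC⟩ := exists_modularForm_of_bounded (N := N) (k := k - 10) φ hol inv bdd
  refine ⟨C, fun z => ?_, fun z => ?_⟩
  · rw [hC]; exact (spec z).1
  · rw [hC]; exact (spec z).2

end Fermat.Agent.S20
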